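import Fermat.Agent.Switch.Descent

set_option autoImplicit false

/-!
# The family of curves with the same 5-torsion as a given one
-/

namespace FLTAgent.Switch

open Polynomial WeierstrassCurve

local notation "Qb" => AlgebraicClosure ℚ

/-- The 5-torsion of a curve over `ℚ`. -/
noncomputable abbrev Tors5 (W : Affine ℚ) : Submodule ℤ (Affine.Point (W⁄Qb)) :=
  Submodule.torsionBy ℤ (Affine.Point (W⁄Qb)) ((5 : ℕ) : ℤ)

/-- A Galois-equivariant isomorphism of 5-torsion. -/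
def SameFive (W₁ W₂ : Affine ℚ) : Prop :=
  ∃ e : Tors5 W₁ ≃+ Tors5 W₂, ∀ (σ : Qb ≃ₐ[ℚ] Qb) (x : Tors5 W₁), e (σ • x) = σ • e x

theorem galoisTrace_eq_of_sameFive {W₁ W₂ : Affine ℚ} (h : SameFive W₁ W₂) (σ : Qb ≃ₐ[ℚ] Qb) :
    Affine.Point.galoisTrace ℚ (K := Qb) W₁ 5 σ = Affine.Point.galoisTrace ℚ (K := Qb) W₂ 5 σ := by
  obtain ⟨e, he⟩ := h
  let el : Tors5 W₁ ≃ₗ[ZMod 5] Tors5 W₂ :=
    { e.toAddMonoidHom.toZModLinearMap 5 with
      invFun := e.invFun
      left_inv := e.left_inv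
      right_inv := e.right_inv }
  rw [Affine.Point.galoisTrace_def, Affine.Point.galoisTrace_def,
    ← LinearMap.trace_conj' (Affine.Point.galoisRepModuleEnd ℚ W₁ 5 σ) el]
  congr 1
  refine LinearMap.ext fun y => ?_
  simp only [LinearEquiv.conj_apply, LinearMap.coe_comp, Function.comp_apply,
    LinearEquiv.coe_coe, Affine.Point.galoisRepModuleEnd_apply]
  show e (σ • e.symm y) = σ • y
  rw [he, AddEquiv.apply_symm_apply]

/-- The level structure as a bijection with the 5-torsion. -/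
noncomputable def lvlEquiv {A B : ℚ} [((shortQ A B)⁄Qb).IsElliptic] {ζ : Qb} (hζ : IsFifth ζ)
    {w : Qb × Qb} (h : Fits ((shortQ A B)⁄Qb) w) :
    ZMod 5 × ZMod 5 ≃+ Tors5 (shortQ A B) :=
  AddEquiv.ofBijective ((lvl h hζ).codRestrict (Tors5 (shortQ A B)).toAddSubgroup
      fun a => (Submodule.mem_torsionBy_iff _ _).2 (by simpa using five_lvl h hζ a)) <| by
    have hc : Nat.card (Tors5 (shortQ A B)) = 25 :=
      FLTAgent.Torsion.natCard_torsionBy 5 (by norm_num)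
    have : Finite (Tors5 (shortQ A B)) := Nat.finite_of_card_ne_zero (by rw [hc]; norm_num)
    refine (Nat.bijective_iff_injective_and_card _).2 ⟨fun a b e => ?_, ?_⟩
    · exact lvl_injective h hζ (congrArg Subtype.val e)
    · exact Eq.trans (by simp) hc.symm

theorem lvlEquiv_coe {A B : ℚ} [((shortQ A B)⁄Qb).IsElliptic] {ζ : Qb} (hζ : IsFifth ζ)
    {w : Qb × Qb} (h : Fits ((shortQ A B)⁄Qb) w) (a : ZMod 5 × ZMod 5) :
    (lvlEquiv hζ h a : Affine.Point ((shortQ A B)⁄Qb)) = lvl h hζ a := rfl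

theorem map_cov (φ : Qb →+* Qb) (w : Qb × Qb) :
    cov (φ w.1, φ w.2) = (φ (cov w).1, φ (cov w).2) := by
  simp [cov, map_klFu, map_klFv]

theorem exists_isFifth : ∃ ζ : Qb, IsFifth ζ := by
  obtain ⟨ζ, hζ⟩ := IsAlgClosed.exists_root (X ^ 4 + X ^ 3 + X ^ 2 + X + 1 : Qb[X])
    (by
      have : (X ^ 4 + X ^ 3 + X ^ 2 + X + 1 : Qb[X]).natDegree = 4 := by compute_degree!
      intro e
      have := natDegree_eq_zero_iff_degree_le_zero.2 e.le
      omega)
  exact ⟨ζ, by simpa [IsFifth, IsRoot.def] using hζ⟩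

theorem exists_klF_line_ne_zero {K : Type*} [Field K] [CharZero K] (w : K × K)
    (hw : klF w.1 w.2 ≠ 0) :
    ∃ k : ℕ, klF (cov w + (k : K) • w).1 (cov w + (k : K) • w).2 ≠ 0 := by
  set P : K[X] := klF (C (cov w).1 + C w.1 * X) (C (cov w).2 + C w.2 * X) with hP
  have heval : ∀ t, P.eval t = klF (cov w + t • w).1 (cov w + t • w).2 := fun t => by
    rw [hP, ← coe_evalRingHom, map_klF]
    simp [mul_comm t]
  have hP0 : P ≠ 0 := by
    intro e
    apply hw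
    have hc : P.coeff 12 = klF w.1 w.2 := by
      have h12 : ∀ (a b : K[X]) (i j : ℕ), a.natDegree ≤ i → b.natDegree ≤ j →
          (a * b).coeff (i + j) = a.coeff i * b.coeff j := fun a b i j ha hb =>
        coeff_mul_add_eq_of_natDegree_le ha hb
      set U : K[X] := C (cov w).1 + C w.1 * X with hU
      set V : K[X] := C (cov w).2 + C w.2 * X with hV
      have dU : U.natDegree ≤ 1 := by rw [hU]; compute_degree
      have dV : V.natDegree ≤ 1 := by rw [hV]; compute_degree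
      have cU : ∀ n, (U ^ n).coeff n = w.1 ^ n := fun n => by
        have := coeff_pow_of_natDegree_le (m := n) dU
        rw [Nat.mul_one] at this
        rw [this, hU]; simp
      have cV : ∀ n, (V ^ n).coeff n = w.2 ^ n := fun n => by
        have := coeff_pow_of_natDegree_le (m := n) dV
        rw [Nat.mul_one] at this
        rw [this, hV]; simp
      have dn : ∀ (p : K[X]) (n : ℕ), p.natDegree ≤ 1 → (p ^ n).natDegree ≤ n := fun p n hp =>
        (natDegree_pow_le_of_le n hp).trans (by simp)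
      have e1 := h12 (U ^ 1) (V ^ 11) 1 11 (dn U 1 dU) (dn V 11 dV)
      have e6 := h12 (U ^ 6) (V ^ 6) 6 6 (dn U 6 dU) (dn V 6 dV)
      have e11 := h12 (U ^ 11) (V ^ 1) 11 1 (dn U 11 dU) (dn V 1 dV)
      have : P = U ^ 1 * V ^ 11 - C 11 * (U ^ 6 * V ^ 6) - U ^ 11 * V ^ 1 := by
        rw [hP, klF]
        simp only [map_ofNat]; ring
      rw [this, coeff_sub, coeff_sub, coeff_C_mul,
        show (12 : ℕ) = 1 + 11 from rfl, e1, show 1 + 11 = 6 + 6 from rfl, e6,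
        show 6 + 6 = 11 + 1 from rfl, e11, cU, cV, cU, cV, cU, cV]
      unfold klF; ring
    rw [← hc, e, coeff_zero]
  by_contra hall
  simp only [not_exists, not_not] at hall
  refine hP0 (eq_zero_of_infinite_isRoot _ ((Set.infinite_range_of_injective
    (Nat.cast_injective (R := K))).mono ?_))
  rintro _ ⟨n, rfl⟩
  have := hall n
  simpa [IsRoot.def, heval] using this

theorem compat_invariant {ζ : Qb} {hζ : IsFifth ζ} {g : (Qb × Qb) →ₗ[Qb] (Qb × Qb)}
    {M : ZMod 5 × ZMod 5 →+ ZMod 5 × ZMod 5} (hc : Compat hζ g M) (v : Qb × Qb)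
    (hv : klF v.1 v.2 ≠ 0) :
    cA (g v).1 (g v).2 = cA v.1 v.2 ∧ cB (g v).1 (g v).2 = cB v.1 v.2 := by
  let E : Affine Qb := ⟨0, 0, 0, cA v.1 v.2, cB v.1 v.2⟩
  have hf : Fits E v := ⟨rfl, rfl, rfl, rfl, rfl⟩
  have : E.IsElliptic := by
    rw [isElliptic_iff, isUnit_iff_ne_zero, hf.Δ_eq, hf.a4, hf.a6]
    have h := klein_syzygy v.1 v.2
    unfold cA cB
    intro e
    exact mul_ne_zero (by norm_num : (1728 : Qb) ≠ 0) (pow_ne_zero 5 hv)
      (by linear_combination (1 / 1259712 : Qb) * e - h)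
  obtain ⟨f, -⟩ := hc.lev E v hf
  exact ⟨f.a4.symm, f.a6.symm⟩

/-- The one-parameter family attached to a short curve. -/
theorem exists_family (A B : ℚ) (hA : A ≠ 0) (hB : B ≠ 0) (hΔ : 4 * A ^ 3 + 27 * B ^ 2 ≠ 0) :
    ∃ (PA PB : ℚ[X]) (w d : Qb × Qb),
      PA.map (algebraMap ℚ Qb) = lineA w d ∧ PB.map (algebraMap ℚ Qb) = lineB w d ∧
      cA w.1 w.2 = algebraMap ℚ Qb A ∧ cB w.1 w.2 = algebraMap ℚ Qb B ∧
      w.1 * d.2 - w.2 * d.1 = -12 * klF w.1 w.2 ∧ klF d.1 d.2 ≠ 0 ∧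
      (∃ k : ℕ, d = cov w + (k : Qb) • w) ∧
      ∀ t : ℚ, 4 * PA.eval t ^ 3 + 27 * PB.eval t ^ 2 ≠ 0 →
        SameFive (shortQ A B) (shortQ (PA.eval t) (PB.eval t)) := by
  have := isElliptic_shortQ hΔ
  have hE : ((shortQ A B)⁄Qb).IsElliptic :=
    inferInstanceAs ((shortQ A B).map (algebraMap ℚ Qb)).IsElliptic
  obtain ⟨ζ, hζ⟩ := exists_isFifth
  obtain ⟨w, hw4, hw6⟩ := exists_fits (K := Qb) (A := algebraMap ℚ Qb A) (B := algebraMap ℚ Qb B)
    ((_root_.map_ne_zero _).2 hA) ((_root_.map_ne_zero _).2 hB) (by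
      have := (_root_.map_ne_zero (algebraMap ℚ Qb)).2 hΔ
      simpa [map_ofNat] using this)
  have hw : Fits ((shortQ A B)⁄Qb) w := fits_shortQ.2 ⟨hw4, hw6⟩
  have hH : klH w.1 w.2 ≠ 0 := fun e => by
    rw [cA, e, mul_zero] at hw4; exact (_root_.map_ne_zero _).2 hA hw4.symm
  have hT : klT w.1 w.2 ≠ 0 := fun e => by
    rw [cB, e, mul_zero] at hw6; exact (_root_.map_ne_zero _).2 hB hw6.symm
  obtain ⟨k, hk⟩ := exists_klF_line_ne_zero w hw.klF_ne_zero
  set d := cov w + (k : Qb) • w with hd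
  have gal : ∀ σ : Qb ≃ₐ[ℚ] Qb, ∃ (g : (Qb × Qb) →ₗ[Qb] (Qb × Qb))
      (M : ZMod 5 × ZMod 5 →+ ZMod 5 × ZMod 5), Compat hζ g M ∧ (σ w.1, σ w.2) = g w ∧
      ∀ t : ℚ, (σ (w + (algebraMap ℚ Qb t) • d).1, σ (w + (algebraMap ℚ Qb t) • d).2) =
        g (w + (algebraMap ℚ Qb t) • d) := by
    intro σ
    obtain ⟨g, M, hc, hg⟩ := orbit hζ hw (hw.galois σ) hH hT
    refine ⟨g, M, hc, hg, fun t => ?_⟩
    have hgd : (σ d.1, σ d.2) = g d := by
      rw [hd, map_add, map_smul, ← hc.cov_comm, ← hg]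
      have := map_cov (σ : Qb →+* Qb) w
      simp only [RingHom.coe_coe] at this
      rw [this]
      ext <;> simp
    rw [map_add, map_smul, ← hg, ← hgd]
    ext <;> simp
  have hS : {n : ℕ | klF (w + (n : Qb) • d).1 (w + (n : Qb) • d).2 ≠ 0}.Infinite := by
    set P : Qb[X] := klF (C w.1 + C d.1 * X) (C w.2 + C d.2 * X) with hP
    have heval : ∀ t, P.eval t = klF (w + t • d).1 (w + t • d).2 := fun t => by
      rw [hP, ← coe_evalRingHom, map_klF]
      simp [mul_comm t]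
    have hP0 : P ≠ 0 := fun e => hw.klF_ne_zero (by simpa [e] using (heval 0).symm)
    refine Set.Infinite.mono ?_ ((((finite_setOfPred_isRoot hP0).preimage
      (Nat.cast_injective (R := Qb)).injOn)).infinite_compl)
    intro n hn
    simpa [IsRoot.def, heval] using hn
  have fixed : ∀ (σ : Qb ≃ₐ[ℚ] Qb), ∀ n ∈ {n : ℕ | klF (w + (n : Qb) • d).1
      (w + (n : Qb) • d).2 ≠ 0},
      σ ((lineA w d).eval (n : Qb)) = (lineA w d).eval (n : Qb) ∧
      σ ((lineB w d).eval (n : Qb)) = (lineB w d).eval (n : Qb) := by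
    intro σ n hn
    obtain ⟨g, M, hc, -, hgt⟩ := gal σ
    have hgt' := hgt n
    rw [map_natCast] at hgt'
    set w' := w + (n : Qb) • d with hw'
    simp only [eval_lineA, eval_lineB, ← hw']
    have h1 := map_cA (σ : Qb →+* Qb) w'.1 w'.2
    have h2 := map_cB (σ : Qb →+* Qb) w'.1 w'.2
    simp only [RingHom.coe_coe] at h1 h2
    have e1 : σ w'.1 = (g w').1 := congrArg Prod.fst hgt'
    have e2 : σ w'.2 = (g w').2 := congrArg Prod.snd hgt'
    rw [h1, h2, e1, e2]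
    exact compat_invariant hc w' hn
  obtain ⟨PA, hPA⟩ := exists_rat_poly (lineA w d) hS fun σ n hn => (fixed σ n hn).1
  obtain ⟨PB, hPB⟩ := exists_rat_poly (lineB w d) hS fun σ n hn => (fixed σ n hn).2
  refine ⟨PA, PB, w, d, hPA, hPB, hw4, hw6, ?_, hk, ⟨k, rfl⟩, fun t ht => ?_⟩
  · simp only [hd, cov, Prod.fst_add, Prod.snd_add, Prod.smul_fst, Prod.smul_snd, smul_eq_mul]
    linear_combination -(euler_klF w.1 w.2)
  have := isElliptic_shortQ ht
  have hE' : ((shortQ (PA.eval t) (PB.eval t))⁄Qb).IsElliptic :=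
    inferInstanceAs ((shortQ (PA.eval t) (PB.eval t)).map (algebraMap ℚ Qb)).IsElliptic
  set w' := w + (algebraMap ℚ Qb t) • d with hw'def
  have hw' : Fits ((shortQ (PA.eval t) (PB.eval t))⁄Qb) w' := by
    rw [fits_shortQ, hw'def, ← eval_lineA, ← eval_lineB, ← hPA, ← hPB, eval_map_apply,
      eval_map_apply]
    exact ⟨rfl, rfl⟩
  refine ⟨(lvlEquiv hζ hw).symm.trans (lvlEquiv hζ hw'), fun σ x => ?_⟩
  obtain ⟨a, rfl⟩ := (lvlEquiv hζ hw).surjective x
  obtain ⟨g, M, hc, hg, hgt⟩ := gal σ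
  obtain ⟨c, hsm⟩ := smul_lvl hζ σ
  obtain ⟨f₁, e₁⟩ := hc.lev _ w hw
  obtain ⟨f₂, e₂⟩ := hc.lev _ w' hw'
  have key : ∀ (A' B' : ℚ) [((shortQ A' B')⁄Qb).IsElliptic] (v : Qb × Qb)
      (hv : Fits ((shortQ A' B')⁄Qb) v) (f : Fits ((shortQ A' B')⁄Qb) (g v)),
      (σ v.1, σ v.2) = g v → lvl f hζ = (lvl hv hζ).comp M → ∀ b,
      σ • lvlEquiv hζ hv b = lvlEquiv hζ hv (M (twistHom c b)) := by
    intro A' B' _ v hv f hgv ef b
    refine Subtype.ext ?_
    show σ • lvl hv hζ b = lvl hv hζ (M (twistHom c b))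
    rw [hsm A' B' v hv b, ← AddMonoidHom.comp_apply (lvl hv hζ) M, ← ef]
    congr! 2
  rw [key _ _ w hw f₁ hg e₁]
  simp only [AddEquiv.trans_apply, AddEquiv.symm_apply_apply]
  rw [key _ _ w' hw' f₂ (hgt t) e₂]

end FLTAgent.Switch
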