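import Fermat.Prelude.Def_FLTPrelim_Modularity
import Fermat.Agent.Switch.Twist
import Fermat.Agent.Reduction.VariableChange

set_option autoImplicit false

/-!
# From a general integral model to the short one
-/

namespace FLTAgent.Switch

open WeierstrassCurve

local notation "Qb" => AlgebraicClosure ℚ

theorem SameFive.refl (W : Affine ℚ) : SameFive W W := ⟨AddEquiv.refl _, fun _ _ => rfl⟩

theorem SameFive.symm {W₁ W₂ : Affine ℚ} (h : SameFive W₁ W₂) : SameFive W₂ W₁ := by
  obtain ⟨e, he⟩ := h
  refine ⟨e.symm, fun σ x => e.injective ?_⟩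
  rw [AddEquiv.apply_symm_apply, he, AddEquiv.apply_symm_apply]

theorem SameFive.trans {W₁ W₂ W₃ : Affine ℚ} (h : SameFive W₁ W₂) (h' : SameFive W₂ W₃) :
    SameFive W₁ W₃ := by
  obtain ⟨e, he⟩ := h
  obtain ⟨f, hf⟩ := h'
  exact ⟨e.trans f, fun σ x => by simp [he, hf]⟩

theorem sameFive_of_pointEquiv {W₁ W₂ : Affine ℚ}
    (e : Affine.Point (W₁⁄Qb) ≃+ Affine.Point (W₂⁄Qb))
    (he : ∀ (σ : Qb ≃ₐ[ℚ] Qb) (P : Affine.Point (W₁⁄Qb)), e (σ • P) = σ • e P) :
    SameFive W₁ W₂ := by
  have h1 : ∀ x : Tors5 W₁, e x ∈ Tors5 W₂ := fun x => by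
    have := x.2
    rw [Submodule.mem_torsionBy_iff] at this ⊢
    rw [← map_zsmul, this, map_zero]
  have h2 : ∀ x : Tors5 W₂, e.symm x ∈ Tors5 W₁ := fun x => by
    have := x.2
    rw [Submodule.mem_torsionBy_iff] at this ⊢
    rw [← map_zsmul, this, map_zero]
  refine ⟨{ toFun := fun x => ⟨e x, h1 x⟩
            invFun := fun x => ⟨e.symm x, h2 x⟩
            left_inv := fun x => Subtype.ext (e.symm_apply_apply _)
            right_inv := fun x => Subtype.ext (e.apply_symm_apply _)
            map_add' := fun x y => Subtype.ext (map_add e _ _) }, fun σ x => ?_⟩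
  exact Subtype.ext (he σ x)

/-- The change of variables to the short model. -/
noncomputable def toShort (W : WeierstrassCurve ℚ) : VariableChange ℚ where
  u := Units.mk0 (1 / 6) (by norm_num)
  r := -W.b₂ / 12
  s := -W.a₁ / 2
  t := -W.a₃ / 2 + W.a₁ * W.b₂ / 24

theorem toShort_smul (W : WeierstrassCurve ℚ) :
    toShort W • W = shortQ (-27 * W.c₄) (-54 * W.c₆) := by
  have hu : (((toShort W).u⁻¹ : ℚˣ) : ℚ) = 6 := by simp [toShort]
  refine WeierstrassCurve.ext ?_ ?_ ?_ ?_ ?_ <;>
    simp only [variableChange_a₁, variableChange_a₂, variableChange_a₃, variableChange_a₄,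
      variableChange_a₆, hu, shortQ] <;>
    simp only [toShort, WeierstrassCurve.c₄, WeierstrassCurve.c₆, WeierstrassCurve.b₂,
      WeierstrassCurve.b₄, WeierstrassCurve.b₆] <;> ring

/-- Transport of points along an equality of curves. -/
def pointCast {L : Type*} [Field L] [DecidableEq L] {E E' : WeierstrassCurve L} (h : E = E') :
    E.toAffine.Point ≃+ E'.toAffine.Point := h ▸ AddEquiv.refl _

theorem pointCast_some {L : Type*} [Field L] [DecidableEq L] {E E' : WeierstrassCurve L}
    (h : E = E') {x y : L} (hn : E.toAffine.Nonsingular x y) :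
    pointCast h (.some x y hn) = .some x y (h ▸ hn) := by
  subst h; rfl

theorem sameFive_smul (C : VariableChange ℚ) (W W' : Affine ℚ) (h : C • W = W') :
    SameFive W W' := by
  have hh : C.map (algebraMap ℚ Qb) • (W⁄Qb) = (W'⁄Qb) := by
    subst h; exact map_variableChange _ _ _
  refine sameFive_of_pointEquiv
    ((FLTAgent.Reduction.vcEquiv (C.map (algebraMap ℚ Qb)) (W⁄Qb)).trans (pointCast hh))
    fun σ P => ?_
  rcases P with _ | ⟨x, y, hn⟩
  · show ((FLTAgent.Reduction.vcEquiv _ _).trans (pointCast hh)) (σ • 0) =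
      σ • ((FLTAgent.Reduction.vcEquiv _ _).trans (pointCast hh)) 0
    rw [smul_zero, map_zero, smul_zero]
  · rw [Affine.Point.algEquiv_smul_def, Affine.Point.map_some]
    simp only [AddEquiv.trans_apply, FLTAgent.Reduction.vcEquiv_some, pointCast_some]
    rw [Affine.Point.algEquiv_smul_def, Affine.Point.map_some, Affine.Point.some.injEq]
    constructor <;>
      simp [FLTAgent.Reduction.vcX, FLTAgent.Reduction.vcY, VariableChange.map, σ.commutes]

/-- The integral model and its short form have the same 5-torsion. -/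
theorem sameFive_short (W : WeierstrassCurve ℤ) :
    SameFive (W.map (Int.castRingHom ℚ)) (shortQ (-27 * (W.c₄ : ℚ)) (-54 * (W.c₆ : ℚ))) := by
  refine sameFive_smul (toShort (W.map (Int.castRingHom ℚ))) _ _ ?_
  rw [toShort_smul, map_c₄, map_c₆]
  rfl

end FLTAgent.Switch
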