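import Fermat.Prelude.Def_FLTPrelim_ModularRep
import Fermat.Agent.Torsion.Structure
import Fermat.Agent.Char.Rational

set_option autoImplicit false

/-!
# Irreducibility at 3 from the 3-division polynomial
-/

namespace FLTAgent.Switch

open WeierstrassCurve Polynomial

local notation "Qb" => AlgebraicClosure ℚ

/-- The 3-division polynomial of `y² = x³ + A x + B`. -/
def psiThree {R : Type*} [CommRing R] (A B x : R) : R :=
  3 * x ^ 4 + 6 * A * x ^ 2 + 12 * B * x - A ^ 2

theorem psiThree_c₄_c₆ {R : Type*} [CommRing R] (W : WeierstrassCurve R) (x : R) :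
    psiThree (-27 * W.c₄) (-54 * W.c₆) (36 * x + 3 * W.b₂) =
      36 ^ 4 * (3 * x ^ 4 + W.b₂ * x ^ 3 + 3 * W.b₄ * x ^ 2 + 3 * W.b₆ * x + W.b₈) := by
  simp only [psiThree, WeierstrassCurve.c₄, WeierstrassCurve.c₆]
  linear_combination (-419904 : R) * W.b_relation

theorem zmod_three_cases : ∀ c : ZMod 3, c = 0 ∨ c = 1 ∨ c = -1 := by decide

theorem irreducible_three_of_no_root (W : WeierstrassCurve ℤ) (hΔ : W.Δ ≠ 0)
    (h : ∀ x : ℚ, psiThree (-27 * (W.c₄ : ℚ)) (-54 * (W.c₆ : ℚ)) x ≠ 0) :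
    W.ModRepIsIrreducible 3 := by
  set V : Affine ℚ := W.map (Int.castRingHom ℚ) with hV
  have : Fact (Nat.Prime 3) := ⟨Nat.prime_three⟩
  have hVe : V.IsElliptic := by
    rw [hV, isElliptic_iff, isUnit_iff_ne_zero, map_Δ]
    simpa using hΔ
  have hE : (V⁄Qb).IsElliptic := inferInstanceAs (V.map (algebraMap ℚ Qb)).IsElliptic
  let T := Submodule.torsionBy ℤ (Affine.Point (V⁄Qb)) ((3 : ℕ) : ℤ)
  have h3 : ((3 : ℕ) : Qb) ≠ 0 := by norm_num
  have hcard : Nat.card T = 9 := FLTAgent.Torsion.natCard_torsionBy 3 h3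
  have hfinite : Finite T := Nat.finite_of_card_ne_zero (by rw [hcard]; norm_num)
  have hrank : Module.finrank (ZMod 3) T = 2 := by
    have hh := Module.natCard_eq_pow_finrank (K := ZMod 3) (V := T)
    rw [hcard, Nat.card_zmod] at hh
    exact Nat.pow_right_injective (le_of_lt (by norm_num : 2 < 3)) hh.symm
  refine ⟨Finite.one_lt_card_iff_nontrivial.1 (by rw [hcard]; norm_num), fun N hN => ?_⟩
  by_contra hne
  rw [not_or] at hne
  obtain ⟨P, hP, hP0⟩ := (Submodule.ne_bot_iff N).1 hne.1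
  have hspan : Submodule.span (ZMod 3) {P} = N := by
    refine Submodule.eq_of_le_of_finrank_le ((Submodule.span_singleton_le_iff_mem _ _).2 hP) ?_
    rw [finrank_span_singleton hP0]
    have h2 : Module.finrank (ZMod 3) N < 2 := (Submodule.finrank_lt hne.2).trans_eq hrank
    omega
  have hpm : ∀ σ : Qb ≃ₐ[ℚ] Qb, σ • P = P ∨ σ • P = -P := by
    intro σ
    have hmem := hN σ P hP
    rw [← hspan, Submodule.mem_span_singleton] at hmem
    obtain ⟨c, hc⟩ := hmem
    rcases zmod_three_cases c with rfl | rfl | rfl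
    · rw [zero_smul] at hc
      exact absurd ((smul_eq_zero_iff_eq σ).1 hc.symm) hP0
    · exact Or.inl (by rw [← hc, one_smul])
    · exact Or.inr (by rw [← hc, neg_smul, one_smul])
  obtain ⟨⟨Q, hQT⟩, rfl⟩ : ∃ Q : T, Q = P := ⟨P, rfl⟩
  rcases Q with _ | ⟨x, y, hns⟩
  · exact hP0 rfl
  have hzero : (3 : ℤ) • Affine.Point.some x y hns = 0 := by
    simpa [T, Submodule.mem_torsionBy_iff] using hQT
  have hroot := (FLTAgent.Torsion.zsmul_some_eq_zero_iff hns 3).1 hzero
  rw [ΨSq_three, eval_pow, pow_eq_zero_iff two_ne_zero] at hroot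
  obtain ⟨r, hr⟩ := FLTAgent.GalChar.exists_rat_of_fixed (x := x) fun σ => by
    rcases hpm σ with e | e <;>
    · have e' := congrArg Subtype.val e
      change σ • Affine.Point.some x y hns = _ at e'
      rw [Affine.Point.algEquiv_smul_def, Affine.Point.map_some] at e'
      first
        | exact (Affine.Point.some.injEq ..).mp e' |>.1
        | (simp only [Submodule.coe_neg, Affine.Point.neg_some] at e'
           exact (Affine.Point.some.injEq ..).mp e' |>.1)
  refine h (36 * r + 3 * (W.b₂ : ℚ)) ?_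
  refine (algebraMap ℚ Qb).injective ?_
  have key := psiThree_c₄_c₆ (W.map (Int.castRingHom ℚ)) r
  rw [map_c₄, map_c₆, map_b₂] at key
  simp only [eq_intCast] at key
  rw [key, map_zero, map_mul]
  refine mul_eq_zero_of_right _ ?_
  rw [← hr] at hroot
  simp only [Ψ₃, eval_add, eval_mul, eval_pow, eval_X, eval_C, eval_ofNat, map_b₂, map_b₄, map_b₆,
    map_b₈, eq_intCast] at hroot
  simp only [map_add, map_mul, map_pow, map_ofNat, map_intCast, map_b₂, map_b₄, map_b₆, map_b₈,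
    eq_intCast] at hroot ⊢
  have hb : (V⁄Qb).b₂ = (W.b₂ : Qb) ∧ (V⁄Qb).b₄ = (W.b₄ : Qb) ∧ (V⁄Qb).b₆ = (W.b₆ : Qb) ∧
      (V⁄Qb).b₈ = (W.b₈ : Qb) := by
    show ((W.map (Int.castRingHom ℚ)).map (algebraMap ℚ Qb)).b₂ = _ ∧
      ((W.map (Int.castRingHom ℚ)).map (algebraMap ℚ Qb)).b₄ = _ ∧
      ((W.map (Int.castRingHom ℚ)).map (algebraMap ℚ Qb)).b₆ = _ ∧
      ((W.map (Int.castRingHom ℚ)).map (algebraMap ℚ Qb)).b₈ = _
    simp
  rw [hb.1, hb.2.1, hb.2.2.1, hb.2.2.2] at hroot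
  linear_combination hroot

end FLTAgent.Switch
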