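import Mathlib

set_option autoImplicit false

/-!
# Integer roots of a quartic family

If `y⁴ + 18 A(m) y² + 108 B(m) y - 27 A(m)²` has an integer root for every natural `m`, with
`deg A ≤ 20`, `deg B ≤ 30` and simple roots at infinity, then it has a polynomial root.
-/

namespace FLTAgent.Switch

open Polynomial Filter Topology

section Quartic

variable {R : Type*} [CommRing R]

/-- The monic quartic attached to the 3-division polynomial. -/
def quart (a b y : R) : R := y ^ 4 + 18 * a * y ^ 2 + 108 * b * y - 27 * a ^ 2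

/-- Its derivative. -/
def quartD (a b y : R) : R := 4 * y ^ 3 + 36 * a * y + 108 * b

theorem quart_add (a b y h : R) :
    quart a b (y + h) =
      quart a b y + h * (quartD a b y + h * (6 * y ^ 2 + 18 * a) + h ^ 2 * (4 * y) + h ^ 3) := by
  unfold quart quartD; ring

theorem map_quart {S : Type*} [CommRing S] (φ : R →+* S) (a b y : R) :
    φ (quart a b y) = quart (φ a) (φ b) (φ y) := by simp [quart, map_ofNat]

end Quartic

theorem quartD_ne_zero {K : Type*} [Field K] [CharZero K] {a b y : K}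
    (hd : 4 * a ^ 3 + 27 * b ^ 2 ≠ 0) (hy : quart a b y = 0) : quartD a b y ≠ 0 := by
  intro h
  unfold quartD at h
  unfold quart at hy
  apply hd
  have h2 : (y ^ 2 + 3 * a) ^ 2 = 0 := by linear_combination (-1 / 3 : K) * hy + (y / 3) * h
  have h3 : y ^ 2 = -3 * a := by linear_combination pow_eq_zero_iff two_ne_zero |>.1 h2
  have h4 : 2 * a * y + 9 * b = 0 := by linear_combination (1 / 12 : K) * h - (y / 3) * h3
  linear_combination ((4 / 3 : K) * a ^ 2) * h3 + ((2 * a * y - 9 * b) / (-3)) * h4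

theorem natDegree_le_pred_of_coeff_eq_zero {R : Type*} [CommRing R] {p : R[X]} {n : ℕ}
    (h : p.natDegree ≤ n + 1) (hc : p.coeff (n + 1) = 0) : p.natDegree ≤ n :=
  natDegree_le_iff_coeff_eq_zero.2 fun i hi => by
    rcases eq_or_lt_of_le (Nat.succ_le_of_lt hi) with e | e
    · rw [← e]; exact hc
    · exact coeff_eq_zero_of_natDegree_lt (lt_of_le_of_lt h e)

/-- Polynomial approximation of a branch at infinity. -/
theorem exists_branch {K : Type*} [Field K] {A B : K[X]} (hA : A.natDegree ≤ 20)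
    (hB : B.natDegree ≤ 30) {ρ : K} (hρ : quart (A.coeff 20) (B.coeff 30) ρ = 0)
    (hD : quartD (A.coeff 20) (B.coeff 30) ρ ≠ 0) :
    ∃ P : K[X], P.natDegree ≤ 10 ∧ P.coeff 10 = ρ ∧ (quart A B P).natDegree ≤ 29 := by
  suffices ∀ k ≤ 10, ∃ P : K[X], P.natDegree ≤ 10 ∧ P.coeff 10 = ρ ∧
      (quart A B P).natDegree ≤ 39 - k by simpa using this 10 le_rfl
  intro k hk
  induction k with
  | zero =>
    refine ⟨C ρ * X ^ 10, by compute_degree, by simp, ?_⟩
    have d1 : (C ρ * X ^ 10 : K[X]).natDegree ≤ 10 := by compute_degree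
    refine natDegree_le_pred_of_coeff_eq_zero ?_ ?_
    · unfold quart; compute_degree <;> omega
    · rw [← hρ]
      unfold quart
      have h2 := coeff_pow_of_natDegree_le (m := 2) d1
      have h4 := coeff_pow_of_natDegree_le (m := 4) d1
      have ha2 := coeff_pow_of_natDegree_le (m := 2) hA
      have c1 : ((18 : K[X]) * A * (C ρ * X ^ 10) ^ 2).coeff (39 + 1) =
          18 * A.coeff 20 * ρ ^ 2 := by
        rw [show (39 + 1 : ℕ) = 20 + 20 from rfl,
          coeff_mul_add_eq_of_natDegree_le (by compute_degree; exact hA) (by compute_degree)]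
        norm_num at h2
        rw [coeff_ofNat_mul, h2]
      have c2 : ((108 : K[X]) * B * (C ρ * X ^ 10)).coeff (39 + 1) = 108 * B.coeff 30 * ρ := by
        rw [show (39 + 1 : ℕ) = 30 + 10 from rfl,
          coeff_mul_add_eq_of_natDegree_le (by compute_degree; exact hB) d1]
        simp [coeff_ofNat_mul]
      rw [coeff_sub, coeff_add, coeff_add, c1, c2]
      norm_num at h4 ha2
      rw [show (39 + 1 : ℕ) = 40 from rfl, coeff_ofNat_mul, ha2, h4]
  | succ k ih =>
    obtain ⟨P, hP, hPc, hG⟩ := ih (by omega)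
    obtain ⟨e, he⟩ : ∃ e, 9 = k + e := ⟨9 - k, by omega⟩
    set c := -(quart A B P).coeff (30 + e) / quartD (A.coeff 20) (B.coeff 30) ρ with hc
    set h : K[X] := C c * X ^ e with hh
    have dh : h.natDegree ≤ e := by rw [hh]; compute_degree
    refine ⟨P + h, (natDegree_add_le_of_degree_le hP (dh.trans (by omega))), ?_, ?_⟩
    · rw [coeff_add, hPc, coeff_eq_zero_of_natDegree_lt (lt_of_le_of_lt dh (by omega)), add_zero]
    · rw [show 39 - (k + 1) = 29 + e by omega]
      rw [show 39 - k = 30 + e by omega] at hG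
      have dD : (quartD A B P).natDegree ≤ 30 := by
        unfold quartD; compute_degree <;> omega
      have d1 : (h * (6 * P ^ 2 + 18 * A)).natDegree ≤ 20 + e := by compute_degree <;> omega
      have d2 : (h ^ 2 * (4 * P)).natDegree ≤ 10 + 2 * e := by compute_degree <;> omega
      have d3 : (h ^ 3).natDegree ≤ 3 * e := by compute_degree <;> omega
      set T : K[X] := h * (6 * P ^ 2 + 18 * A) + h ^ 2 * (4 * P) + h ^ 3 with hT
      have dT : T.natDegree ≤ 29 := by rw [hT]; compute_degree <;> omega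
      have hexp : quart A B (P + h) = quart A B P + h * quartD A B P + h * T := by
        rw [quart_add, hT]; ring
      rw [hexp]
      refine natDegree_le_pred_of_coeff_eq_zero ?_ ?_
      · compute_degree <;> omega
      · have cD : (quartD A B P).coeff 30 = quartD (A.coeff 20) (B.coeff 30) ρ := by
          have h3 := coeff_pow_of_natDegree_le (m := 3) hP
          norm_num at h3
          have c1 : ((36 : K[X]) * A * P).coeff 30 = 36 * A.coeff 20 * ρ := by
            rw [show (30 : ℕ) = 20 + 10 from rfl,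
              coeff_mul_add_eq_of_natDegree_le (by compute_degree; exact hA) hP, hPc]
            simp [coeff_ofNat_mul]
          unfold quartD
          rw [coeff_add, coeff_add, c1, coeff_ofNat_mul, coeff_ofNat_mul, h3, hPc]
        rw [coeff_add, coeff_add, show 29 + e + 1 = e + 30 by omega,
          coeff_mul_add_eq_of_natDegree_le dh dD, cD,
          coeff_eq_zero_of_natDegree_lt (p := h * T) (lt_of_le_of_lt natDegree_mul_le (by omega))]
        rw [hh, coeff_C_mul, coeff_X_pow, if_pos rfl, mul_one, hc, div_mul_cancel₀ _ hD,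
          Nat.add_comm e 30, add_neg_cancel, add_zero]

theorem tendsto_eval_div_pow {p : ℂ[X]} {n : ℕ} (h : p.natDegree ≤ n) :
    Tendsto (fun m : ℕ => p.eval (m : ℂ) / (m : ℂ) ^ n) atTop (𝓝 (p.coeff n)) := by
  have hinv : Tendsto (fun m : ℕ => ((m : ℂ))⁻¹) atTop (𝓝 0) := tendsto_inv_atTop_nhds_zero_nat
  have hsum : Tendsto (fun m : ℕ => ∑ i ∈ Finset.range (n + 1), p.coeff i * ((m : ℂ)⁻¹) ^ (n - i))
      atTop (𝓝 (∑ i ∈ Finset.range (n + 1), p.coeff i * (0 : ℂ) ^ (n - i))) :=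
    tendsto_finsetSum _ fun i _ => (hinv.pow _).const_mul _
  have hval : ∑ i ∈ Finset.range (n + 1), p.coeff i * (0 : ℂ) ^ (n - i) = p.coeff n := by
    rw [Finset.sum_eq_single n]
    · simp
    · intro i hi hne
      rw [Finset.mem_range] at hi
      rw [zero_pow (by omega), mul_zero]
    · simp
  rw [← hval]
  refine hsum.congr' ((eventually_ge_atTop 1).mono fun m hm => ?_)
  have hm0 : (m : ℂ) ≠ 0 := by exact_mod_cast Nat.one_le_iff_ne_zero.1 hm
  show _ = p.eval (m : ℂ) / _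
  rw [eval_eq_sum_range' (Nat.lt_succ_of_le h), Finset.sum_div]
  refine Finset.sum_congr rfl fun i hi => ?_
  rw [Finset.mem_range] at hi
  obtain ⟨j, rfl⟩ : ∃ j, n = i + j := ⟨n - i, by omega⟩
  rw [Nat.add_sub_cancel_left, inv_pow, pow_add, ← div_eq_mul_inv]
  field_simp

theorem norm_le_of_quart_eq_zero {α β η : ℂ} {K : ℝ} (hα : ‖α‖ ≤ K) (hβ : ‖β‖ ≤ K)
    (h : quart α β η = 0) : ‖η‖ ≤ 1 + (126 * K + 27 * K ^ 2) := by
  have hK : 0 ≤ K := (norm_nonneg _).trans hα
  by_contra hlt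
  rw [not_le] at hlt
  have h1 : 1 ≤ ‖η‖ := by nlinarith
  have e : η ^ 4 = -(18 * α * η ^ 2) - 108 * β * η + 27 * α ^ 2 := by
    unfold quart at h; linear_combination h
  have hn : ‖η‖ ^ 4 ≤ 18 * K * ‖η‖ ^ 2 + 108 * K * ‖η‖ + 27 * K ^ 2 := by
    calc ‖η‖ ^ 4 = ‖η ^ 4‖ := (norm_pow _ _).symm
      _ ≤ ‖18 * α * η ^ 2‖ + ‖108 * β * η‖ + ‖27 * α ^ 2‖ := by
          rw [e]
          exact (norm_add_le _ _).trans (add_le_add ((norm_sub_le _ _).trans (by rw [norm_neg]))
            le_rfl)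
      _ ≤ _ := by
          simp only [norm_mul, norm_pow, Complex.norm_ofNat]
          gcongr
  have h2 : ‖η‖ ≤ ‖η‖ ^ 2 := le_self_pow₀ h1 two_ne_zero
  have h3 : (1 : ℝ) ≤ ‖η‖ ^ 2 := one_le_pow₀ h1
  have h4 : ‖η‖ ^ 2 * ‖η‖ ^ 2 ≤ (126 * K + 27 * K ^ 2) * ‖η‖ ^ 2 := by
    calc ‖η‖ ^ 2 * ‖η‖ ^ 2 = ‖η‖ ^ 4 := by ring
      _ ≤ _ := hn
      _ ≤ 18 * K * ‖η‖ ^ 2 + 108 * K * ‖η‖ ^ 2 + 27 * K ^ 2 * ‖η‖ ^ 2 := by
          refine add_le_add (add_le_add le_rfl ?_) (le_mul_of_one_le_right (by positivity) h3)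
          exact mul_le_mul_of_nonneg_left h2 (by positivity)
      _ = _ := by ring
  have h5 := le_of_mul_le_mul_right h4 (by positivity)
  linarith

/-- Integer roots are close to the branches. -/
theorem eventually_near_branch {A B : ℂ[X]} (hA : A.natDegree ≤ 20) (hB : B.natDegree ≤ 30)
    (hd : 4 * A.coeff 20 ^ 3 + 27 * B.coeff 30 ^ 2 ≠ 0) :
    ∃ Ps : Finset ℂ[X], (∀ P ∈ Ps, P.natDegree ≤ 10) ∧ Ps.card ≤ 4 ∧
      ∀ ε > 0, ∀ᶠ m : ℕ in atTop, ∀ y : ℂ, quart (A.eval (m : ℂ)) (B.eval (m : ℂ)) y = 0 →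
        ∃ P ∈ Ps, ‖y - P.eval (m : ℂ)‖ < ε := by
  classical
  set a := A.coeff 20
  set b := B.coeff 30
  set G0 : ℂ[X] := X ^ 4 + C (18 * a) * X ^ 2 + C (108 * b) * X - C (27 * a ^ 2) with hG0
  have hG0deg : G0.natDegree = 4 := by rw [hG0]; compute_degree!
  have hG0mon : G0.Monic := by rw [hG0]; monicity!
  have hG0eval : ∀ z, G0.eval z = quart a b z := fun z => by simp [hG0, quart]
  have hroot : ∀ ρ ∈ G0.roots.toFinset, quart a b ρ = 0 := fun ρ hρ => by
    rw [Multiset.mem_toFinset, mem_roots hG0mon.ne_zero] at hρ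
    rw [← hG0eval]; exact hρ
  choose P hP using fun ρ : G0.roots.toFinset => exists_branch hA hB (hroot ρ ρ.2)
    (quartD_ne_zero hd (hroot ρ ρ.2))
  refine ⟨Finset.univ.image P, ?_, ?_, ?_⟩
  · intro Q hQ
    obtain ⟨ρ, -, rfl⟩ := Finset.mem_image.1 hQ
    exact (hP ρ).1
  · refine Finset.card_image_le.trans ?_
    rw [Finset.card_univ, Fintype.card_coe]
    exact (Multiset.toFinset_card_le _).trans ((card_roots' _).trans hG0deg.le)
  intro ε hε
  have hsplit : ∀ z : ℂ, quart a b z = (G0.roots.map fun ρ => z - ρ).prod := fun z => by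
    rw [← hG0eval]
    have hs : G0.Splits := IsAlgClosed.splits G0
    conv_lhs => rw [hs.eq_prod_roots_of_monic hG0mon]
    rw [eval_multiset_prod, Multiset.map_map]
    simp
  have hA' := tendsto_eval_div_pow hA
  have hB' := tendsto_eval_div_pow hB
  have hbranch : ∀ ρ : G0.roots.toFinset, ∃ δ > 0, ∀ᶠ m : ℕ in atTop, ∀ y : ℂ,
      quart (A.eval (m : ℂ)) (B.eval (m : ℂ)) y = 0 → ‖y / (m : ℂ) ^ 10 - ρ‖ < δ →
        ‖y - (P ρ).eval (m : ℂ)‖ < ε := by
    intro ρ
    obtain ⟨hPd, hPc, hPG⟩ := hP ρ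
    set g := quartD a b (ρ : ℂ) with hg
    have hg0 : g ≠ 0 := quartD_ne_zero hd (hroot ρ ρ.2)
    let Φ : ℂ × ℂ × ℂ × ℂ → ℂ := fun q => quartD q.1 q.2.1 q.2.2.1 +
      (q.2.2.2 * (6 * q.2.2.1 ^ 2 + 18 * q.1) + q.2.2.2 ^ 2 * (4 * q.2.2.1) + q.2.2.2 ^ 3)
    have hΦ : Continuous Φ := by
      simp only [Φ, quartD]; fun_prop
    have hΦ0 : Φ (a, b, (ρ : ℂ), 0) = g := by simp [Φ, hg]
    obtain ⟨η, hη, hη'⟩ := Metric.continuousAt_iff.1 hΦ.continuousAt (‖g‖ / 2) (by positivity)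
    have hπ := tendsto_eval_div_pow hPd
    rw [hPc] at hπ
    have hsmall : Tendsto (fun m : ℕ => (quart A B (P ρ)).eval (m : ℂ) / (m : ℂ) ^ 30) atTop
        (𝓝 ((quart A B (P ρ)).coeff 30)) := tendsto_eval_div_pow (hPG.trans (by norm_num))
    rw [coeff_eq_zero_of_natDegree_lt (lt_of_le_of_lt hPG (by norm_num))] at hsmall
    refine ⟨η / 2, by positivity, ?_⟩
    have ev1 := Metric.tendsto_nhds.1 hA' η hη
    have ev2 := Metric.tendsto_nhds.1 hB' η hη
    have ev3 := Metric.tendsto_nhds.1 hπ (η / 2) (by positivity)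
    have ev4 := Metric.tendsto_nhds.1 hsmall (ε * (‖g‖ / 2)) (by positivity)
    filter_upwards [ev1, ev2, ev3, ev4, eventually_ge_atTop 1] with m h1 h2 h3 h4 hm y hy hnear
    have hm0 : (m : ℂ) ≠ 0 := by exact_mod_cast Nat.one_le_iff_ne_zero.1 hm
    set M : ℂ := (m : ℂ) ^ 10 with hM
    have hM0 : M ≠ 0 := pow_ne_zero _ hm0
    set d := y / M - (P ρ).eval (m : ℂ) / M with hd'
    set q : ℂ × ℂ × ℂ × ℂ := (A.eval (m : ℂ) / (m : ℂ) ^ 20, B.eval (m : ℂ) / (m : ℂ) ^ 30,
      (P ρ).eval (m : ℂ) / M, d)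
    have hq : dist q (a, b, (ρ : ℂ), 0) < η := by
      simp only [q, Prod.dist_eq, max_lt_iff]
      refine ⟨h1, h2, h3.trans (by linarith), ?_⟩
      rw [dist_zero_right]
      rw [dist_eq_norm] at h3
      calc ‖d‖ = ‖(y / M - ρ) - ((P ρ).eval (m : ℂ) / M - ρ)‖ := by rw [hd']; congr 1; ring
        _ ≤ _ := norm_sub_le _ _
        _ < η / 2 + η / 2 := add_lt_add hnear h3
        _ = η := by ring
    have hlow : ‖g‖ / 2 ≤ ‖Φ q‖ := by
      have := hη' hq
      rw [hΦ0, dist_eq_norm] at this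
      have h' := norm_sub_norm_le g (Φ q)
      rw [norm_sub_rev] at h'
      linarith
    have key : (quart A B (P ρ)).eval (m : ℂ) / (m : ℂ) ^ 30 + (y - (P ρ).eval (m : ℂ)) * Φ q = 0 := by
      have e := quart_add (A.eval (m : ℂ)) (B.eval (m : ℂ)) ((P ρ).eval (m : ℂ))
        (y - (P ρ).eval (m : ℂ))
      rw [add_sub_cancel, hy] at e
      have hq' : (quart A B (P ρ)).eval (m : ℂ) =
          quart (A.eval (m : ℂ)) (B.eval (m : ℂ)) ((P ρ).eval (m : ℂ)) := by
        rw [← coe_evalRingHom, map_quart]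
      rw [hq']
      simp only [Φ, q, hd', hM, quartD] at e ⊢
      field_simp
      linear_combination -e
    rw [dist_zero_right] at h4
    have : ‖y - (P ρ).eval (m : ℂ)‖ * (‖g‖ / 2) < ε * (‖g‖ / 2) := by
      refine lt_of_le_of_lt ?_ h4
      rw [eq_neg_of_add_eq_zero_left key, norm_neg, norm_mul]
      exact mul_le_mul_of_nonneg_left hlow (norm_nonneg _)
    exact lt_of_mul_lt_mul_right this (by positivity)
  choose δ hδ hbr using hbranch
  obtain ⟨δ₀, hδ₀, hδ₀le⟩ : ∃ δ₀ > 0, ∀ ρ, δ₀ ≤ δ ρ :=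
    ⟨Finset.univ.inf' (by
      rw [Finset.univ_nonempty_iff]
      obtain ⟨z, hz⟩ := IsAlgClosed.exists_root G0 (by
        rw [degree_eq_natDegree hG0mon.ne_zero, hG0deg]; norm_num)
      exact ⟨⟨z, by rw [Multiset.mem_toFinset, mem_roots hG0mon.ne_zero]; exact hz⟩⟩) δ,
      (Finset.lt_inf'_iff _).2 fun ρ _ => hδ ρ, fun ρ => Finset.inf'_le _ (Finset.mem_univ ρ)⟩
  set K := ‖a‖ + ‖b‖ + 1 with hK
  set R := 1 + (126 * K + 27 * K ^ 2) with hR
  have hRpos : 0 < R := by positivity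
  obtain ⟨τ, hτ, hτR⟩ := exists_pos_mul_lt (pow_pos hδ₀ 4) (18 * R ^ 2 + 108 * R + 27 * (2 * K))
  rw [mul_comm] at hτR
  have ev1 := Metric.tendsto_nhds.1 hA' (min τ 1) (by positivity)
  have ev2 := Metric.tendsto_nhds.1 hB' (min τ 1) (by positivity)
  filter_upwards [ev1, ev2, eventually_ge_atTop 1, eventually_all.2 hbr] with m h1 h2 hm hall y hy
  have hm0 : (m : ℂ) ≠ 0 := by exact_mod_cast Nat.one_le_iff_ne_zero.1 hm
  rw [lt_min_iff, dist_eq_norm] at h1 h2
  set α := A.eval (m : ℂ) / (m : ℂ) ^ 20 with hα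
  set β := B.eval (m : ℂ) / (m : ℂ) ^ 30 with hβ
  set z := y / (m : ℂ) ^ 10 with hz
  have hz0 : quart α β z = 0 := by
    rw [hα, hβ, hz]
    unfold quart at hy ⊢
    field_simp
    linear_combination hy
  have hnα : ‖α‖ ≤ K := by
    have := norm_le_norm_add_norm_sub' α a
    have := norm_nonneg b
    linarith [h1.2]
  have hnβ : ‖β‖ ≤ K := by
    have := norm_le_norm_add_norm_sub' β b
    have := norm_nonneg a
    linarith [h2.2]
  have hzR : ‖z‖ ≤ R := norm_le_of_quart_eq_zero hnα hnβ hz0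
  have hsmall : ‖quart a b z‖ < δ₀ ^ 4 := by
    have e : quart a b z =
        (a - α) * (18 * z ^ 2) + (b - β) * (108 * z) - (a - α) * (27 * (a + α)) := by
      unfold quart at hz0 ⊢; linear_combination hz0
    rw [norm_sub_rev] at h1 h2
    calc ‖quart a b z‖ ≤ ‖(a - α) * (18 * z ^ 2)‖ + ‖(b - β) * (108 * z)‖ +
          ‖(a - α) * (27 * (a + α))‖ := by
            rw [e]; exact (norm_sub_le _ _).trans (add_le_add (norm_add_le _ _) le_rfl)
      _ ≤ τ * (18 * R ^ 2) + τ * (108 * R) + τ * (27 * (2 * K)) := by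
            simp only [norm_mul, norm_pow, Complex.norm_ofNat]
            have hab : ‖a + α‖ ≤ 2 * K := (norm_add_le _ _).trans (by
              have := norm_nonneg b; linarith)
            gcongr <;> first | exact h1.1.le | exact h2.1.le
      _ < _ := by linarith [mul_add τ (18 * R ^ 2 + 108 * R) (27 * (2 * K)),
            mul_add τ (18 * R ^ 2) (108 * R)]
  obtain ⟨ρ, hρ, hnear⟩ : ∃ ρ ∈ G0.roots, ‖z - ρ‖ < δ₀ := by
    by_contra hno
    simp only [not_exists, not_and, not_lt] at hno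
    have hcard : G0.roots.card = 4 := by
      rw [(IsAlgClosed.splits G0).natDegree_eq_card_roots.symm, hG0deg]
    obtain ⟨r₁, r₂, r₃, r₄, hr⟩ := Multiset.card_eq_four.1 hcard
    rw [hsplit, hr] at hsmall
    simp only [hr, Multiset.insert_eq_cons, Multiset.mem_cons, Multiset.mem_singleton, forall_eq_or_imp,
      forall_eq] at hno
    simp only [Multiset.insert_eq_cons, Multiset.map_cons, Multiset.map_singleton,
      Multiset.prod_cons, Multiset.prod_singleton, norm_mul] at hsmall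
    have hsq : δ₀ ^ 4 ≤ ‖z - r₁‖ * (‖z - r₂‖ * (‖z - r₃‖ * ‖z - r₄‖)) := by
      calc δ₀ ^ 4 = δ₀ * (δ₀ * (δ₀ * δ₀)) := by ring
        _ ≤ _ := by gcongr <;> tauto
    linarith
  refine ⟨P ⟨ρ, Multiset.mem_toFinset.2 hρ⟩, Finset.mem_image_of_mem _ (Finset.mem_univ _), ?_⟩
  exact hall _ y hy (lt_of_lt_of_le hnear (hδ₀le _))

end FLTAgent.Switch
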