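import Fermat.Agent.Switch.Descent
import Fermat.Agent.Switch.Growth

set_option autoImplicit false

/-!
# The family has no polynomial 3-torsion point

At a zero of `F` the discriminant vanishes to order exactly five, which is not a multiple of three.
-/

namespace FLTAgent.Switch

open Polynomial

theorem klein_syzygy_ring {R : Type*} [CommRing R] (u v : R) :
    klH u v ^ 3 - klT u v ^ 2 = 1728 * klF u v ^ 5 := by
  unfold klH klT klF; ring

variable {K : Type*} [Field K]

/-- `klF` along a line. -/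
noncomputable def lineF (w d : K × K) : K[X] :=
  klF (C w.1 + C d.1 * X) (C w.2 + C d.2 * X)

theorem eval_lineF (w d : K × K) (t : K) :
    (lineF w d).eval t = klF (w + t • d).1 (w + t • d).2 := by
  rw [lineF, ← coe_evalRingHom, map_klF]
  simp [mul_comm t]

theorem derivative_lineF (w d : K × K) :
    derivative (lineF w d) = C d.1 * klFu (C w.1 + C d.1 * X) (C w.2 + C d.2 * X) +
      C d.2 * klFv (C w.1 + C d.1 * X) (C w.2 + C d.2 * X) := by
  simp only [lineF, klF, klFu, klFv, derivative_sub, derivative_mul, derivative_pow,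
    derivative_add, derivative_C, derivative_X, derivative_ofNat, map_ofNat, zero_add, zero_mul,
    mul_one]
  simp only [Nat.cast_ofNat, map_ofNat, show (6 : ℕ) - 1 = 5 from rfl, show (11 : ℕ) - 1 = 10 from rfl]
  ring

theorem natDegree_lineF_le (w d : K × K) : (lineF w d).natDegree ≤ 12 := by
  unfold lineF klF; compute_degree!

theorem coeff_lineF (w d : K × K) : (lineF w d).coeff 12 = klF d.1 d.2 := by
  set U : K[X] := C w.1 + C d.1 * X with hU
  set V : K[X] := C w.2 + C d.2 * X with hV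
  have dU : U.natDegree ≤ 1 := by rw [hU]; compute_degree
  have dV : V.natDegree ≤ 1 := by rw [hV]; compute_degree
  have cU : ∀ n, (U ^ n).coeff n = d.1 ^ n := fun n => by
    have := coeff_pow_of_natDegree_le (m := n) dU
    rw [Nat.mul_one] at this
    rw [this, hU]; simp
  have cV : ∀ n, (V ^ n).coeff n = d.2 ^ n := fun n => by
    have := coeff_pow_of_natDegree_le (m := n) dV
    rw [Nat.mul_one] at this
    rw [this, hV]; simp
  have dn : ∀ (p : K[X]) (n : ℕ), p.natDegree ≤ 1 → (p ^ n).natDegree ≤ n := fun p n hp =>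
    (natDegree_pow_le_of_le n hp).trans (by simp)
  have key : ∀ i j, (U ^ i * V ^ j).coeff (i + j) = d.1 ^ i * d.2 ^ j := fun i j => by
    rw [coeff_mul_add_eq_of_natDegree_le (dn U i dU) (dn V j dV), cU, cV]
  have e : lineF w d = U ^ 1 * V ^ 11 - C 11 * (U ^ 6 * V ^ 6) - U ^ 11 * V ^ 1 := by
    rw [lineF, klF]
    simp only [map_ofNat, ← hU, ← hV]; ring
  rw [e, coeff_sub, coeff_sub, coeff_C_mul, show (12 : ℕ) = 1 + 11 from rfl, key,
    show 1 + 11 = 6 + 6 from rfl, key, show 6 + 6 = 11 + 1 from rfl, key]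
  unfold klF; ring

variable [CharZero K]

theorem disc_line (w d : K × K) :
    4 * lineA w d ^ 3 + 27 * lineB w d ^ 2 = C (-136048896) * lineF w d ^ 5 := by
  have e := congrArg (fun x : K[X] => -78732 * x)
    (show klH (C w.1 + C d.1 * X) (C w.2 + C d.2 * X) ^ 3 -
        klT (C w.1 + C d.1 * X) (C w.2 + C d.2 * X) ^ 2 =
        1728 * klF (C w.1 + C d.1 * X) (C w.2 + C d.2 * X) ^ 5 from klein_syzygy_ring _ _)
  rw [lineA, lineB, lineF, cA, cB, map_neg, map_ofNat]
  linear_combination e

theorem add_smul_ne_zero {w d : K × K} (hdet : w.1 * d.2 - w.2 * d.1 ≠ 0) (t : K) :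
    ¬ ((w + t • d).1 = 0 ∧ (w + t • d).2 = 0) := by
  rintro ⟨h1, h2⟩
  simp only [Prod.fst_add, Prod.snd_add, Prod.smul_fst, Prod.smul_snd, smul_eq_mul] at h1 h2
  exact hdet (by linear_combination d.2 * h1 - d.1 * h2)

theorem lineA_ne_zero_of_lineF {w d : K × K} (hdet : w.1 * d.2 - w.2 * d.1 ≠ 0) {t : K}
    (h : (lineF w d).eval t = 0) : (lineA w d).eval t ≠ 0 := by
  intro hA
  rw [eval_lineA, cA] at hA
  rw [eval_lineF] at h
  exact add_smul_ne_zero hdet t (klH_klF_no_common_zero (by norm_num) _ _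
    ((mul_eq_zero.1 hA).resolve_left (by norm_num)) h)

theorem rootMultiplicity_lineF {w d : K × K} (hdet : w.1 * d.2 - w.2 * d.1 ≠ 0)
    (hd : klF d.1 d.2 ≠ 0) {t : K} (h : (lineF w d).eval t = 0) :
    rootMultiplicity t (lineF w d) = 1 := by
  have hne : lineF w d ≠ 0 := fun e => hd (by rw [← coeff_lineF w d, e, coeff_zero])
  have h1 : 0 < rootMultiplicity t (lineF w d) := (rootMultiplicity_pos hne).2 h
  by_contra h2
  have h3 : 1 < rootMultiplicity t (lineF w d) := by omega
  obtain ⟨-, h4⟩ := (one_lt_rootMultiplicity_iff_isRoot hne).1 h3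
  rw [eval_lineF] at h
  rw [IsRoot.def, derivative_lineF, eval_add, eval_mul, eval_mul, eval_C, eval_C,
    ← coe_evalRingHom, map_klFu, map_klFv] at h4
  simp only [coe_evalRingHom, eval_add, eval_mul, eval_C, eval_X] at h4
  simp only [Prod.fst_add, Prod.snd_add, Prod.smul_fst, Prod.smul_snd, smul_eq_mul] at h
  have heu := euler_klF (w.1 + d.1 * t) (w.2 + d.2 * t)
  rw [show klF (w.1 + d.1 * t) (w.2 + d.2 * t) = 0 by rw [← h]; ring_nf, mul_zero] at heu
  refine add_smul_ne_zero hdet t ?_
  simp only [Prod.fst_add, Prod.snd_add, Prod.smul_fst, Prod.smul_snd, smul_eq_mul, mul_comm t]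
  refine grad_klF_no_common_zero _ _ ?_ ?_
  · refine mul_left_cancel₀ hdet ?_
    linear_combination d.2 * heu - (w.2 + d.2 * t) * h4
  · refine mul_left_cancel₀ hdet ?_
    linear_combination (w.1 + d.1 * t) * h4 - d.1 * heu

theorem quart_line_ne_zero [IsAlgClosed K] {w d : K × K}
    (hdet : w.1 * d.2 - w.2 * d.1 ≠ 0) (hw : cA w.1 w.2 ≠ 0) (hd : klF d.1 d.2 ≠ 0)
    {y : K[X]} (hy : y.natDegree ≤ 10) : quart (lineA w d) (lineB w d) y ≠ 0 := by
  intro h0
  set A := lineA w d with hA
  set B := lineB w d with hB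
  set F := lineF w d with hF
  have hFdeg : F.natDegree = 12 :=
    natDegree_eq_of_le_of_coeff_ne_zero (natDegree_lineF_le w d) (by rw [hF, coeff_lineF]; exact hd)
  have hF0 : F ≠ 0 := fun e => by simp [e] at hFdeg
  set P : K[X] := C (1 / 3) * y with hP
  set q := 3 * P ^ 2 + A with hq
  set r := P ^ 3 + A * P + B with hr
  have hyP : y = 3 * P := by
    rw [hP, ← mul_assoc, show (3 : K[X]) = C 3 from (map_ofNat C 3).symm, ← map_mul]; norm_num
  have hpsi : 3 * P ^ 4 + 6 * A * P ^ 2 + 12 * B * P - A ^ 2 = 0 := by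
    have e : quart A B y = 27 * (3 * P ^ 4 + 6 * A * P ^ 2 + 12 * B * P - A ^ 2) := by
      rw [hyP, quart]; ring
    rw [h0] at e
    exact (mul_eq_zero.1 e.symm).resolve_left (by
      rw [show (27 : K[X]) = C 27 from (map_ofNat C 27).symm]
      exact fun z => (by norm_num : (27 : K) ≠ 0) (C_eq_zero.1 z))
  have hprod : 12 * P * r = q ^ 2 := by rw [hq, hr]; linear_combination hpsi
  have hdisc : q ^ 3 - 54 * r ^ 2 = C 272097792 * F ^ 5 := by
    have e := disc_line w d
    rw [map_neg, map_ofNat, ← hA, ← hB, ← hF] at e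
    rw [map_ofNat, hq, hr]
    linear_combination (-2) * e - (9 * P ^ 2 + 9 * A) * hpsi
  have hc : (272097792 : K) ≠ 0 := by norm_num
  have hFz : ∀ t : K, F.eval t = 0 → q.eval t ≠ 0 := by
    intro t ht hqt
    have hAt : A.eval t ≠ 0 := lineA_ne_zero_of_lineF hdet ht
    have hPt : P.eval t ≠ 0 := by
      intro e
      apply hAt
      simpa [hq, e] using hqt
    have hr0 : r ≠ 0 := by
      intro e
      rw [e, mul_zero] at hprod
      have hq0 : q = 0 := pow_eq_zero_iff two_ne_zero |>.1 hprod.symm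
      rw [e, hq0] at hdisc
      simp [C_eq_zero, hc, hF0] at hdisc
    have hP0 : P ≠ 0 := fun e => hPt (by simp [e])
    have hq0 : q ≠ 0 := fun e => by
      rw [e] at hprod; simp [hP0, hr0] at hprod
    set k := rootMultiplicity t q with hk
    have hkpos : 0 < k := (rootMultiplicity_pos hq0).2 hqt
    have hmr : rootMultiplicity t r = 2 * k := by
      have e := congrArg (rootMultiplicity t) hprod
      rw [rootMultiplicity_mul (by simp [hP0, hr0]), pow_two,
        rootMultiplicity_mul (mul_ne_zero hq0 hq0)] at e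
      have h12 : rootMultiplicity t (12 * P) = 0 := rootMultiplicity_eq_zero (by simp [hPt])
      omega
    obtain ⟨q₁, hq₁, -⟩ := exists_eq_pow_rootMultiplicity_mul_and_not_dvd q hq0 t
    obtain ⟨r₁, hr₁, -⟩ := exists_eq_pow_rootMultiplicity_mul_and_not_dvd r hr0 t
    rw [← hk] at hq₁
    rw [hmr] at hr₁
    have hq₁t : q₁.eval t ≠ 0 := by
      intro e
      have := (le_rootMultiplicity_iff hq0).2
        (show (X - C t) ^ (k + 1) ∣ q by
          rw [pow_succ, hq₁]; exact mul_dvd_mul_left _ (dvd_iff_isRoot.2 e))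
      omega
    have e : C 272097792 * F ^ 5 = (X - C t) ^ (3 * k) * (q₁ ^ 3 - 54 * (X - C t) ^ k * r₁ ^ 2) := by
      rw [← hdisc, hq₁, hr₁]; ring
    have hne : (q₁ ^ 3 - 54 * (X - C t) ^ k * r₁ ^ 2).eval t ≠ 0 := by
      simp [zero_pow hkpos.ne', hq₁t]
    have e' := congrArg (rootMultiplicity t) e
    rw [rootMultiplicity_mul (mul_ne_zero (by simp [C_eq_zero, hc]) (pow_ne_zero 5 hF0)),
      rootMultiplicity_mul (mul_ne_zero (pow_ne_zero _ (X_sub_C_ne_zero t))
        (fun z => hne (by rw [z, eval_zero]))),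
      rootMultiplicity_C, rootMultiplicity_eq_zero (p := q₁ ^ 3 - _) hne,
      rootMultiplicity_X_sub_C_pow] at e'
    have h5 : rootMultiplicity t (F ^ 5) = 5 := by
      have h1 : rootMultiplicity t F = 1 := rootMultiplicity_lineF hdet hd ht
      have hp : ∀ n : ℕ, rootMultiplicity t (F ^ n) = n := by
        intro n
        induction n with
        | zero => simp [rootMultiplicity_eq_zero (p := (1 : K[X])) (x := t) (by simp)]
        | succ n ih => rw [pow_succ, rootMultiplicity_mul (mul_ne_zero (pow_ne_zero _ hF0) hF0), ih, h1]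
      exact hp 5
    omega
  have hcop : ∀ t : K, q.eval t = 0 → r.eval t ≠ 0 := by
    intro t h1 h2
    refine hFz t ?_ h1
    have e := congrArg (eval t) hdisc
    simpa [h1, h2, hc] using e.symm
  have hqr : IsCoprime q r := by
    refine isCoprime_of_dvd q r ?_ fun z hz hz0 hzq hzr => ?_
    · rintro ⟨eq0, er0⟩
      rw [eq0, er0] at hdisc
      simp [C_eq_zero, hc, hF0] at hdisc
    · obtain ⟨t, ht⟩ := IsAlgClosed.exists_root z (fun e => hz (isUnit_iff_degree_eq_zero.2 e))
      exact hcop t (ht.dvd hzq) (ht.dvd hzr)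
  have hq0 : q ≠ 0 := by
    intro e
    rw [e] at hprod hqr
    have : r ≠ 0 := fun er => by
      rw [e, er] at hdisc; simp [C_eq_zero, hc, hF0] at hdisc
    have hP0 : P = 0 := by simpa [this] using hprod
    apply hw
    have := congrArg (eval 0) e
    simpa [hq, hP0, hA, eval_lineA] using this
  have hP0 : P ≠ 0 := fun e =>
    hq0 (pow_eq_zero_iff two_ne_zero |>.1 (hprod.symm.trans (by rw [e]; ring)))
  have hr0 : r ≠ 0 := fun e =>
    hq0 (pow_eq_zero_iff two_ne_zero |>.1 (hprod.symm.trans (by rw [e]; ring)))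
  have hPdeg : P.natDegree ≤ 10 := (natDegree_C_mul_le _ _).trans hy
  have hdvd : q ^ 2 ∣ P :=
    (hqr.pow_left (m := 2)).dvd_of_dvd_mul_right ⟨C (1 / 12), by
      have e : (12 : K[X]) * C (1 / 12 : K) = 1 := by
        rw [show (12 : K[X]) = C 12 from (map_ofNat C 12).symm, ← map_mul]; norm_num
      linear_combination (C (1 / 12 : K)) * hprod - P * r * e⟩
  have h2 := natDegree_le_of_dvd hdvd hP0
  rw [natDegree_pow] at h2
  have h3 := congrArg natDegree hprod
  rw [natDegree_mul (by simp [hP0]) hr0, natDegree_pow,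
    show (12 : K[X]) = C 12 from (map_ofNat C 12).symm, natDegree_C_mul (by norm_num)] at h3
  have h4 := congrArg natDegree hdisc
  rw [natDegree_C_mul hc, natDegree_pow, hFdeg] at h4
  have h5 : (q ^ 3 - 54 * r ^ 2).natDegree ≤ 15 := by compute_degree <;> omega
  omega

end FLTAgent.Switch
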