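import Fermat.Prelude.Def_FLTPrelim_Modularity

set_option autoImplicit false

/-! A semistable integral model has `c₄ ≠ 0` and `c₆ ≠ 0`. -/

namespace FLTAgent.Switch

open WeierstrassCurve

theorem natAbs_eq_one_of_c₄_eq (W : WeierstrassCurve ℤ) (hΔ : W.Δ ≠ 0)
    (hW : W.IsSemistableModel) (h : ∀ p : ℕ, p.Prime → (p : ℤ) ∣ W.Δ → (p : ℤ) ∣ W.c₄) :
    W.Δ = 1 ∨ W.Δ = -1 := by
  refine Int.natAbs_eq_iff.1 (?_ : W.Δ.natAbs = 1)
  by_contra hne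
  obtain ⟨p, hp, hpd⟩ := Nat.exists_prime_and_dvd hne
  exact hW p hp (Int.natCast_dvd.2 hpd) (h p hp (Int.natCast_dvd.2 hpd))

theorem c₄_ne_zero (W : WeierstrassCurve ℤ) (hΔ : W.Δ ≠ 0) (hW : W.IsSemistableModel) :
    W.c₄ ≠ 0 := by
  intro h0
  have hr := W.c_relation
  rw [h0] at hr
  rcases natAbs_eq_one_of_c₄_eq W hΔ hW (fun p _ _ => h0 ▸ dvd_zero _) with e | e <;> rw [e] at hr
  · nlinarith [sq_nonneg W.c₆]
  · have h2 : W.c₆.natAbs ^ 2 = 1728 := by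
      have h2' : W.c₆ ^ 2 = 1728 := by linear_combination hr
      rw [← Int.natAbs_pow, h2']; rfl
    rcases le_or_gt W.c₆.natAbs 41 with h | h
    · nlinarith [Nat.mul_le_mul h h]
    · nlinarith [Nat.mul_le_mul (Nat.succ_le_of_lt h) (Nat.succ_le_of_lt h)]

theorem c₆_ne_zero (W : WeierstrassCurve ℤ) (hΔ : W.Δ ≠ 0) (hW : W.IsSemistableModel) :
    W.c₆ ≠ 0 := by
  intro h0
  have hr := W.c_relation
  rw [h0] at hr
  have hdvd : ∀ p : ℕ, p.Prime → (p : ℤ) ∣ W.Δ → (p : ℤ) ∣ W.c₄ := fun p hp hpd =>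
    (Nat.prime_iff_prime_int.1 hp).dvd_of_dvd_pow (n := 3) (by
      rw [show W.c₄ ^ 3 = 1728 * W.Δ by linear_combination -hr]
      exact hpd.mul_left _)
  have h12 : W.c₄ = 12 ∨ W.c₄ = -12 := by
    rcases natAbs_eq_one_of_c₄_eq W hΔ hW hdvd with e | e <;> rw [e] at hr
    · left
      have h1 : W.c₄ ^ 3 = 1728 := by linear_combination -hr
      rcases lt_trichotomy W.c₄ 12 with h | h | h
      · nlinarith [sq_nonneg (W.c₄ + 6)]
      · exact h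
      · nlinarith [sq_nonneg (W.c₄ + 6)]
    · right
      have h1 : W.c₄ ^ 3 = -1728 := by linear_combination -hr
      rcases lt_trichotomy W.c₄ (-12) with h | h | h
      · nlinarith [sq_nonneg (W.c₄ - 6)]
      · exact h
      · nlinarith [sq_nonneg (W.c₄ - 6)]
  simp only [WeierstrassCurve.c₄, WeierstrassCurve.b₂, WeierstrassCurve.b₄] at h12
  rcases Int.even_or_odd W.a₁ with ⟨k, hk⟩ | ⟨k, hk⟩
  · rw [hk] at h12
    have h8 : (8 : ℤ) ∣ ((k + k) ^ 2 + 4 * W.a₂) ^ 2 - 24 * (2 * W.a₄ + (k + k) * W.a₃) :=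
      ⟨2 * (k ^ 2 + W.a₂) ^ 2 - 3 * (2 * W.a₄ + (k + k) * W.a₃), by ring⟩
    rcases h12 with e | e <;> rw [e] at h8 <;> norm_num at h8
  · rw [hk] at h12
    have h2 : (2 : ℤ) ∣ ((2 * k + 1) ^ 2 + 4 * W.a₂) ^ 2 - 24 * (2 * W.a₄ + (2 * k + 1) * W.a₃) - 1 :=
      ⟨(2 * k ^ 2 + 2 * k + 2 * W.a₂) * (2 * k ^ 2 + 2 * k + 2 * W.a₂ + 1) * 2
        - 12 * (2 * W.a₄ + (2 * k + 1) * W.a₃), by ring⟩
    rcases h12 with e | e <;> rw [e] at h2 <;> norm_num at h2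

end FLTAgent.Switch
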