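import Fermat.Agent.Switch.Growth

set_option autoImplicit false

/-!
# From integer roots to a polynomial root

Integer roots on a common branch inside a bounded window lie on one polynomial of degree `≤ 10`.
-/

namespace FLTAgent.Switch

open Polynomial Filter

/-- Product of the denominators of Lagrange interpolation at the nodes `v`. -/
def nodesDen (s : Finset ℕ) : ℤ :=
  ∏ i ∈ s, ∏ j ∈ s.erase i, ((i : ℤ) - j)

theorem nodesDen_ne_zero (s : Finset ℕ) : nodesDen s ≠ 0 := by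
  refine Finset.prod_ne_zero_iff.2 fun i _ => Finset.prod_ne_zero_iff.2 fun j hj => ?_
  have := (Finset.mem_erase.1 hj).1
  exact sub_ne_zero.2 (by exact_mod_cast this.symm)

/-- The integral Lagrange weight. -/
def nodesWeight (s : Finset ℕ) (i m : ℕ) : ℤ :=
  (∏ k ∈ s.erase i, ∏ j ∈ s.erase k, ((k : ℤ) - j)) * ∏ j ∈ s.erase i, ((m : ℤ) - j)

theorem nodesDen_mul_basis {K : Type*} [Field K] [CharZero K] {s : Finset ℕ} {i : ℕ} (hi : i ∈ s)
    (m : ℕ) :
    (nodesDen s : K) * (Lagrange.basis s (fun n : ℕ => (n : K)) i).eval (m : K) =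
      (nodesWeight s i m : K) := by
  rw [nodesDen, ← Finset.prod_erase_mul s _ hi, Lagrange.basis, eval_prod, nodesWeight]
  push_cast
  rw [mul_assoc, ← Finset.prod_mul_distrib]
  congr 1
  refine Finset.prod_congr rfl fun j hj => ?_
  have : (i : K) - (j : K) ≠ 0 := sub_ne_zero.2 (by
    exact_mod_cast (Finset.mem_erase.1 hj).1.symm)
  simp only [Lagrange.basisDivisor, eval_mul, eval_C, eval_sub, eval_X]
  field_simp

theorem nodesDen_mul_interpolate {K : Type*} [Field K] [CharZero K] (s : Finset ℕ) (r : ℕ → K)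
    (m : ℕ) :
    (nodesDen s : K) * (Lagrange.interpolate s (fun n : ℕ => (n : K)) r).eval (m : K) =
      ∑ i ∈ s, r i * (nodesWeight s i m : K) := by
  rw [Lagrange.interpolate_apply, eval_finsetSum, Finset.mul_sum]
  refine Finset.sum_congr rfl fun i hi => ?_
  rw [eval_mul, eval_C, ← nodesDen_mul_basis hi m]
  ring

theorem prod_le_pow_of_nonneg {ι : Type*} (s : Finset ι) (f : ι → ℤ) (c : ℤ)
    (h : ∀ i ∈ s, 0 ≤ f i ∧ f i ≤ c) : ∏ i ∈ s, f i ≤ c ^ s.card :=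
  (Finset.prod_le_prod (fun i hi => (h i hi).1) (fun i hi => (h i hi).2)).trans_eq
    (Finset.prod_const c)

theorem abs_prod_sub_le {s : Finset ℕ} {a W : ℕ} (hW : 1 ≤ W) (hs : s.card ≤ 11)
    (h : ∀ j ∈ s, (|(a : ℤ) - j| : ℤ) ≤ W) :
    |∏ j ∈ s, ((a : ℤ) - j)| ≤ (W : ℤ) ^ 11 := by
  rw [Finset.abs_prod]
  refine (prod_le_pow_of_nonneg _ _ (W : ℤ) fun j hj => ⟨abs_nonneg _, h j hj⟩).trans ?_
  exact pow_le_pow_right₀ (by exact_mod_cast hW) hs

theorem abs_nodesDen_le {s : Finset ℕ} {W : ℕ} (hW : 1 ≤ W) (hs : s.card = 11)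
    (h : ∀ i ∈ s, ∀ j ∈ s, (|(i : ℤ) - j| : ℤ) ≤ W) :
    |nodesDen s| ≤ ((W : ℤ) ^ 11) ^ 11 := by
  rw [nodesDen, Finset.abs_prod]
  refine (prod_le_pow_of_nonneg _ _ ((W : ℤ) ^ 11) fun i hi => ⟨abs_nonneg _, ?_⟩).trans ?_
  · exact abs_prod_sub_le hW ((Finset.card_erase_le).trans hs.le)
      fun j hj => h i hi j (Finset.mem_of_mem_erase hj)
  · rw [hs]

theorem abs_nodesWeight_le {s : Finset ℕ} {W i m : ℕ} (hW : 1 ≤ W) (hs : s.card = 11) (hi : i ∈ s)
    (h : ∀ i ∈ s, ∀ j ∈ s, (|(i : ℤ) - j| : ℤ) ≤ W) (hm : ∀ j ∈ s, (|(m : ℤ) - j| : ℤ) ≤ W) :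
    |nodesWeight s i m| ≤ ((W : ℤ) ^ 11) ^ 11 := by
  rw [nodesWeight, abs_mul, Finset.abs_prod]
  have h1 : ∏ k ∈ s.erase i, |∏ j ∈ s.erase k, ((k : ℤ) - j)| ≤ ((W : ℤ) ^ 11) ^ 10 := by
    refine (prod_le_pow_of_nonneg _ _ ((W : ℤ) ^ 11) fun k hk => ⟨abs_nonneg _, ?_⟩).trans ?_
    · exact abs_prod_sub_le hW ((Finset.card_erase_le).trans hs.le)
        fun j hj => h k (Finset.mem_of_mem_erase hk) j (Finset.mem_of_mem_erase hj)
    · rw [Finset.card_erase_of_mem hi, hs]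
  have h2 : |∏ j ∈ s.erase i, ((m : ℤ) - j)| ≤ (W : ℤ) ^ 11 :=
    abs_prod_sub_le hW ((Finset.card_erase_le).trans hs.le)
      fun j hj => hm j (Finset.mem_of_mem_erase hj)
  exact (mul_le_mul h1 h2 (abs_nonneg _) (by positivity)).trans (by rw [← pow_succ])

/-- The window lemma. -/
theorem interpolate_eq_of_near {P : ℂ[X]} (hP : P.natDegree ≤ 10) {s : Finset ℕ} {W m : ℕ}
    (hW : 1 ≤ W) (hs : s.card = 11) (h : ∀ i ∈ s, ∀ j ∈ s, (|(i : ℤ) - j| : ℤ) ≤ W)
    (hm : ∀ j ∈ s, (|(m : ℤ) - j| : ℤ) ≤ W) {Y : ℕ → ℤ} {ε : ℝ} (hε : 0 ≤ ε)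
    (hbound : 12 * (((W : ℝ) ^ 11) ^ 11) * ε < 1)
    (hnear : ∀ i ∈ s, ‖(Y i : ℂ) - P.eval (i : ℂ)‖ ≤ ε)
    (hnearm : ‖(Y m : ℂ) - P.eval (m : ℂ)‖ ≤ ε) :
    (Lagrange.interpolate s (fun n : ℕ => (n : ℚ)) fun i => (Y i : ℚ)).eval (m : ℚ) = (Y m : ℚ) := by
  have hinj : Set.InjOn (fun n : ℕ => (n : ℂ)) (s : Set ℕ) := Nat.cast_injective.injOn
  have hPint : P = Lagrange.interpolate s (fun n : ℕ => (n : ℂ)) fun i => P.eval (i : ℂ) := by
    refine Lagrange.eq_interpolate hinj ?_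
    rw [hs]
    exact degree_le_natDegree.trans_lt (by exact_mod_cast Nat.lt_succ_of_le hP)
  set E : ℤ := nodesDen s * Y m - ∑ i ∈ s, Y i * nodesWeight s i m with hE
  have hEC : (E : ℂ) = (nodesDen s : ℂ) * ((Y m : ℂ) - P.eval (m : ℂ)) -
      ∑ i ∈ s, ((Y i : ℂ) - P.eval (i : ℂ)) * (nodesWeight s i m : ℂ) := by
    rw [mul_sub, hE]
    conv_rhs => arg 1; arg 2; rw [hPint, nodesDen_mul_interpolate]
    push_cast
    simp only [sub_mul, Finset.sum_sub_distrib]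
    ring
  have hE0 : E = 0 := by
    rw [← Int.abs_lt_one_iff]
    have hb : (|(E : ℝ)|) ≤ 12 * (((W : ℝ) ^ 11) ^ 11) * ε := by
      rw [← Complex.norm_intCast, hEC]
      refine (norm_sub_le _ _).trans ?_
      have hd : ‖(nodesDen s : ℂ)‖ ≤ ((W : ℝ) ^ 11) ^ 11 := by
        rw [Complex.norm_intCast]; exact_mod_cast abs_nodesDen_le hW hs h
      have hw : ∀ i ∈ s, ‖(nodesWeight s i m : ℂ)‖ ≤ ((W : ℝ) ^ 11) ^ 11 := fun i hi => by
        rw [Complex.norm_intCast]; exact_mod_cast abs_nodesWeight_le hW hs hi h hm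
      have h1 : ‖(nodesDen s : ℂ) * ((Y m : ℂ) - P.eval (m : ℂ))‖ ≤ ((W : ℝ) ^ 11) ^ 11 * ε := by
        rw [norm_mul]; exact mul_le_mul hd hnearm (norm_nonneg _) (by positivity)
      have h2 : ‖∑ i ∈ s, ((Y i : ℂ) - P.eval (i : ℂ)) * (nodesWeight s i m : ℂ)‖ ≤
          11 * (((W : ℝ) ^ 11) ^ 11 * ε) := by
        refine (norm_sum_le _ _).trans ((Finset.sum_le_card_nsmul _ _ (((W : ℝ) ^ 11) ^ 11 * ε) fun i hi => ?_).trans
          (by rw [hs, nsmul_eq_mul]; norm_num))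
        rw [norm_mul, mul_comm (((W : ℝ) ^ 11) ^ 11)]
        exact mul_le_mul (hnear i hi) (hw i hi) (norm_nonneg _) hε
      linarith
    exact_mod_cast lt_of_le_of_lt hb hbound
  refine mul_left_cancel₀ (Int.cast_ne_zero.2 (nodesDen_ne_zero s) : (nodesDen s : ℚ) ≠ 0) ?_
  rw [nodesDen_mul_interpolate]
  have := congrArg (Int.cast : ℤ → ℚ) hE0
  rw [hE] at this
  push_cast at this
  linear_combination -this

/-- If all members have an integral root, the family has a polynomial root. -/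
theorem exists_polynomial_root {A B : ℤ[X]} (hA : A.natDegree ≤ 20) (hB : B.natDegree ≤ 30)
    (hd : 4 * A.coeff 20 ^ 3 + 27 * B.coeff 30 ^ 2 ≠ 0)
    (hroot : ∀ m : ℕ, ∃ y : ℤ, quart (A.eval (m : ℤ)) (B.eval (m : ℤ)) y = 0) :
    ∃ p : ℚ[X], p.natDegree ≤ 10 ∧
      quart (A.map (Int.castRingHom ℚ)) (B.map (Int.castRingHom ℚ)) p = 0 := by
  classical
  choose Y hY using hroot
  set AC := A.map (Int.castRingHom ℂ) with hAC
  set BC := B.map (Int.castRingHom ℂ) with hBC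
  obtain ⟨Ps, hPs, hcard, hev⟩ := eventually_near_branch (A := AC) (B := BC)
    (natDegree_map_le.trans hA) (natDegree_map_le.trans hB) (by
      rw [hAC, hBC, coeff_map, coeff_map]
      simp only [eq_intCast]
      exact_mod_cast hd)
  set W : ℕ := 164 with hW
  set ε : ℝ := 1 / (13 * (((W : ℝ) ^ 11) ^ 11)) with hε
  have hεpos : 0 < ε := by positivity
  obtain ⟨M, hM⟩ := eventually_atTop.1 (hev ε hεpos)
  have hnear : ∀ m, M ≤ m → ∃ P ∈ Ps, ‖(Y m : ℂ) - P.eval (m : ℂ)‖ < ε := fun m hm => by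
    refine hM m hm (Y m) ?_
    have e := map_quart (Int.castRingHom ℂ) (A.eval (m : ℤ)) (B.eval (m : ℤ)) (Y m)
    rw [hY m, map_zero] at e
    rw [hAC, hBC, ← Int.cast_natCast (R := ℂ), eval_intCast_map, eval_intCast_map]
    simpa using e.symm
  choose f hf hfn using hnear
  have hWne : (Finset.Icc M (M + W)).card = W + 1 := by simp; omega
  obtain ⟨P, hP, hbig⟩ := Finset.exists_lt_card_fiber_of_mul_lt_card_of_maps_to
    (s := (Finset.Icc M (M + W)).attach) (t := Ps)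
    (f := fun m => f m.1 (Finset.mem_Icc.1 m.2).1) (n := 40)
    (fun m _ => hf _ _) (by rw [Finset.card_attach, hWne]; omega)
  set S : Finset ℕ := ((Finset.Icc M (M + W)).attach.filter
    (fun m => f m.1 (Finset.mem_Icc.1 m.2).1 = P)).map (Function.Embedding.subtype _) with hS
  have hScard : 40 < S.card := by rw [hS, Finset.card_map]; exact hbig
  have hSmem : ∀ m ∈ S, ‖(Y m : ℂ) - P.eval (m : ℂ)‖ ≤ ε ∧ M ≤ m ∧ m ≤ M + W := by
    intro m hm
    rw [hS, Finset.mem_map] at hm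
    obtain ⟨⟨k, hk⟩, hk', rfl⟩ := hm
    rw [Finset.mem_filter] at hk'
    obtain ⟨h1, h2⟩ := Finset.mem_Icc.1 hk
    refine ⟨?_, h1, h2⟩
    rw [← hk'.2]; exact (hfn k h1).le
  obtain ⟨s, hsS, hs⟩ := Finset.exists_subset_card_eq (show 11 ≤ S.card by omega)
  set p := Lagrange.interpolate s (fun n : ℕ => (n : ℚ)) fun i => (Y i : ℚ) with hp
  have hdist : ∀ i ∈ S, ∀ j ∈ S, (|(i : ℤ) - j| : ℤ) ≤ W := fun i hi j hj => by
    rw [abs_le]
    obtain ⟨-, a, b⟩ := hSmem i hi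
    obtain ⟨-, c, d⟩ := hSmem j hj
    constructor <;> omega
  have hbound : 12 * (((W : ℝ) ^ 11) ^ 11) * ε < 1 := by
    rw [hε, mul_one_div, div_lt_one (by positivity)]
    nlinarith [pow_pos (pow_pos (show (0 : ℝ) < W by positivity) 11) 11]
  have hval : ∀ m ∈ S, p.eval (m : ℚ) = (Y m : ℚ) := fun m hm =>
    interpolate_eq_of_near (hPs P hP) (by omega) hs
      (fun i hi j hj => hdist i (hsS hi) j (hsS hj)) (fun j hj => hdist m hm j (hsS hj))
      hεpos.le hbound (fun i hi => (hSmem i (hsS hi)).1) (hSmem m hm).1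
  have hpd : p.natDegree ≤ 10 := by
    refine natDegree_le_iff_degree_le.2 ((Lagrange.degree_interpolate_le _
      Nat.cast_injective.injOn).trans ?_)
    rw [hs]
  refine ⟨p, hpd, ?_⟩
  set Q := quart (A.map (Int.castRingHom ℚ)) (B.map (Int.castRingHom ℚ)) p with hQ
  have hQd : Q.natDegree ≤ 40 := by
    have hA' : (A.map (Int.castRingHom ℚ)).natDegree ≤ 20 := natDegree_map_le.trans hA
    have hB' : (B.map (Int.castRingHom ℚ)).natDegree ≤ 30 := natDegree_map_le.trans hB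
    rw [hQ, quart]; compute_degree <;> omega
  refine eq_zero_of_natDegree_lt_card_of_eval_eq_zero' Q (S.image fun n : ℕ => (n : ℚ)) ?_ ?_
  · intro x hx
    obtain ⟨m, hm, rfl⟩ := Finset.mem_image.1 hx
    rw [hQ, ← coe_evalRingHom, map_quart]
    simp only [coe_evalRingHom]
    rw [← Int.cast_natCast (R := ℚ), eval_intCast_map, eval_intCast_map, Int.cast_natCast (R := ℚ) m,
      hval m hm]
    have e := map_quart (Int.castRingHom ℚ) (A.eval (m : ℤ)) (B.eval (m : ℤ)) (Y m)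
    rw [hY m, map_zero] at e
    simpa using e.symm
  · rw [Finset.card_image_of_injective _ Nat.cast_injective]
    omega

end FLTAgent.Switch
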