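import Fermat.Agent.Switch.Semistable
import Fermat.Agent.Switch.Short
import Fermat.Agent.Switch.Irr3
import Fermat.Agent.Switch.Window
import Fermat.Agent.Switch.NoPolyRoot
import Fermat.Agent.Switch.NonzeroInvariants
import Fermat.Agent.WeilPairing.FrobeniusTrace

set_option autoImplicit false

/-!
# The 3-5 switch
-/

namespace FLTAgent.Switch

open Polynomial WeierstrassCurve

local notation "Qb" => AlgebraicClosure ℚ

theorem dvd_apOfModel_sub {W W' : WeierstrassCurve ℤ}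
    (h : SameFive (W.map (Int.castRingHom ℚ)) (W'.map (Int.castRingHom ℚ))) {l : ℕ} (hl : l.Prime)
    (hW : W.IsGoodPrimeFor l) (hW' : W'.IsGoodPrimeFor l) (h5 : l ≠ 5) :
    (5 : ℤ) ∣ W'.apOfModel l - W.apOfModel l := by
  have : Fact (Nat.Prime 5) := ⟨by norm_num⟩
  obtain ⟨A, σ, hA, hσ⟩ := FLTAgent.Frobenius.exists_liesOverPrime_isFrobeniusAt hl
  have e1 := FLTAgent.WeilPairing.galoisTrace_frobenius (W := W) (p := 5) hl hW h5 A hA σ hσ
  have e2 := FLTAgent.WeilPairing.galoisTrace_frobenius (W := W') (p := 5) hl hW' h5 A hA σ hσ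
  rw [galoisTrace_eq_of_sameFive h σ, e2] at e1
  have := (ZMod.intCast_eq_intCast_iff_dvd_sub (W.apOfModel l) (W'.apOfModel l) 5).1 e1.symm
  simpa using this

theorem line_facts {w d : Qb × Qb} :
    (lineA w d).natDegree ≤ 20 ∧ (lineB w d).natDegree ≤ 30 := by
  constructor
  · unfold lineA cA klH; compute_degree <;> omega
  · unfold lineB cB klT; compute_degree <;> omega

theorem leading_disc_ne_zero {w d : Qb × Qb} (hd : klF d.1 d.2 ≠ 0) :
    4 * (lineA w d).coeff 20 ^ 3 + 27 * (lineB w d).coeff 30 ^ 2 ≠ 0 := by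
  obtain ⟨dA, dB⟩ := line_facts (w := w) (d := d)
  have hA := coeff_pow_of_natDegree_le (m := 3) dA
  have hB := coeff_pow_of_natDegree_le (m := 2) dB
  have hF := coeff_pow_of_natDegree_le (m := 5) (natDegree_lineF_le w d)
  norm_num at hA hB hF
  have e := congrArg (fun p => p.coeff 60) (disc_line w d)
  simp only [coeff_add, coeff_C_mul, coeff_ofNat_mul, hA, hB, hF, coeff_lineF] at e
  rw [e]
  exact mul_ne_zero (by norm_num) (pow_ne_zero 5 hd)

/-- Integer polynomials giving `c₄, c₆` along the family. -/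
structure Integral (W : WeierstrassCurve ℤ) (PA PB : ℚ[X]) where
  M : ℤ
  N : ℕ
  hN : (N : ℤ) ≠ 0
  ZH : ℤ[X]
  ZT : ℤ[X]
  hZH : ZH.map (Int.castRingHom ℚ) = (C (-1 / 27 : ℚ) * PA).comp (C (N : ℚ) * X)
  hZT : ZT.map (Int.castRingHom ℚ) = (C (-1 / 54 : ℚ) * PB).comp (C (N : ℚ) * X)
  hM : 30 * W.Δ * (|W.Δ| + 1) ∣ M
  hH : ∀ m : ℤ, 864 * 48 * M ∣ ZH.eval m - W.c₄
  hT : ∀ m : ℤ, 864 * 48 * M ∣ ZT.eval m - W.c₆

theorem exists_integral (W : WeierstrassCurve ℤ) (hΔ : W.Δ ≠ 0) (PA PB : ℚ[X])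
    (hA : PA.eval 0 = -27 * (W.c₄ : ℚ)) (hB : PB.eval 0 = -54 * (W.c₆ : ℚ)) :
    Nonempty (Integral W PA PB) := by
  obtain ⟨D₁, hD₁, h₁⟩ := exists_den (C (-1 / 27 : ℚ) * PA) W.c₄ (by simp [hA]; ring)
  obtain ⟨D₂, hD₂, h₂⟩ := exists_den (C (-1 / 54 : ℚ) * PB) W.c₆ (by simp [hB]; ring)
  set M := 30 * W.Δ * (|W.Δ| + 1) * (D₁ * D₂) with hM
  set N := (D₁ * D₂ * (864 * 48 * M)).natAbs with hN
  have hN0 : (N : ℤ) ≠ 0 := by
    rw [hN, Int.natCast_ne_zero, Int.natAbs_ne_zero, hM]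
    have h1 : |W.Δ| + 1 ≠ 0 := by positivity
    simp [hΔ, hD₁, hD₂, h1]
  have d1 : D₁ * (864 * 48 * M) ∣ (N : ℤ) :=
    (mul_dvd_mul_right (dvd_mul_right D₁ D₂) _).trans Int.dvd_natAbs_self
  have d2 : D₂ * (864 * 48 * M) ∣ (N : ℤ) :=
    (mul_dvd_mul_right (dvd_mul_left D₂ D₁) _).trans Int.dvd_natAbs_self
  obtain ⟨ZH, eH, cH⟩ := h₁ _ _ d1
  obtain ⟨ZT, eT, cT⟩ := h₂ _ _ d2
  push_cast at eH eT
  exact ⟨⟨M, N, hN0, ZH, ZT, eH, eT, dvd_mul_right _ _, cH, cT⟩⟩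

theorem exists_no_root {w d : Qb × Qb} (hdet : w.1 * d.2 - w.2 * d.1 ≠ 0)
    (hw : cA w.1 w.2 ≠ 0) (hd : klF d.1 d.2 ≠ 0) {PA PB : ℚ[X]}
    (hPA : PA.map (algebraMap ℚ Qb) = lineA w d) (hPB : PB.map (algebraMap ℚ Qb) = lineB w d)
    {N : ℕ} (hN : (N : ℤ) ≠ 0) {ZH ZT : ℤ[X]}
    (hZH : ZH.map (Int.castRingHom ℚ) = (C (-1 / 27 : ℚ) * PA).comp (C (N : ℚ) * X))
    (hZT : ZT.map (Int.castRingHom ℚ) = (C (-1 / 54 : ℚ) * PB).comp (C (N : ℚ) * X)) :
    ∃ m : ℕ, ∀ y : ℤ, quart (-27 * ZH.eval (m : ℤ)) (-54 * ZT.eval (m : ℤ)) y ≠ 0 := by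
  by_contra hall
  simp only [not_exists, not_forall, not_not] at hall
  set A : ℤ[X] := C (-27) * ZH with hA
  set B : ℤ[X] := C (-54) * ZT with hB
  have eA : A.map (Int.castRingHom ℚ) = PA.comp (C (N : ℚ) * X) := by
    rw [hA, Polynomial.map_mul, hZH, map_C, mul_comp, C_comp, ← mul_assoc, ← map_mul]
    norm_num
  have eB : B.map (Int.castRingHom ℚ) = PB.comp (C (N : ℚ) * X) := by
    rw [hB, Polynomial.map_mul, hZT, map_C, mul_comp, C_comp, ← mul_assoc, ← map_mul]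
    norm_num
  obtain ⟨dA, dB⟩ := line_facts (w := w) (d := d)
  have dPA : PA.natDegree ≤ 20 :=
    le_of_eq_of_le ((natDegree_map_eq_of_injective (algebraMap ℚ Qb).injective PA).symm.trans
      (congrArg natDegree hPA)) dA
  have dPB : PB.natDegree ≤ 30 :=
    le_of_eq_of_le ((natDegree_map_eq_of_injective (algebraMap ℚ Qb).injective PB).symm.trans
      (congrArg natDegree hPB)) dB
  have hinj : Function.Injective (Int.castRingHom ℚ) := (Int.castRingHom ℚ).injective_int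
  have hcomp : ∀ (P : ℚ[X]) (n : ℕ), P.natDegree ≤ n →
      (P.comp (C (N : ℚ) * X)).natDegree ≤ n := fun P n h => by
    refine natDegree_comp_le.trans ?_
    rw [natDegree_C_mul_X _ (by exact_mod_cast hN), mul_one]; exact h
  have dA' : A.natDegree ≤ 20 := by
    rw [← natDegree_map_eq_of_injective hinj, eA]; exact hcomp _ _ dPA
  have dB' : B.natDegree ≤ 30 := by
    rw [← natDegree_map_eq_of_injective hinj, eB]; exact hcomp _ _ dPB
  have cA' : (A.coeff 20 : ℚ) = PA.coeff 20 * (N : ℚ) ^ 20 := by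
    rw [← eq_intCast (Int.castRingHom ℚ), ← coeff_map, eA, comp_C_mul_X_coeff]
  have cB' : (B.coeff 30 : ℚ) = PB.coeff 30 * (N : ℚ) ^ 30 := by
    rw [← eq_intCast (Int.castRingHom ℚ), ← coeff_map, eB, comp_C_mul_X_coeff]
  have hlead : 4 * A.coeff 20 ^ 3 + 27 * B.coeff 30 ^ 2 ≠ 0 := by
    intro e
    apply leading_disc_ne_zero (w := w) hd
    rw [← hPA, ← hPB, coeff_map, coeff_map]
    have e' : (4 : ℚ) * (A.coeff 20 : ℚ) ^ 3 + 27 * (B.coeff 30 : ℚ) ^ 2 = 0 := by exact_mod_cast e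
    rw [cA', cB'] at e'
    have hN' : (N : ℚ) ≠ 0 := by exact_mod_cast hN
    have e'' : (4 : ℚ) * PA.coeff 20 ^ 3 + 27 * PB.coeff 30 ^ 2 = 0 :=
      mul_left_cancel₀ (pow_ne_zero 60 hN') (by linear_combination e')
    simpa [map_ofNat] using congrArg (algebraMap ℚ Qb) e''
  obtain ⟨p, hp, hroot⟩ := exists_polynomial_root dA' dB' hlead fun m => by
    obtain ⟨y, hy⟩ := hall m
    exact ⟨y, by simpa [hA, hB] using hy⟩
  rw [eA, eB] at hroot
  have h1 := congrArg (fun q : ℚ[X] => q.comp (C (1 / (N : ℚ)) * X)) hroot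
  have hN' : (N : ℚ) ≠ 0 := by exact_mod_cast hN
  have hid : (C (N : ℚ) * X).comp (C (1 / (N : ℚ)) * X) = (X : ℚ[X]) := by
    rw [mul_comp, C_comp, X_comp, ← mul_assoc, ← map_mul, mul_one_div_cancel hN', map_one, one_mul]
  simp only [zero_comp] at h1
  rw [← coe_compRingHom_apply, map_quart] at h1
  simp only [coe_compRingHom_apply, comp_assoc, hid, comp_X] at h1
  have h2 := congrArg (Polynomial.mapRingHom (algebraMap ℚ Qb)) h1
  rw [map_quart, map_zero] at h2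
  simp only [coe_mapRingHom, hPA, hPB] at h2
  refine quart_line_ne_zero hdet hw hd ?_ h2
  refine natDegree_map_le.trans (natDegree_comp_le.trans ?_)
  rw [natDegree_C_mul_X _ (by positivity), mul_one]; exact hp

theorem eq_intCast_of_eval {P : ℚ[X]} {L : Qb[X]} (hP : P.map (algebraMap ℚ Qb) = L) {t : ℚ}
    {s : Qb} (hs : algebraMap ℚ Qb t = s) {r : ℚ} (hr : P.eval t = r) :
    L.eval s = algebraMap ℚ Qb r := by
  rw [← hP, ← hs, eval_map_apply, hr]

theorem psiThree_ne_zero {a b : ℤ} (h : ∀ y : ℤ, quart a b y ≠ 0) (x : ℚ) :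
    psiThree (a : ℚ) (b : ℚ) x ≠ 0 := by
  intro e
  have hy : quart (a : ℚ) (b : ℚ) (3 * x) = 0 := by
    unfold quart; unfold psiThree at e; linear_combination (27 : ℚ) * e
  have hint : _root_.IsIntegral ℤ (3 * x : ℚ) := by
    refine ⟨X ^ 4 + C (18 * a) * X ^ 2 + C (108 * b) * X - C (27 * a ^ 2), by monicity!, ?_⟩
    simp only [eval₂_sub, eval₂_add, eval₂_mul, eval₂_pow, eval₂_X, eval₂_C]
    simp only [algebraMap_int_eq, eq_intCast]
    push_cast
    unfold quart at hy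
    linear_combination hy
  obtain ⟨y, hy'⟩ := IsIntegrallyClosed.isIntegral_iff.1 hint
  refine h y ?_
  rw [← Int.cast_inj (α := ℚ), Int.cast_zero, ← eq_intCast (Int.castRingHom ℚ), map_quart]
  simp only [eq_intCast] at hy' ⊢
  rw [hy']; exact hy

/-- The 3-5 switch, in the form needed after disposing of the trivial case. -/
theorem exists_switch (W : WeierstrassCurve ℤ) (hΔ : W.Δ ≠ 0) (hW : W.IsSemistableModel) :
    ∃ W' : WeierstrassCurve ℤ, W'.Δ ≠ 0 ∧ W'.IsSemistableModel ∧ W'.ModRepIsIrreducible 3 ∧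
      ∀ ℓ : ℕ, ℓ.Prime → W.IsGoodPrimeFor ℓ → W'.IsGoodPrimeFor ℓ → ℓ ≠ 5 →
        (5 : ℤ) ∣ (W'.apOfModel ℓ - W.apOfModel ℓ) := by
  set A : ℚ := -27 * (W.c₄ : ℚ) with hAdef
  set B : ℚ := -54 * (W.c₆ : ℚ) with hBdef
  have hrel := congrArg (Int.cast : ℤ → ℚ) W.c_relation
  push_cast at hrel
  have hA0 : A ≠ 0 := mul_ne_zero (by norm_num) (Int.cast_ne_zero.2 (c₄_ne_zero W hΔ hW))
  have hB0 : B ≠ 0 := mul_ne_zero (by norm_num) (Int.cast_ne_zero.2 (c₆_ne_zero W hΔ hW))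
  have hdisc : 4 * A ^ 3 + 27 * B ^ 2 ≠ 0 := by
    intro e
    rw [hAdef, hBdef] at e
    have h0 : (W.Δ : ℚ) ≠ 0 := Int.cast_ne_zero.2 hΔ
    exact h0 (by linear_combination (1 / 1728 : ℚ) * hrel - (1 / (78732 * 1728) : ℚ) * e)
  obtain ⟨PA, PB, w, d, hPA, hPB, hw4, hw6, hdet, hd, ⟨k, hk⟩, hfam⟩ :=
    exists_family A B hA0 hB0 hdisc
  have hH : klH w.1 w.2 = (W.c₄ : Qb) := by
    rw [hAdef] at hw4
    simp only [cA, map_mul, map_neg, map_ofNat, map_intCast] at hw4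
    linear_combination (-1 / 27 : Qb) * hw4
  have hT : klT w.1 w.2 = (W.c₆ : Qb) := by
    rw [hBdef] at hw6
    simp only [cB, map_mul, map_neg, map_ofNat, map_intCast] at hw6
    linear_combination (-1 / 54 : Qb) * hw6
  have hF : klF w.1 w.2 ^ 5 = (W.Δ : Qb) := by
    have e := klein_syzygy w.1 w.2
    rw [hH, hT] at e
    have h' := congrArg (Int.cast : ℤ → Qb) W.c_relation
    push_cast at h'
    linear_combination (-1 / 1728 : Qb) * (h' + e)
  have hdet0 : w.1 * d.2 - w.2 * d.1 ≠ 0 := by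
    rw [hdet]
    refine mul_ne_zero (by norm_num) fun e => ?_
    rw [e, zero_pow (by norm_num)] at hF
    exact hΔ (by exact_mod_cast hF.symm)
  have hw0 : cA w.1 w.2 ≠ 0 := by rw [hw4]; exact (_root_.map_ne_zero _).2 hA0
  have hA00 : PA.eval 0 = A := by
    refine (algebraMap ℚ Qb).injective ?_
    rw [← eval_map_apply, hPA, map_zero, eval_lineA, ← hw4]; simp
  have hB00 : PB.eval 0 = B := by
    refine (algebraMap ℚ Qb).injective ?_
    rw [← eval_map_apply, hPB, map_zero, eval_lineB, ← hw6]; simp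
  obtain ⟨⟨M, N, hN, ZH, ZT, hZH, hZT, hM, hcH, hcT⟩⟩ := exists_integral W hΔ PA PB hA00 hB00
  obtain ⟨m, hm⟩ := exists_no_root hdet0 hw0 hd hPA hPB hN hZH hZT
  set c4 := ZH.eval (m : ℤ) with hc4
  set c6 := ZT.eval (m : ℤ) with hc6
  obtain ⟨W', e4, e6, hred⟩ := exists_model W (c4 := c4) (c6 := c6) (hcH m) (hcT m)
  set t : ℤ := (N : ℤ) * m with ht
  have hPAt : PA.eval (t : ℚ) = -27 * (c4 : ℚ) := by
    have e := eval_intCast_map (Int.castRingHom ℚ) ZH (m : ℤ)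
    rw [hZH, eval_comp, eval_mul, eval_mul, eval_C, eval_C, eval_X, eq_intCast] at e
    simp only [Int.cast_id, Int.cast_natCast] at e
    rw [← hc4] at e
    rw [ht]
    push_cast at e ⊢
    linear_combination (-27 : ℚ) * e
  have hPBt : PB.eval (t : ℚ) = -54 * (c6 : ℚ) := by
    have e := eval_intCast_map (Int.castRingHom ℚ) ZT (m : ℤ)
    rw [hZT, eval_comp, eval_mul, eval_mul, eval_C, eval_C, eval_X, eq_intCast] at e
    simp only [Int.cast_id, Int.cast_natCast] at e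
    rw [← hc6] at e
    rw [ht]
    push_cast at e ⊢
    linear_combination (-54 : ℚ) * e
  have hH' : klH (w + (t : Qb) • d).1 (w + (t : Qb) • d).2 = (c4 : Qb) := by
    have e := eq_intCast_of_eval hPA (map_intCast _ t) hPAt
    rw [eval_lineA, map_mul, map_neg, map_ofNat, map_intCast] at e
    simp only [cA] at e
    linear_combination (-1 / 27 : Qb) * e
  have hT' : klT (w + (t : Qb) • d).1 (w + (t : Qb) • d).2 = (c6 : Qb) := by
    have e := eq_intCast_of_eval hPB (map_intCast _ t) hPBt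
    rw [eval_lineB, map_mul, map_neg, map_ofNat, map_intCast] at e
    simp only [cB] at e
    linear_combination (-1 / 54 : Qb) * e
  have hgood : ∀ p : ℕ, p.Prime → (p : ℤ) ∣ W'.Δ → (p : ℤ) ∣ W'.c₄ → False := by
    intro p hp hΔ' hc
    by_cases h : (p : ℤ) ∣ 6 * M
    · have e := hred p h
      refine hW p hp ?_ ?_
      · rw [← ZMod.intCast_zmod_eq_zero_iff_dvd] at hΔ' ⊢
        have := congrArg WeierstrassCurve.Δ e
        simp only [map_Δ, eq_intCast] at this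
        rw [← this, hΔ']
      · rw [← ZMod.intCast_zmod_eq_zero_iff_dvd] at hc ⊢
        have := congrArg WeierstrassCurve.c₄ e
        simp only [map_c₄, eq_intCast] at this
        rw [← this, hc]
    · refine not_dvd_both hdet hk hH hT W.c_relation.symm hH' hT' hp
        (fun h' => h (((h'.mul_right _).trans hM).mul_left 6)) ⟨e4 ▸ hc, e6 ▸ ?_⟩
      refine (Nat.prime_iff_prime_int.1 hp).dvd_of_dvd_pow (n := 2) ?_
      rw [show W'.c₆ ^ 2 = W'.c₄ ^ 3 - 1728 * W'.Δ by linear_combination W'.c_relation]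
      exact dvd_sub (dvd_pow hc (by norm_num)) (hΔ'.mul_left _)
  have hΔ' : W'.Δ ≠ 0 := by
    intro h0
    obtain ⟨p, hp, hpd⟩ := Nat.exists_prime_and_dvd (n := W.Δ.natAbs + 1)
      (by have := Int.natAbs_pos.2 hΔ; omega)
    have hpd' : (p : ℤ) ∣ |W.Δ| + 1 := by
      rw [Int.abs_eq_natAbs]; exact_mod_cast hpd
    have e := congrArg WeierstrassCurve.Δ (hred p (((hpd'.mul_left _).trans hM).mul_left 6))
    simp only [map_Δ, eq_intCast, h0, Int.cast_zero] at e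
    have h1 : (p : ℤ) ∣ |W.Δ| := (dvd_abs _ _).2 ((ZMod.intCast_zmod_eq_zero_iff_dvd _ _).1 e.symm)
    have h2 : (p : ℤ) ∣ 1 := (dvd_add_right h1).1 hpd'
    exact hp.one_lt.ne' (by exact_mod_cast Int.eq_one_of_dvd_one (by positivity) h2)
  refine ⟨W', hΔ', fun p hp h1 h2 => hgood p hp h1 h2, ?_, fun l hl h1 h2 h3 =>
    dvd_apOfModel_sub ?_ hl h1 h2 h3⟩
  · refine irreducible_three_of_no_root W' hΔ' fun x => ?_
    have := psiThree_ne_zero hm x
    rw [e4, e6]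
    push_cast at this
    exact this
  · have hrel' := congrArg (Int.cast : ℤ → ℚ) W'.c_relation
    push_cast at hrel'
    have h0 : (W'.Δ : ℚ) ≠ 0 := Int.cast_ne_zero.2 hΔ'
    have hs := hfam (t : ℚ) (by
      rw [hPAt, hPBt, ← e4, ← e6]
      intro e
      exact h0 (by linear_combination (1 / 1728 : ℚ) * hrel' - (1 / (78732 * 1728) : ℚ) * e))
    rw [hPAt, hPBt, ← e4, ← e6] at hs
    exact (sameFive_short W).trans (hs.trans (sameFive_short W').symm)

end FLTAgent.Switch
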