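import Fermat.Agent.Switch.Forms

set_option autoImplicit false
set_option linter.unusedSectionVars false

/-!
Identities for the substitution `S`. The monomials of degree five in `(sU, sV)` are reduced first,
which keeps the certificates small.
-/

namespace FLTAgent.Switch

variable {K : Type*} [Field K] [CharZero K]

theorem sMon0 (ζ u v : K) (hζ : ζ ^ 4 + ζ ^ 3 + ζ ^ 2 + ζ + 1 = 0) :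
    sU ζ u v ^ 0 * sV ζ u v ^ 5 =
    10 * v^5 + 25 * u * v^4 + 50 * u^2 * v^3 + 25 * u^4 * v
    + (-5) * u^5 + 20 * ζ * v^5 + 50 * ζ * u * v^4 + 100 * ζ * u^2 * v^3
    + 50 * ζ * u^4 * v + (-10) * ζ * u^5 + 15 * ζ^2 * v^5 + 50 * ζ^2 * u * v^4
    + 50 * ζ^2 * u^2 * v^3 + 50 * ζ^2 * u^3 * v^2 + 5 * ζ^2 * u^5 + 5 * ζ^3 * v^5
    + 50 * ζ^3 * u^2 * v^3 + (-50) * ζ^3 * u^3 * v^2 + 50 * ζ^3 * u^4 * v + (-15) * ζ^3 * u^5 := by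
  simp only [sU, sV]
  linear_combination ((-10) * v^5 + (-25) * u * v^4 + (-50) * u^2 * v^3 + (-25) * u^4 * v
    + 5 * u^5 + (-10) * ζ * v^5 + (-25) * ζ * u * v^4 + (-50) * ζ * u^2 * v^3
    + (-25) * ζ * u^4 * v + 5 * ζ * u^5 + 5 * ζ^2 * v^5 + 50 * ζ^2 * u^2 * v^3
    + (-50) * ζ^2 * u^3 * v^2 + 50 * ζ^2 * u^4 * v + (-15) * ζ^2 * u^5 + 10 * ζ^3 * v^5
    + 50 * ζ^3 * u * v^4 + 100 * ζ^3 * u^3 * v^2 + (-50) * ζ^3 * u^4 * v + 20 * ζ^3 * u^5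
    + 5 * ζ^4 * v^5 + 50 * ζ^4 * u^2 * v^3 + (-50) * ζ^4 * u^3 * v^2 + 50 * ζ^4 * u^4 * v
    + (-15) * ζ^4 * u^5 + (-9) * ζ^5 * v^5 + (-25) * ζ^5 * u * v^4 + (-50) * ζ^5 * u^2 * v^3
    + (-25) * ζ^5 * u^4 * v + 5 * ζ^5 * u^5 + (-11) * ζ^6 * v^5 + (-20) * ζ^6 * u * v^4
    + (-50) * ζ^6 * u^2 * v^3 + (-25) * ζ^6 * u^4 * v + 5 * ζ^6 * u^5 + 5 * ζ^7 * v^5
    + (-10) * ζ^7 * u * v^4 + 60 * ζ^7 * u^2 * v^3 + (-50) * ζ^7 * u^3 * v^2 + 50 * ζ^7 * u^4 * v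
    + (-15) * ζ^7 * u^5 + 5 * ζ^8 * v^5 + 55 * ζ^8 * u * v^4 + (-30) * ζ^8 * u^2 * v^3
    + 110 * ζ^8 * u^3 * v^2 + (-50) * ζ^8 * u^4 * v + 20 * ζ^8 * u^5 + 10 * ζ^9 * v^5
    + (-20) * ζ^9 * u * v^4 + 80 * ζ^9 * u^2 * v^3 + (-90) * ζ^9 * u^3 * v^2 + 55 * ζ^9 * u^4 * v
    + (-15) * ζ^9 * u^5 + (-9) * ζ^10 * v^5 + 15 * ζ^10 * u * v^4 + (-90) * ζ^10 * u^2 * v^3
    + 60 * ζ^10 * u^3 * v^2 + (-50) * ζ^10 * u^4 * v + 6 * ζ^10 * u^5 + (-1) * ζ^11 * v^5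
    + (-40) * ζ^11 * u * v^4 + 40 * ζ^11 * u^2 * v^3 + (-60) * ζ^11 * u^3 * v^2 + 25 * ζ^11 * u^4 * v
    + (-1) * ζ^11 * u^5 + (-5) * ζ^12 * v^5 + 20 * ζ^12 * u * v^4 + (-30) * ζ^12 * u^2 * v^3
    + 40 * ζ^12 * u^3 * v^2 + (-5) * ζ^12 * u^4 * v + 5 * ζ^13 * v^5 + (-5) * ζ^13 * u * v^4
    + 30 * ζ^13 * u^2 * v^3 + (-10) * ζ^13 * u^3 * v^2 + 10 * ζ^14 * u * v^4 + (-10) * ζ^14 * u^2 * v^3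
    + 1 * ζ^15 * v^5 + (-5) * ζ^15 * u * v^4 + (-1) * ζ^16 * v^5) * hζ

theorem sMon1 (ζ u v : K) (hζ : ζ ^ 4 + ζ ^ 3 + ζ ^ 2 + ζ + 1 = 0) :
    sU ζ u v ^ 1 * sV ζ u v ^ 4 =
    5 * v^5 + 10 * u * v^4 + (-20) * u^2 * v^3 + (-10) * u^3 * v^2
    + (-5) * u^4 * v + (-5) * u^5 + 10 * ζ * v^5 + 20 * ζ * u * v^4
    + (-40) * ζ * u^2 * v^3 + (-20) * ζ * u^3 * v^2 + (-10) * ζ * u^4 * v + (-10) * ζ * u^5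
    + 10 * ζ^2 * v^5 + 5 * ζ^2 * u * v^4 + (-10) * ζ^2 * u^2 * v^3 + (-30) * ζ^2 * u^3 * v^2
    + (-15) * ζ^2 * u^4 * v + 15 * ζ^3 * u * v^4 + (-30) * ζ^3 * u^2 * v^3 + 10 * ζ^3 * u^3 * v^2
    + 5 * ζ^3 * u^4 * v + (-10) * ζ^3 * u^5 := by
  simp only [sU, sV]
  linear_combination ((-5) * v^5 + (-10) * u * v^4 + 20 * u^2 * v^3 + 10 * u^3 * v^2
    + 5 * u^4 * v + 5 * u^5 + (-5) * ζ * v^5 + (-10) * ζ * u * v^4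
    + 20 * ζ * u^2 * v^3 + 10 * ζ * u^3 * v^2 + 5 * ζ * u^4 * v + 5 * ζ * u^5
    + 15 * ζ^2 * u * v^4 + (-30) * ζ^2 * u^2 * v^3 + 10 * ζ^2 * u^3 * v^2 + 5 * ζ^2 * u^4 * v
    + (-10) * ζ^2 * u^5 + 10 * ζ^3 * v^5 + (-10) * ζ^3 * u * v^4 + 20 * ζ^3 * u^2 * v^3
    + (-40) * ζ^3 * u^3 * v^2 + (-20) * ζ^3 * u^4 * v + 10 * ζ^3 * u^5 + 15 * ζ^4 * u * v^4
    + (-30) * ζ^4 * u^2 * v^3 + 10 * ζ^4 * u^3 * v^2 + 5 * ζ^4 * u^4 * v + (-10) * ζ^4 * u^5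
    + (-5) * ζ^5 * v^5 + (-11) * ζ^5 * u * v^4 + 20 * ζ^5 * u^2 * v^3 + 10 * ζ^5 * u^3 * v^2
    + 5 * ζ^5 * u^4 * v + 5 * ζ^5 * u^5 + (-4) * ζ^6 * v^5 + (-9) * ζ^6 * u * v^4
    + 16 * ζ^6 * u^2 * v^3 + 10 * ζ^6 * u^3 * v^2 + 5 * ζ^6 * u^4 * v + 5 * ζ^6 * u^5
    + (-2) * ζ^7 * v^5 + 19 * ζ^7 * u * v^4 + (-22) * ζ^7 * u^2 * v^3 + 4 * ζ^7 * u^3 * v^2
    + 5 * ζ^7 * u^4 * v + (-10) * ζ^7 * u^5 + 11 * ζ^8 * v^5 + (-17) * ζ^8 * u * v^4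
    + 22 * ζ^8 * u^2 * v^3 + (-22) * ζ^8 * u^3 * v^2 + (-24) * ζ^8 * u^4 * v + 10 * ζ^8 * u^5
    + (-4) * ζ^9 * v^5 + 22 * ζ^9 * u * v^4 + (-38) * ζ^9 * u^2 * v^3 + (-4) * ζ^9 * u^3 * v^2
    + 21 * ζ^9 * u^4 * v + (-11) * ζ^9 * u^5 + 3 * ζ^10 * v^5 + (-27) * ζ^10 * u * v^4
    + 24 * ζ^10 * u^2 * v^3 + 14 * ζ^10 * u^3 * v^2 + (-18) * ζ^10 * u^4 * v + 10 * ζ^10 * u^5
    + (-8) * ζ^11 * v^5 + 17 * ζ^11 * u * v^4 + (-4) * ζ^11 * u^2 * v^3 + (-4) * ζ^11 * u^3 * v^2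
    + 23 * ζ^11 * u^4 * v + (-5) * ζ^11 * u^5 + 4 * ζ^12 * v^5 + (-7) * ζ^12 * u * v^4
    + 8 * ζ^12 * u^2 * v^3 + 14 * ζ^12 * u^3 * v^2 + (-16) * ζ^12 * u^4 * v + 1 * ζ^12 * u^5
    + (-1) * ζ^13 * v^5 + 7 * ζ^13 * u * v^4 + (-2) * ζ^13 * u^2 * v^3 + (-18) * ζ^13 * u^3 * v^2
    + 4 * ζ^13 * u^4 * v + 2 * ζ^14 * v^5 + (-4) * ζ^14 * u * v^4 + (-8) * ζ^14 * u^2 * v^3
    + 6 * ζ^14 * u^3 * v^2 + (-1) * ζ^15 * v^5 + (-1) * ζ^15 * u * v^4 + 4 * ζ^15 * u^2 * v^3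
    + 1 * ζ^16 * u * v^4) * hζ

theorem sMon2 (ζ u v : K) (hζ : ζ ^ 4 + ζ ^ 3 + ζ ^ 2 + ζ + 1 = 0) :
    sU ζ u v ^ 2 * sV ζ u v ^ 3 =
    5 * v^5 + (-10) * u * v^4 + (-5) * u^2 * v^3 + 10 * u^3 * v^2
    + 5 * u^4 * v + 10 * ζ * v^5 + (-20) * ζ * u * v^4 + (-10) * ζ * u^2 * v^3
    + 20 * ζ * u^3 * v^2 + 10 * ζ * u^4 * v + 5 * ζ^2 * v^5 + (-5) * ζ^2 * u * v^4
    + (-15) * ζ^2 * u^2 * v^3 + 5 * ζ^2 * u^3 * v^2 + 15 * ζ^2 * u^4 * v + 5 * ζ^2 * u^5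
    + 5 * ζ^3 * v^5 + (-15) * ζ^3 * u * v^4 + 5 * ζ^3 * u^2 * v^3 + 15 * ζ^3 * u^3 * v^2
    + (-5) * ζ^3 * u^4 * v + (-5) * ζ^3 * u^5 := by
  simp only [sU, sV]
  linear_combination ((-5) * v^5 + 10 * u * v^4 + 5 * u^2 * v^3 + (-10) * u^3 * v^2
    + (-5) * u^4 * v + (-5) * ζ * v^5 + 10 * ζ * u * v^4 + 5 * ζ * u^2 * v^3
    + (-10) * ζ * u^3 * v^2 + (-5) * ζ * u^4 * v + 5 * ζ^2 * v^5 + (-15) * ζ^2 * u * v^4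
    + 5 * ζ^2 * u^2 * v^3 + 15 * ζ^2 * u^3 * v^2 + (-5) * ζ^2 * u^4 * v + (-5) * ζ^2 * u^5
    + 10 * ζ^3 * u * v^4 + (-20) * ζ^3 * u^2 * v^3 + (-10) * ζ^3 * u^3 * v^2 + 20 * ζ^3 * u^4 * v
    + 10 * ζ^3 * u^5 + 5 * ζ^4 * v^5 + (-15) * ζ^4 * u * v^4 + 5 * ζ^4 * u^2 * v^3
    + 15 * ζ^4 * u^3 * v^2 + (-5) * ζ^4 * u^4 * v + (-5) * ζ^4 * u^5 + (-5) * ζ^5 * v^5
    + 10 * ζ^5 * u * v^4 + 6 * ζ^5 * u^2 * v^3 + (-10) * ζ^5 * u^3 * v^2 + (-5) * ζ^5 * u^4 * v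
    + (-5) * ζ^6 * v^5 + 8 * ζ^6 * u * v^4 + 4 * ζ^6 * u^2 * v^3 + (-7) * ζ^6 * u^3 * v^2
    + (-5) * ζ^6 * u^4 * v + 6 * ζ^7 * v^5 + (-11) * ζ^7 * u * v^4 + (-1) * ζ^7 * u^2 * v^3
    + 9 * ζ^7 * u^3 * v^2 + (-2) * ζ^7 * u^4 * v + (-5) * ζ^7 * u^5 + (-3) * ζ^8 * v^5
    + 11 * ζ^8 * u * v^4 + (-7) * ζ^8 * u^2 * v^3 + (-13) * ζ^8 * u^3 * v^2 + 11 * ζ^8 * u^4 * v
    + 11 * ζ^8 * u^5 + 8 * ζ^9 * v^5 + (-19) * ζ^9 * u * v^4 + (-5) * ζ^9 * u^2 * v^3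
    + 27 * ζ^9 * u^3 * v^2 + 2 * ζ^9 * u^4 * v + (-9) * ζ^9 * u^5 + (-9) * ζ^10 * v^5
    + 12 * ζ^10 * u * v^4 + 15 * ζ^10 * u^2 * v^3 + (-21) * ζ^10 * u^3 * v^2 + (-7) * ζ^10 * u^4 * v
    + 6 * ζ^10 * u^5 + 4 * ζ^11 * v^5 + (-2) * ζ^11 * u * v^4 + (-10) * ζ^11 * u^2 * v^3
    + 11 * ζ^11 * u^3 * v^2 + 2 * ζ^11 * u^4 * v + (-6) * ζ^11 * u^5 + (-3) * ζ^12 * v^5
    + 4 * ζ^12 * u * v^4 + 10 * ζ^12 * u^2 * v^3 + (-12) * ζ^12 * u^3 * v^2 + (-7) * ζ^12 * u^4 * v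
    + 4 * ζ^12 * u^5 + 3 * ζ^13 * v^5 + (-1) * ζ^13 * u * v^4 + (-13) * ζ^13 * u^2 * v^3
    + 3 * ζ^13 * u^3 * v^2 + 9 * ζ^13 * u^4 * v + (-1) * ζ^13 * u^5 + (-1) * ζ^14 * v^5
    + (-4) * ζ^14 * u * v^4 + 6 * ζ^14 * u^2 * v^3 + 6 * ζ^14 * u^3 * v^2 + (-3) * ζ^14 * u^4 * v
    + 2 * ζ^15 * u * v^4 + 1 * ζ^15 * u^2 * v^3 + (-3) * ζ^15 * u^3 * v^2 + (-1) * ζ^16 * u^2 * v^3) * hζ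

theorem sMon3 (ζ u v : K) (hζ : ζ ^ 4 + ζ ^ 3 + ζ ^ 2 + ζ + 1 = 0) :
    sU ζ u v ^ 3 * sV ζ u v ^ 2 =
    (-5) * u * v^4 + 10 * u^2 * v^3 + 5 * u^3 * v^2 + (-10) * u^4 * v
    + (-5) * u^5 + (-10) * ζ * u * v^4 + 20 * ζ * u^2 * v^3 + 10 * ζ * u^3 * v^2
    + (-20) * ζ * u^4 * v + (-10) * ζ * u^5 + 5 * ζ^2 * v^5 + (-15) * ζ^2 * u * v^4
    + 5 * ζ^2 * u^2 * v^3 + 15 * ζ^2 * u^3 * v^2 + (-5) * ζ^2 * u^4 * v + (-5) * ζ^2 * u^5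
    + (-5) * ζ^3 * v^5 + 5 * ζ^3 * u * v^4 + 15 * ζ^3 * u^2 * v^3 + (-5) * ζ^3 * u^3 * v^2
    + (-15) * ζ^3 * u^4 * v + (-5) * ζ^3 * u^5 := by
  simp only [sU, sV]
  linear_combination (5 * u * v^4 + (-10) * u^2 * v^3 + (-5) * u^3 * v^2 + 10 * u^4 * v
    + 5 * u^5 + 5 * ζ * u * v^4 + (-10) * ζ * u^2 * v^3 + (-5) * ζ * u^3 * v^2
    + 10 * ζ * u^4 * v + 5 * ζ * u^5 + (-5) * ζ^2 * v^5 + 5 * ζ^2 * u * v^4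
    + 15 * ζ^2 * u^2 * v^3 + (-5) * ζ^2 * u^3 * v^2 + (-15) * ζ^2 * u^4 * v + (-5) * ζ^2 * u^5
    + 10 * ζ^3 * v^5 + (-20) * ζ^3 * u * v^4 + (-10) * ζ^3 * u^2 * v^3 + 20 * ζ^3 * u^3 * v^2
    + 10 * ζ^3 * u^4 * v + (-5) * ζ^4 * v^5 + 5 * ζ^4 * u * v^4 + 15 * ζ^4 * u^2 * v^3
    + (-5) * ζ^4 * u^3 * v^2 + (-15) * ζ^4 * u^4 * v + (-5) * ζ^4 * u^5 + 5 * ζ^5 * u * v^4
    + (-10) * ζ^5 * u^2 * v^3 + (-6) * ζ^5 * u^3 * v^2 + 10 * ζ^5 * u^4 * v + 5 * ζ^5 * u^5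
    + 5 * ζ^6 * u * v^4 + (-7) * ζ^6 * u^2 * v^3 + (-4) * ζ^6 * u^3 * v^2 + 8 * ζ^6 * u^4 * v
    + 5 * ζ^6 * u^5 + (-5) * ζ^7 * v^5 + 2 * ζ^7 * u * v^4 + 9 * ζ^7 * u^2 * v^3
    + 1 * ζ^7 * u^3 * v^2 + (-11) * ζ^7 * u^4 * v + (-6) * ζ^7 * u^5 + 11 * ζ^8 * v^5
    + (-11) * ζ^8 * u * v^4 + (-13) * ζ^8 * u^2 * v^3 + 7 * ζ^8 * u^3 * v^2 + 11 * ζ^8 * u^4 * v
    + 3 * ζ^8 * u^5 + (-9) * ζ^9 * v^5 + (-2) * ζ^9 * u * v^4 + 27 * ζ^9 * u^2 * v^3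
    + 5 * ζ^9 * u^3 * v^2 + (-19) * ζ^9 * u^4 * v + (-8) * ζ^9 * u^5 + 6 * ζ^10 * v^5
    + 7 * ζ^10 * u * v^4 + (-21) * ζ^10 * u^2 * v^3 + (-15) * ζ^10 * u^3 * v^2 + 12 * ζ^10 * u^4 * v
    + 9 * ζ^10 * u^5 + (-6) * ζ^11 * v^5 + (-2) * ζ^11 * u * v^4 + 11 * ζ^11 * u^2 * v^3
    + 10 * ζ^11 * u^3 * v^2 + (-2) * ζ^11 * u^4 * v + (-4) * ζ^11 * u^5 + 4 * ζ^12 * v^5
    + 7 * ζ^12 * u * v^4 + (-12) * ζ^12 * u^2 * v^3 + (-10) * ζ^12 * u^3 * v^2 + 4 * ζ^12 * u^4 * v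
    + 3 * ζ^12 * u^5 + (-1) * ζ^13 * v^5 + (-9) * ζ^13 * u * v^4 + 3 * ζ^13 * u^2 * v^3
    + 13 * ζ^13 * u^3 * v^2 + (-1) * ζ^13 * u^4 * v + (-3) * ζ^13 * u^5 + 3 * ζ^14 * u * v^4
    + 6 * ζ^14 * u^2 * v^3 + (-6) * ζ^14 * u^3 * v^2 + (-4) * ζ^14 * u^4 * v + 1 * ζ^14 * u^5
    + (-3) * ζ^15 * u^2 * v^3 + (-1) * ζ^15 * u^3 * v^2 + 2 * ζ^15 * u^4 * v + 1 * ζ^16 * u^3 * v^2) * hζ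

theorem sMon4 (ζ u v : K) (hζ : ζ ^ 4 + ζ ^ 3 + ζ ^ 2 + ζ + 1 = 0) :
    sU ζ u v ^ 4 * sV ζ u v ^ 1 =
    5 * v^5 + (-5) * u * v^4 + 10 * u^2 * v^3 + (-20) * u^3 * v^2
    + (-10) * u^4 * v + 5 * u^5 + 10 * ζ * v^5 + (-10) * ζ * u * v^4
    + 20 * ζ * u^2 * v^3 + (-40) * ζ * u^3 * v^2 + (-20) * ζ * u^4 * v + 10 * ζ * u^5
    + (-15) * ζ^2 * u * v^4 + 30 * ζ^2 * u^2 * v^3 + (-10) * ζ^2 * u^3 * v^2 + (-5) * ζ^2 * u^4 * v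
    + 10 * ζ^2 * u^5 + 10 * ζ^3 * v^5 + 5 * ζ^3 * u * v^4 + (-10) * ζ^3 * u^2 * v^3
    + (-30) * ζ^3 * u^3 * v^2 + (-15) * ζ^3 * u^4 * v := by
  simp only [sU, sV]
  linear_combination ((-5) * v^5 + 5 * u * v^4 + (-10) * u^2 * v^3 + 20 * u^3 * v^2
    + 10 * u^4 * v + (-5) * u^5 + (-5) * ζ * v^5 + 5 * ζ * u * v^4
    + (-10) * ζ * u^2 * v^3 + 20 * ζ * u^3 * v^2 + 10 * ζ * u^4 * v + (-5) * ζ * u^5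
    + 10 * ζ^2 * v^5 + 5 * ζ^2 * u * v^4 + (-10) * ζ^2 * u^2 * v^3 + (-30) * ζ^2 * u^3 * v^2
    + (-15) * ζ^2 * u^4 * v + (-10) * ζ^3 * v^5 + (-20) * ζ^3 * u * v^4 + 40 * ζ^3 * u^2 * v^3
    + 20 * ζ^3 * u^3 * v^2 + 10 * ζ^3 * u^4 * v + 10 * ζ^3 * u^5 + 10 * ζ^4 * v^5
    + 5 * ζ^4 * u * v^4 + (-10) * ζ^4 * u^2 * v^3 + (-30) * ζ^4 * u^3 * v^2 + (-15) * ζ^4 * u^4 * v
    + (-5) * ζ^5 * v^5 + 5 * ζ^5 * u * v^4 + (-10) * ζ^5 * u^2 * v^3 + 20 * ζ^5 * u^3 * v^2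
    + 11 * ζ^5 * u^4 * v + (-5) * ζ^5 * u^5 + (-5) * ζ^6 * v^5 + 5 * ζ^6 * u * v^4
    + (-10) * ζ^6 * u^2 * v^3 + 16 * ζ^6 * u^3 * v^2 + 9 * ζ^6 * u^4 * v + (-4) * ζ^6 * u^5
    + 10 * ζ^7 * v^5 + 5 * ζ^7 * u * v^4 + (-4) * ζ^7 * u^2 * v^3 + (-22) * ζ^7 * u^3 * v^2
    + (-19) * ζ^7 * u^4 * v + (-2) * ζ^7 * u^5 + (-10) * ζ^8 * v^5 + (-24) * ζ^8 * u * v^4
    + 22 * ζ^8 * u^2 * v^3 + 22 * ζ^8 * u^3 * v^2 + 17 * ζ^8 * u^4 * v + 11 * ζ^8 * u^5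
    + 11 * ζ^9 * v^5 + 21 * ζ^9 * u * v^4 + 4 * ζ^9 * u^2 * v^3 + (-38) * ζ^9 * u^3 * v^2
    + (-22) * ζ^9 * u^4 * v + (-4) * ζ^9 * u^5 + (-10) * ζ^10 * v^5 + (-18) * ζ^10 * u * v^4
    + (-14) * ζ^10 * u^2 * v^3 + 24 * ζ^10 * u^3 * v^2 + 27 * ζ^10 * u^4 * v + 3 * ζ^10 * u^5
    + 5 * ζ^11 * v^5 + 23 * ζ^11 * u * v^4 + 4 * ζ^11 * u^2 * v^3 + (-4) * ζ^11 * u^3 * v^2
    + (-17) * ζ^11 * u^4 * v + (-8) * ζ^11 * u^5 + (-1) * ζ^12 * v^5 + (-16) * ζ^12 * u * v^4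
    + (-14) * ζ^12 * u^2 * v^3 + 8 * ζ^12 * u^3 * v^2 + 7 * ζ^12 * u^4 * v + 4 * ζ^12 * u^5
    + 4 * ζ^13 * u * v^4 + 18 * ζ^13 * u^2 * v^3 + (-2) * ζ^13 * u^3 * v^2 + (-7) * ζ^13 * u^4 * v
    + (-1) * ζ^13 * u^5 + (-6) * ζ^14 * u^2 * v^3 + (-8) * ζ^14 * u^3 * v^2 + 4 * ζ^14 * u^4 * v
    + 2 * ζ^14 * u^5 + 4 * ζ^15 * u^3 * v^2 + 1 * ζ^15 * u^4 * v + (-1) * ζ^15 * u^5
    + (-1) * ζ^16 * u^4 * v) * hζ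

theorem sMon5 (ζ u v : K) (hζ : ζ ^ 4 + ζ ^ 3 + ζ ^ 2 + ζ + 1 = 0) :
    sU ζ u v ^ 5 * sV ζ u v ^ 0 =
    (-5) * v^5 + (-25) * u * v^4 + (-50) * u^3 * v^2 + 25 * u^4 * v
    + (-10) * u^5 + (-10) * ζ * v^5 + (-50) * ζ * u * v^4 + (-100) * ζ * u^3 * v^2
    + 50 * ζ * u^4 * v + (-20) * ζ * u^5 + 5 * ζ^2 * v^5 + 50 * ζ^2 * u^2 * v^3
    + (-50) * ζ^2 * u^3 * v^2 + 50 * ζ^2 * u^4 * v + (-15) * ζ^2 * u^5 + (-15) * ζ^3 * v^5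
    + (-50) * ζ^3 * u * v^4 + (-50) * ζ^3 * u^2 * v^3 + (-50) * ζ^3 * u^3 * v^2 + (-5) * ζ^3 * u^5 := by
  simp only [sU, sV]
  linear_combination (5 * v^5 + 25 * u * v^4 + 50 * u^3 * v^2 + (-25) * u^4 * v
    + 10 * u^5 + 5 * ζ * v^5 + 25 * ζ * u * v^4 + 50 * ζ * u^3 * v^2
    + (-25) * ζ * u^4 * v + 10 * ζ * u^5 + (-15) * ζ^2 * v^5 + (-50) * ζ^2 * u * v^4
    + (-50) * ζ^2 * u^2 * v^3 + (-50) * ζ^2 * u^3 * v^2 + (-5) * ζ^2 * u^5 + 20 * ζ^3 * v^5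
    + 50 * ζ^3 * u * v^4 + 100 * ζ^3 * u^2 * v^3 + 50 * ζ^3 * u^4 * v + (-10) * ζ^3 * u^5
    + (-15) * ζ^4 * v^5 + (-50) * ζ^4 * u * v^4 + (-50) * ζ^4 * u^2 * v^3 + (-50) * ζ^4 * u^3 * v^2
    + (-5) * ζ^4 * u^5 + 5 * ζ^5 * v^5 + 25 * ζ^5 * u * v^4 + 50 * ζ^5 * u^3 * v^2
    + (-25) * ζ^5 * u^4 * v + 9 * ζ^5 * u^5 + 5 * ζ^6 * v^5 + 25 * ζ^6 * u * v^4
    + 50 * ζ^6 * u^3 * v^2 + (-20) * ζ^6 * u^4 * v + 11 * ζ^6 * u^5 + (-15) * ζ^7 * v^5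
    + (-50) * ζ^7 * u * v^4 + (-50) * ζ^7 * u^2 * v^3 + (-60) * ζ^7 * u^3 * v^2 + (-10) * ζ^7 * u^4 * v
    + (-5) * ζ^7 * u^5 + 20 * ζ^8 * v^5 + 50 * ζ^8 * u * v^4 + 110 * ζ^8 * u^2 * v^3
    + 30 * ζ^8 * u^3 * v^2 + 55 * ζ^8 * u^4 * v + (-5) * ζ^8 * u^5 + (-15) * ζ^9 * v^5
    + (-55) * ζ^9 * u * v^4 + (-90) * ζ^9 * u^2 * v^3 + (-80) * ζ^9 * u^3 * v^2 + (-20) * ζ^9 * u^4 * v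
    + (-10) * ζ^9 * u^5 + 6 * ζ^10 * v^5 + 50 * ζ^10 * u * v^4 + 60 * ζ^10 * u^2 * v^3
    + 90 * ζ^10 * u^3 * v^2 + 15 * ζ^10 * u^4 * v + 9 * ζ^10 * u^5 + (-1) * ζ^11 * v^5
    + (-25) * ζ^11 * u * v^4 + (-60) * ζ^11 * u^2 * v^3 + (-40) * ζ^11 * u^3 * v^2 + (-40) * ζ^11 * u^4 * v
    + 1 * ζ^11 * u^5 + 5 * ζ^12 * u * v^4 + 40 * ζ^12 * u^2 * v^3 + 30 * ζ^12 * u^3 * v^2
    + 20 * ζ^12 * u^4 * v + 5 * ζ^12 * u^5 + (-10) * ζ^13 * u^2 * v^3 + (-30) * ζ^13 * u^3 * v^2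
    + (-5) * ζ^13 * u^4 * v + (-5) * ζ^13 * u^5 + 10 * ζ^14 * u^3 * v^2 + 10 * ζ^14 * u^4 * v
    + (-5) * ζ^15 * u^4 * v + (-1) * ζ^15 * u^5 + 1 * ζ^16 * u^5) * hζ

theorem xQ_S (ζ u v : K) (hζ : ζ ^ 4 + ζ ^ 3 + ζ ^ 2 + ζ + 1 = 0) :
    xQ (sU ζ u v) (sV ζ u v) =
      5 ^ 5 * xP (ζ ^ 3) u v := by
  have e : xQ (sU ζ u v) (sV ζ u v) =
      (3) * ((sU ζ u v ^ 0 * sV ζ u v ^ 5) * (sU ζ u v ^ 0 * sV ζ u v ^ 5)) + (36) * ((sU ζ u v ^ 1 * sV ζ u v ^ 4) * (sU ζ u v ^ 0 * sV ζ u v ^ 5)) + (72) * ((sU ζ u v ^ 2 * sV ζ u v ^ 3) * (sU ζ u v ^ 0 * sV ζ u v ^ 5)) + (108) * ((sU ζ u v ^ 3 * sV ζ u v ^ 2) * (sU ζ u v ^ 0 * sV ζ u v ^ 5)) + (180) * ((sU ζ u v ^ 4 * sV ζ u v ^ 1) * (sU ζ u v ^ 0 * sV ζ u v ^ 5)) + (90) * ((sU ζ u v ^ 5 * sV ζ u v ^ 0) * (sU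 ζ u v ^ 0 * sV ζ u v ^ 5)) + (72) * ((sU ζ u v ^ 5 * sV ζ u v ^ 0) * (sU ζ u v ^ 1 * sV ζ u v ^ 4)) + (-36) * ((sU ζ u v ^ 5 * sV ζ u v ^ 0) * (sU ζ u v ^ 2 * sV ζ u v ^ 3)) + (36) * ((sU ζ u v ^ 5 * sV ζ u v ^ 0) * (sU ζ u v ^ 3 * sV ζ u v ^ 2)) + (3) * ((sU ζ u v ^ 5 * sV ζ u v ^ 0) * (sU ζ u v ^ 5 * sV ζ u v ^ 0)) := by
    simp only [xQ]; ring
  rw [e, sMon0 ζ u v hζ, sMon1 ζ u v hζ, sMon2 ζ u v hζ, sMon3 ζ u v hζ, sMon4 ζ u v hζ, sMon5 ζ u v hζ]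
  simp only [xP]
  linear_combination (67500 * v^10 + (-22500) * u * v^9 + (-45000) * u^2 * v^8 + (-202500) * u^3 * v^7
    + (-67500) * u^4 * v^6 + (-517500) * u^5 * v^5 + 67500 * u^6 * v^4 + (-202500) * u^7 * v^3
    + 45000 * u^8 * v^2 + (-22500) * u^9 * v + 45000 * u^10 + (-30000) * ζ * v^10
    + (-67500) * ζ * u * v^9 + (-135000) * ζ * u^2 * v^8 + (-607500) * ζ * u^3 * v^7 + (-202500) * ζ * u^4 * v^6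
    + (-1057500) * ζ * u^5 * v^5 + 202500 * ζ * u^6 * v^4 + (-607500) * ζ * u^7 * v^3 + 135000 * ζ * u^8 * v^2
    + (-67500) * ζ * u^9 * v + (-7500) * ζ * u^10 + 30000 * ζ^2 * v^10 + (-22500) * ζ^2 * u * v^9
    + (-45000) * ζ^2 * u^2 * v^8 + (-202500) * ζ^2 * u^3 * v^7 + (-67500) * ζ^2 * u^4 * v^6 + (-517500) * ζ^2 * u^5 * v^5
    + 67500 * ζ^2 * u^6 * v^4 + (-202500) * ζ^2 * u^7 * v^3 + 45000 * ζ^2 * u^8 * v^2 + (-22500) * ζ^2 * u^9 * v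
    + 7500 * ζ^2 * u^10 + (-22500) * ζ^4 * v^10 + 247500 * ζ^4 * u^5 * v^5 + 22500 * ζ^4 * u^10
    + 22500 * ζ^5 * v^10 + (-247500) * ζ^5 * u^5 * v^5 + (-22500) * ζ^5 * u^10) * hζ

theorem slopeQ_S (ζ u v : K) (hζ : ζ ^ 4 + ζ ^ 3 + ζ ^ 2 + ζ + 1 = 0) :
    slopeQ (sU ζ u v) (sV ζ u v) =
      (25) * s5 ζ * slopeP (ζ ^ 3) u v := by
  have e : slopeQ (sU ζ u v) (sV ζ u v) =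
      (3) * (sU ζ u v ^ 0 * sV ζ u v ^ 5) + (12) * (sU ζ u v ^ 1 * sV ζ u v ^ 4) + (6) * (sU ζ u v ^ 2 * sV ζ u v ^ 3) + (18) * (sU ζ u v ^ 3 * sV ζ u v ^ 2) + (-6) * (sU ζ u v ^ 4 * sV ζ u v ^ 1) + (3) * (sU ζ u v ^ 5 * sV ζ u v ^ 0) := by
    simp only [slopeQ]; ring
  rw [e, sMon0 ζ u v hζ, sMon1 ζ u v hζ, sMon2 ζ u v hζ, sMon3 ζ u v hζ, sMon4 ζ u v hζ, sMon5 ζ u v hζ]
  simp only [slopeP, s5]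
  linear_combination (75 * v^5 + (-225) * u^5 + 60 * ζ * v^5 + (-330) * ζ * u^5
    + 180 * ζ^2 * v^5 + 510 * ζ^2 * u^5 + (-450) * ζ^3 * v^5 + (-150) * ζ^3 * u^5
    + 90 * ζ^4 * v^5 + (-120) * ζ^4 * u^5 + 150 * ζ^5 * v^5 + 300 * ζ^5 * u^5
    + 60 * ζ^6 * v^5 + (-330) * ζ^6 * u^5 + (-180) * ζ^8 * v^5 + 240 * ζ^8 * u^5
    + 90 * ζ^9 * v^5 + (-120) * ζ^9 * u^5) * hζ

theorem klFu_S (ζ u v : K) (hζ : ζ ^ 4 + ζ ^ 3 + ζ ^ 2 + ζ + 1 = 0) :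
    klFu (sU ζ u v) (sV ζ u v) =
      -(5 ^ 5 * sV ζ (klFv u v) (-klFu u v)) := by
  have e : klFu (sU ζ u v) (sV ζ u v) =
      sV ζ u v * (((sU ζ u v ^ 0 * sV ζ u v ^ 5) * (sU ζ u v ^ 0 * sV ζ u v ^ 5)) + (-66) * ((sU ζ u v ^ 5 * sV ζ u v ^ 0) * (sU ζ u v ^ 0 * sV ζ u v ^ 5)) + (-11) * ((sU ζ u v ^ 5 * sV ζ u v ^ 0) * (sU ζ u v ^ 5 * sV ζ u v ^ 0))) := by
    simp only [klFu]; ring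
  rw [e, sMon0 ζ u v hζ, sMon5 ζ u v hζ]
  simp only [sV, klFu, klFv]
  linear_combination (22500 * ζ * u * v^10 + 52500 * ζ * u^2 * v^9 + 112500 * ζ * u^3 * v^8 + 52500 * ζ * u^4 * v^7
    + 390000 * ζ * u^5 * v^6 + (-105000) * ζ * u^6 * v^5 + 142500 * ζ * u^7 * v^4 + (-75000) * ζ * u^8 * v^3
    + 30000 * ζ * u^9 * v^2 + 30000 * ζ * u^10 * v + 12500 * ζ^2 * v^11 + 105000 * ζ^2 * u * v^10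
    + 180000 * ζ^2 * u^2 * v^9 + 390000 * ζ^2 * u^3 * v^8 + 270000 * ζ^2 * u^4 * v^7 + 397500 * ζ^2 * u^5 * v^6
    + (-337500) * ζ^2 * u^6 * v^5 + 322500 * ζ^2 * u^7 * v^4 + (-82500) * ζ^2 * u^8 * v^3 + 15000 * ζ^2 * u^9 * v^2
    + (-17500) * ζ^2 * u^10 * v + (-7500) * ζ^2 * u^11 + 2500 * ζ^3 * v^11 + (-25000) * ζ^3 * u * v^10
    + 105000 * ζ^3 * u^2 * v^9 + 240000 * ζ^3 * u^3 * v^8 + 307500 * ζ^3 * u^4 * v^7 + 382500 * ζ^3 * u^5 * v^6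
    + 592500 * ζ^3 * u^6 * v^5 + (-15000) * ζ^3 * u^7 * v^4 + 180000 * ζ^3 * u^8 * v^3 + (-97500) * ζ^3 * u^9 * v^2
    + 55000 * ζ^3 * u^10 * v + (-2500) * ζ^3 * u^11 + 5000 * ζ^4 * u * v^10 + (-82500) * ζ^4 * u^2 * v^9
    + (-210000) * ζ^4 * u^3 * v^8 + (-255000) * ζ^4 * u^4 * v^7 + (-465000) * ζ^4 * u^5 * v^6 + (-375000) * ζ^4 * u^6 * v^5
    + (-15000) * ζ^4 * u^7 * v^4 + (-157500) * ζ^4 * u^8 * v^3 + 90000 * ζ^4 * u^9 * v^2 + (-67500) * ζ^4 * u^10 * v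
    + 5000 * ζ^4 * u^11 + (-12500) * ζ^5 * v^11 + (-107500) * ζ^5 * u * v^10 + (-232500) * ζ^5 * u^2 * v^9
    + (-472500) * ζ^5 * u^3 * v^8 + (-405000) * ζ^5 * u^4 * v^7 + (-615000) * ζ^5 * u^5 * v^6 + 150000 * ζ^5 * u^6 * v^5
    + (-315000) * ζ^5 * u^7 * v^4 + 67500 * ζ^5 * u^8 * v^3 + (-22500) * ζ^5 * u^9 * v^2 + (-5000) * ζ^5 * u^10 * v
    + 5000 * ζ^5 * u^11 + (-2500) * ζ^6 * v^11 + (-22500) * ζ^6 * u^2 * v^9 + (-60000) * ζ^6 * u^3 * v^8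
    + 30000 * ζ^6 * u^4 * v^7 + (-90000) * ζ^6 * u^5 * v^6 + 75000 * ζ^6 * u^6 * v^5 + (-120000) * ζ^6 * u^7 * v^4
    + 67500 * ζ^6 * u^8 * v^3 + (-15000) * ζ^6 * u^9 * v^2 + 5000 * ζ^6 * u^10 * v) * hζ

theorem klFv_S (ζ u v : K) (hζ : ζ ^ 4 + ζ ^ 3 + ζ ^ 2 + ζ + 1 = 0) :
    klFv (sU ζ u v) (sV ζ u v) =
      5 ^ 5 * sU ζ (klFv u v) (-klFu u v) := by
  have e : klFv (sU ζ u v) (sV ζ u v) =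
      sU ζ u v * (11 * ((sU ζ u v ^ 0 * sV ζ u v ^ 5) * (sU ζ u v ^ 0 * sV ζ u v ^ 5)) + (-66) * ((sU ζ u v ^ 5 * sV ζ u v ^ 0) * (sU ζ u v ^ 0 * sV ζ u v ^ 5)) + (-1) * ((sU ζ u v ^ 5 * sV ζ u v ^ 0) * (sU ζ u v ^ 5 * sV ζ u v ^ 0))) := by
    simp only [klFv]; ring
  rw [e, sMon0 ζ u v hζ, sMon5 ζ u v hζ]
  simp only [sU, klFu, klFv]
  linear_combination (30000 * ζ * u * v^10 + (-30000) * ζ * u^2 * v^9 + (-75000) * ζ * u^3 * v^8 + (-142500) * ζ * u^4 * v^7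
    + (-105000) * ζ * u^5 * v^6 + (-390000) * ζ * u^6 * v^5 + 52500 * ζ * u^7 * v^4 + (-112500) * ζ * u^8 * v^3
    + 52500 * ζ * u^9 * v^2 + (-22500) * ζ * u^10 * v + 7500 * ζ^2 * v^11 + (-17500) * ζ^2 * u * v^10
    + (-15000) * ζ^2 * u^2 * v^9 + (-82500) * ζ^2 * u^3 * v^8 + (-322500) * ζ^2 * u^4 * v^7 + (-337500) * ζ^2 * u^5 * v^6
    + (-397500) * ζ^2 * u^6 * v^5 + 270000 * ζ^2 * u^7 * v^4 + (-390000) * ζ^2 * u^8 * v^3 + 180000 * ζ^2 * u^9 * v^2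
    + (-105000) * ζ^2 * u^10 * v + 12500 * ζ^2 * u^11 + 2500 * ζ^3 * v^11 + 55000 * ζ^3 * u * v^10
    + 97500 * ζ^3 * u^2 * v^9 + 180000 * ζ^3 * u^3 * v^8 + 15000 * ζ^3 * u^4 * v^7 + 592500 * ζ^3 * u^5 * v^6
    + (-382500) * ζ^3 * u^6 * v^5 + 307500 * ζ^3 * u^7 * v^4 + (-240000) * ζ^3 * u^8 * v^3 + 105000 * ζ^3 * u^9 * v^2
    + 25000 * ζ^3 * u^10 * v + 2500 * ζ^3 * u^11 + (-5000) * ζ^4 * v^11 + (-67500) * ζ^4 * u * v^10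
    + (-90000) * ζ^4 * u^2 * v^9 + (-157500) * ζ^4 * u^3 * v^8 + 15000 * ζ^4 * u^4 * v^7 + (-375000) * ζ^4 * u^5 * v^6
    + 465000 * ζ^4 * u^6 * v^5 + (-255000) * ζ^4 * u^7 * v^4 + 210000 * ζ^4 * u^8 * v^3 + (-82500) * ζ^4 * u^9 * v^2
    + (-5000) * ζ^4 * u^10 * v + (-5000) * ζ^5 * v^11 + (-5000) * ζ^5 * u * v^10 + 22500 * ζ^5 * u^2 * v^9
    + 67500 * ζ^5 * u^3 * v^8 + 315000 * ζ^5 * u^4 * v^7 + 150000 * ζ^5 * u^5 * v^6 + 615000 * ζ^5 * u^6 * v^5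
    + (-405000) * ζ^5 * u^7 * v^4 + 472500 * ζ^5 * u^8 * v^3 + (-232500) * ζ^5 * u^9 * v^2 + 107500 * ζ^5 * u^10 * v
    + (-12500) * ζ^5 * u^11 + 5000 * ζ^6 * u * v^10 + 15000 * ζ^6 * u^2 * v^9 + 67500 * ζ^6 * u^3 * v^8
    + 120000 * ζ^6 * u^4 * v^7 + 75000 * ζ^6 * u^5 * v^6 + 90000 * ζ^6 * u^6 * v^5 + 30000 * ζ^6 * u^7 * v^4
    + 60000 * ζ^6 * u^8 * v^3 + (-22500) * ζ^6 * u^9 * v^2 + (-2500) * ζ^6 * u^11) * hζ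

theorem xP_rot (ζ u v : K) (hζ : ζ ^ 4 + ζ ^ 3 + ζ ^ 2 + ζ + 1 = 0) :
    xP ζ (-v) u = xP (ζ ^ 2) u v := by
  simp only [xP]
  linear_combination ((36/5) * v^10 + (-396/5) * u^5 * v^5 + (-36/5) * u^10 + (-36/5) * ζ * v^10
    + (396/5) * ζ * u^5 * v^5 + (36/5) * ζ * u^10 + (36/5) * ζ^2 * v^10 + (-396/5) * ζ^2 * u^5 * v^5
    + (-36/5) * ζ^2 * u^10) * hζ

theorem slopeP_rot (ζ u v : K) (hζ : ζ ^ 4 + ζ ^ 3 + ζ ^ 2 + ζ + 1 = 0) :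
    slopeP ζ (-v) u = (1) * slopeP (ζ ^ 2) u v := by
  simp only [slopeP]
  linear_combination ((-24/5) * v^5 + (-18/5) * u^5 + (-18/5) * ζ * v^5 + (24/5) * ζ * u^5
    + (18/5) * ζ^2 * v^5 + (-24/5) * ζ^2 * u^5) * hζ

end FLTAgent.Switch
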