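import Fermat.Agent.Switch.Level5
import Fermat.Agent.Switch.IdentS

set_option autoImplicit false

/-!
# Substitutions compatible with the level structure

`Compat hζ g M` says that the linear substitution `g` fixes the universal curve, acts on the level
structure by `M` and commutes with the covariant `cov = (∂F/∂v, -∂F/∂u)`.
-/

namespace FLTAgent.Switch

open WeierstrassCurve Affine

variable {K : Type*} [Field K]

/-- The degree eleven covariant. -/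
def cov (w : K × K) : K × K := (klFv w.1 w.2, -klFu w.1 w.2)

/-- The order four substitution. -/
def gS (ζ : K) : (K × K) →ₗ[K] (K × K) :=
  (s5 ζ / 5) • (((ζ ^ 4 - ζ) • LinearMap.fst K K K + (ζ ^ 2 - ζ ^ 3) • LinearMap.snd K K K).prod
    ((ζ ^ 2 - ζ ^ 3) • LinearMap.fst K K K + (ζ - ζ ^ 4) • LinearMap.snd K K K))

@[simp] theorem gS_fst (ζ : K) (w : K × K) : (gS ζ w).1 = s5 ζ / 5 * sU ζ w.1 w.2 := by
  simp [gS, sU]

@[simp] theorem gS_snd (ζ : K) (w : K × K) : (gS ζ w).2 = s5 ζ / 5 * sV ζ w.1 w.2 := by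
  simp [gS, sV]

section Homogeneity

variable (ζ c u v : K)

theorem cA_smul : cA (c * u) (c * v) = c ^ 20 * cA u v := by unfold cA klH; ring
theorem cB_smul : cB (c * u) (c * v) = c ^ 30 * cB u v := by unfold cB klT; ring
theorem xQ_smul : xQ (c * u) (c * v) = c ^ 10 * xQ u v := by unfold xQ; ring
theorem yQ_smul : yQ (c * u) (c * v) = c ^ 15 * yQ u v := by unfold yQ; ring
theorem xP_smul : xP ζ (c * u) (c * v) = c ^ 10 * xP ζ u v := by unfold xP; ring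
theorem yP_smul : yP ζ (c * u) (c * v) = c ^ 15 * yP ζ u v := by unfold yP; ring
theorem klF_smul : klF (c * u) (c * v) = c ^ 12 * klF u v := by unfold klF; ring
theorem klFu_smul : klFu (c * u) (c * v) = c ^ 11 * klFu u v := by unfold klFu; ring
theorem klFv_smul : klFv (c * u) (c * v) = c ^ 11 * klFv u v := by unfold klFv; ring

theorem cov_smul (w : K × K) : cov (c • w) = c ^ 11 • cov w := by
  ext <;> simp [cov, klFu_smul, klFv_smul]

theorem sUV_rot : sV ζ u v = sU ζ (-v) u ∧ -sU ζ u v = sV ζ (-v) u := by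
  constructor <;> unfold sU sV <;> ring

end Homogeneity

variable [CharZero K]

theorem IsFifth.s5_div_pow {ζ : K} (h : IsFifth ζ) :
    (s5 ζ / 5) ^ 10 * 5 ^ 5 = 1 ∧ (s5 ζ / 5) ^ 15 * (5 ^ 7 * s5 ζ) = 1 ∧
      (s5 ζ / 5) ^ 11 * 5 ^ 5 = s5 ζ / 5 := by
  have e := h.s5_sq
  set c := s5 ζ / 5 with hc
  have hs : s5 ζ = 5 * c := by rw [hc]; ring
  have h2 : c ^ 2 * 5 = 1 := by rw [hc]; linear_combination e / 5
  refine ⟨?_, ?_, ?_⟩
  · calc c ^ 10 * 5 ^ 5 = (c ^ 2 * 5) ^ 5 := by ring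
      _ = 1 := by rw [h2, one_pow]
  · rw [hs]
    calc c ^ 15 * (5 ^ 7 * (5 * c)) = (c ^ 2 * 5) ^ 8 := by ring
      _ = 1 := by rw [h2, one_pow]
  · calc c ^ 11 * 5 ^ 5 = (c ^ 2 * 5) ^ 5 * c := by ring
      _ = c := by rw [h2, one_pow, one_mul]

section Transport

variable {ζ : K} (hζ : IsFifth ζ) (u v : K)
include hζ

omit [CharZero K] in
theorem sU_sU : sU ζ (sU ζ u v) (sV ζ u v) = -5 * u := by
  have h5 := hζ.pow_five
  unfold IsFifth at hζ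
  unfold sU sV
  linear_combination u * hζ + u * (ζ ^ 3 + ζ - 4) * h5

omit [CharZero K] in
theorem sV_sV : sV ζ (sU ζ u v) (sV ζ u v) = -5 * v := by
  have h5 := hζ.pow_five
  unfold IsFifth at hζ
  unfold sU sV
  linear_combination v * hζ + v * (ζ ^ 3 + ζ - 4) * h5

theorem two_yP : 2 * yP ζ u v =
    (slopeP ζ u v + slopeP (ζ ^ 2) u v) * (xP ζ u v - xP (ζ ^ 2) u v) := by
  have e1 := double_P_y ζ u v hζ
  have e2 := double_P_y (ζ ^ 2) u v (IsFifth.sq hζ)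
  rw [← pow_mul, xP_pow_four ζ u v hζ, yP_pow_four ζ u v hζ] at e2
  linear_combination e2 - e1

omit hζ [CharZero K] in
theorem two_yQ : 2 * yQ u v =
    (slopeQ u v + slopeQ v (-u)) * (xQ u v - xQ v (-u)) := by
  have e1 := double_Q_y u v
  have e2 := double_Q_y v (-u)
  rw [xQ_neg, yQ_neg] at e2
  linear_combination e2 - e1

theorem yQ_S : yQ (sU ζ u v) (sV ζ u v) = 5 ^ 7 * s5 ζ * yP (ζ ^ 3) u v := by
  have e := two_yQ (sU ζ u v) (sV ζ u v)
  rw [(sUV_rot ζ u v).2, (sUV_rot ζ u v).1] at e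
  rw [← (sUV_rot ζ u v).1, slopeQ_S ζ u v hζ, xQ_S ζ u v hζ] at e
  rw [(sUV_rot ζ u v).1, slopeQ_S ζ (-v) u hζ, xQ_S ζ (-v) u hζ, slopeP_rot (ζ ^ 3) u v hζ.cube,
    xP_rot (ζ ^ 3) u v hζ.cube] at e
  rw [← (sUV_rot ζ u v).1] at e
  linear_combination (e - 5 ^ 7 * s5 ζ * two_yP hζ.cube u v) / 2

omit [CharZero K] in
theorem sUV_sq : sU ζ u v = sU (ζ ^ 2) (-v) u ∧ sV ζ u v = sV (ζ ^ 2) (-v) u ∧
    s5 (ζ ^ 2) = -s5 ζ ∧ (ζ ^ 2) ^ 3 = ζ := by
  have h5 := hζ.pow_five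
  unfold sU sV s5
  refine ⟨?_, ?_, ?_, ?_⟩
  · linear_combination (v * ζ ^ 3 + u * ζ) * h5
  · linear_combination (u * ζ ^ 3 - v * ζ) * h5
  · linear_combination (ζ ^ 3 - ζ) * h5
  · linear_combination ζ * h5

theorem xP_S : xP ζ (sU ζ u v) (sV ζ u v) = 5 ^ 5 * xQ v (-u) := by
  obtain ⟨h1, h2, -, h4⟩ := sUV_sq hζ u v
  have e := xQ_S (ζ ^ 2) (sU ζ u v) (sV ζ u v) (IsFifth.sq hζ)
  rw [h4] at e
  rw [h1, h2, sU_sU hζ.sq, sV_sV hζ.sq, xQ_smul, ← h1, ← h2] at e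
  have : xQ (-v) u = xQ v (-u) := by
    simpa using xQ_neg v (-u)
  rw [this] at e
  linear_combination -e / 5 ^ 5

theorem yP_S : yP ζ (sU ζ u v) (sV ζ u v) = -(5 ^ 7 * s5 ζ * yQ v (-u)) := by
  obtain ⟨h1, h2, h3, h4⟩ := sUV_sq hζ u v
  have e := yQ_S (IsFifth.sq hζ) (sU ζ u v) (sV ζ u v)
  rw [h4, h3] at e
  rw [h1, h2, sU_sU hζ.sq, sV_sV hζ.sq, yQ_smul, ← h1, ← h2] at e
  have : yQ (-v) u = -yQ v (-u) := by
    simpa using yQ_neg v (-u)
  rw [this] at e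
  linear_combination (s5 ζ / 5 ^ 8) * e + (-(yP ζ (sU ζ u v) (sV ζ u v)) / 5) * hζ.s5_sq

end Transport

/-- `g` is an automorphism of the universal family acting by `M` on the level structure. -/
structure Compat [DecidableEq K] {ζ : K} (hζ : IsFifth ζ) (g : (K × K) →ₗ[K] (K × K))
    (M : ZMod 5 × ZMod 5 →+ ZMod 5 × ZMod 5) : Prop where
  lev : ∀ (E : Affine K) [E.IsElliptic] (w : K × K) (h : Fits E w),
    ∃ h' : Fits E (g w), lvl h' hζ = (lvl h hζ).comp M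
  cov_comm : ∀ w, cov (g w) = g (cov w)

variable [DecidableEq K] {ζ : K} {hζ : IsFifth ζ}

theorem Compat.comp {g₁ g₂ : (K × K) →ₗ[K] (K × K)}
    {M₁ M₂ : ZMod 5 × ZMod 5 →+ ZMod 5 × ZMod 5} (c₁ : Compat hζ g₁ M₁) (c₂ : Compat hζ g₂ M₂) :
    Compat hζ (g₁.comp g₂) (M₂.comp M₁) where
  lev E _ w h := by
    obtain ⟨h₂, e₂⟩ := c₂.lev E w h
    obtain ⟨h₁, e₁⟩ := c₁.lev E _ h₂
    exact ⟨h₁, by rw [e₁, e₂]; rfl⟩
  cov_comm w := by
    simp only [LinearMap.comp_apply, c₁.cov_comm, c₂.cov_comm]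

theorem lvl_ext {E : Affine K} [E.IsElliptic] {w w' : K × K} (h : Fits E w) (h' : Fits E w')
    {M : ZMod 5 × ZMod 5 →+ ZMod 5 × ZMod 5}
    (hP : ptP h' hζ = lvl h hζ (M (1, 0))) (hQ : ptQ h' = lvl h hζ (M (0, 1))) :
    lvl h' hζ = (lvl h hζ).comp M := by
  refine AddMonoidHom.ext fun a => ?_
  obtain ⟨i, j⟩ := a
  have e : ((i, j) : ZMod 5 × ZMod 5) = i.val • (1, 0) + j.val • (0, 1) := by
    simp [Prod.smul_mk]
  rw [e, map_add, map_add, map_nsmul, map_nsmul, map_nsmul, map_nsmul, AddMonoidHom.comp_apply,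
    AddMonoidHom.comp_apply, lvl_one_zero, lvl_zero_one, hP, hQ]

/-- `M_T`. -/
def mT : ZMod 5 × ZMod 5 →+ ZMod 5 × ZMod 5 :=
  AddMonoidHom.prod (AddMonoidHom.fst _ _ + AddMonoidHom.snd _ _) (AddMonoidHom.snd _ _)

/-- `M_S`. -/
def mS : ZMod 5 × ZMod 5 →+ ZMod 5 × ZMod 5 :=
  AddMonoidHom.prod (3 • AddMonoidHom.snd _ _) (3 • AddMonoidHom.fst _ _)

theorem compat_T : Compat hζ (gT ζ) mT where
  lev E _ w h := by
    refine ⟨h.shiftT hζ, lvl_ext h _ ?_ ?_⟩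
    · rw [ptP_shiftT h hζ, ← lvl_one_zero h hζ]; simp [mT]
    · rw [ptQ_shiftT h hζ, ← lvl_one_zero h hζ, ← lvl_zero_one h hζ, ← map_add]; simp [mT]
  cov_comm w := by
    ext <;> simp [cov, klFu_T ζ _ _ hζ, klFv_T ζ _ _ hζ]

theorem fits_S (hζ : IsFifth ζ) {E : Affine K} [E.IsElliptic] {w : K × K} (h : Fits E w) :
    Fits E (gS ζ w) := by
  obtain ⟨c10, c15, -⟩ := hζ.s5_div_pow
  obtain ⟨u, v⟩ := w
  set c := s5 ζ / 5 with hc
  have hu : (gS ζ (u, v)).1 = c * sU ζ u v := gS_fst ζ (u, v)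
  have hv : (gS ζ (u, v)).2 = c * sV ζ u v := gS_snd ζ (u, v)
  have ex1 : xQ (gS ζ (u, v)).1 (gS ζ (u, v)).2 = xP (ζ ^ 3) u v := by
    rw [hu, hv, xQ_smul, xQ_S ζ u v hζ]; linear_combination xP (ζ ^ 3) u v * c10
  have ey1 : yQ (gS ζ (u, v)).1 (gS ζ (u, v)).2 = yP (ζ ^ 3) u v := by
    rw [hu, hv, yQ_smul, yQ_S hζ u v]; linear_combination yP (ζ ^ 3) u v * c15
  have ex2 : xP ζ (gS ζ (u, v)).1 (gS ζ (u, v)).2 = xQ v (-u) := by
    rw [hu, hv, xP_smul, xP_S hζ u v]; linear_combination xQ v (-u) * c10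
  have ey2 : yP ζ (gS ζ (u, v)).1 (gS ζ (u, v)).2 = -yQ v (-u) := by
    rw [hu, hv, yP_smul, yP_S hζ u v]; linear_combination -yQ v (-u) * c15
  have q1 := equation_Q (gS ζ (u, v)).1 (gS ζ (u, v)).2
  have q2 := equation_P ζ (gS ζ (u, v)).1 (gS ζ (u, v)).2 hζ
  rw [ex1, ey1] at q1
  rw [ex2, ey2] at q2
  have r1 := equation_P (ζ ^ 3) u v hζ.cube
  have r2 := equation_Q v (-u)
  rw [cA_R, cB_R] at r2
  have h84 : (ζ ^ 4) ^ 2 = ζ ^ 3 := by linear_combination ζ ^ 3 * hζ.pow_five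
  have h4 : IsFifth (ζ ^ 4) := by simpa [← pow_mul] using hζ.sq.sq
  have hne : xP (ζ ^ 3) u v ≠ xQ v (-u) := by
    have e := h.rot.xP_ne_xQ h4
    have er : xP (ζ ^ 4) v (-u) = xP (ζ ^ 3) u v := by
      rw [← h84, ← xP_rot (ζ ^ 4) u v h4]
      unfold xP; ring
    simpa [er] using e
  have hA : cA (gS ζ (u, v)).1 (gS ζ (u, v)).2 = cA u v := by
    have q1' := equation_Q (gS ζ (u, v)).1 (gS ζ (u, v)).2
    have q2' := equation_P ζ (gS ζ (u, v)).1 (gS ζ (u, v)).2 hζ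
    rw [ex1, ey1] at q1'
    rw [ex2, ey2] at q2'
    refine mul_right_cancel₀ (sub_ne_zero.2 hne) ?_
    linear_combination (q2' - q1') - (r2 - r1)
  have hB : cB (gS ζ (u, v)).1 (gS ζ (u, v)).2 = cB u v := by
    have q1' := equation_Q (gS ζ (u, v)).1 (gS ζ (u, v)).2
    rw [ex1, ey1, hA] at q1'
    linear_combination r1 - q1'
  exact ⟨h.a1, h.a2, h.a3, h.a4.trans hA.symm, h.a6.trans hB.symm⟩

theorem compat_S : Compat hζ (gS ζ) mS where
  lev E _ w h := by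
    obtain ⟨c10, c15, -⟩ := hζ.s5_div_pow
    refine ⟨fits_S hζ h, lvl_ext h _ ?_ ?_⟩
    · have e : lvl h hζ (mS (1, 0)) = -ptQ h.rot := by
        rw [← ptQ_add_ptQ h, ← lvl_zero_one h hζ, ← map_add, ← map_neg]
        congr 1
      rw [e]
      unfold ptP ptQ Point.mk
      rw [Point.neg_some, Point.some.injEq, h.negY_eq, gS_fst, gS_snd, xP_smul, yP_smul,
        xP_S hζ, yP_S hζ]
      exact ⟨by linear_combination xQ w.2 (-w.1) * c10,
        by linear_combination -yQ w.2 (-w.1) * c15⟩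
    · have h83 : ((ζ ^ 2) ^ 2) ^ 2 = ζ ^ 3 := by linear_combination ζ ^ 3 * hζ.pow_five
      have e : lvl h hζ (mS (0, 1)) = ptP h hζ.cube := by
        have : ptP h hζ.cube = ptP h hζ.sq.sq.sq := by simp only [ptP, h83]
        rw [this, ← ptP_add_ptP h hζ.sq.sq, ptP_sq_sq h hζ, ← lvl_one_zero h hζ, ← map_neg,
          ← map_add]
        congr 1
      rw [e]
      unfold ptP ptQ Point.mk
      rw [Point.some.injEq, gS_fst, gS_snd, xQ_smul, yQ_smul, xQ_S ζ _ _ hζ, yQ_S hζ]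
      exact ⟨by linear_combination xP (ζ ^ 3) w.1 w.2 * c10,
        by linear_combination yP (ζ ^ 3) w.1 w.2 * c15⟩
  cov_comm w := by
    obtain ⟨-, -, c11⟩ := hζ.s5_div_pow
    ext
    · simp only [cov, gS_fst, gS_snd, klFv_smul, klFv_S ζ _ _ hζ]
      linear_combination sU ζ (klFv w.1 w.2) (-klFu w.1 w.2) * c11
    · simp only [cov, gS_fst, gS_snd, klFu_smul, klFu_S ζ _ _ hζ]
      linear_combination sV ζ (klFv w.1 w.2) (-klFu w.1 w.2) * c11

theorem compat_smul {μ : K} (hμ : μ ^ 10 = 1) :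
    Compat hζ (μ • LinearMap.id) (AddMonoidHom.id _) ∨
      Compat hζ (μ • LinearMap.id) (-AddMonoidHom.id _) := by
  have h20 : μ ^ 20 = 1 := by linear_combination (μ ^ 10 + 1) * hμ
  have h30 : μ ^ 30 = 1 := by linear_combination (μ ^ 20 + μ ^ 10 + 1) * hμ
  have hfit : ∀ (E : Affine K) (w : K × K), Fits E w → Fits E ((μ • LinearMap.id : _ →ₗ[K] _) w) :=
    fun E w h => ⟨h.a1, h.a2, h.a3, by simp [h.a4, cA_smul, h20], by simp [h.a6, cB_smul, h30]⟩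
  have hcov : ∀ w : K × K, cov ((μ • LinearMap.id : _ →ₗ[K] _) w) =
      (μ • LinearMap.id : _ →ₗ[K] _) (cov w) := by
    intro w
    simp only [LinearMap.smul_apply, LinearMap.id_apply, cov_smul]
    rw [show μ ^ 11 = μ by linear_combination μ * hμ]
  have h5 : μ ^ 5 = 1 ∨ μ ^ 5 = -1 := by
    rcases mul_self_eq_mul_self_iff.1 (show μ ^ 5 * μ ^ 5 = 1 * 1 by linear_combination hμ) with
      h | h <;> tauto
  rcases h5 with h5 | h5
  · refine Or.inl ⟨fun E _ w h => ⟨hfit E w h, lvl_ext h _ ?_ ?_⟩, hcov⟩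
    · rw [show (AddMonoidHom.id (ZMod 5 × ZMod 5)) (1, 0) = (1, 0) from rfl, lvl_one_zero]
      unfold ptP Point.mk
      simp [xP_smul, yP_smul, hμ, show μ ^ 15 = 1 by linear_combination μ ^ 5 * hμ + h5]
    · rw [show (AddMonoidHom.id (ZMod 5 × ZMod 5)) (0, 1) = (0, 1) from rfl, lvl_zero_one]
      unfold ptQ Point.mk
      simp [xQ_smul, yQ_smul, hμ, show μ ^ 15 = 1 by linear_combination μ ^ 5 * hμ + h5]
  · refine Or.inr ⟨fun E _ w h => ⟨hfit E w h, lvl_ext h _ ?_ ?_⟩, hcov⟩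
    · rw [show (-AddMonoidHom.id (ZMod 5 × ZMod 5)) (1, 0) = -(1, 0) from rfl, map_neg,
        lvl_one_zero]
      unfold ptP Point.mk
      rw [Point.neg_some]
      simp [Affine.negY, h.a1, h.a3, xP_smul, yP_smul, hμ,
        show μ ^ 15 = -1 by linear_combination μ ^ 5 * hμ + h5]
    · rw [show (-AddMonoidHom.id (ZMod 5 × ZMod 5)) (0, 1) = -(0, 1) from rfl, map_neg,
        lvl_zero_one]
      unfold ptQ Point.mk
      rw [Point.neg_some]
      simp [Affine.negY, h.a1, h.a3, xQ_smul, yQ_smul, hμ,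
        show μ ^ 15 = -1 by linear_combination μ ^ 5 * hμ + h5]

end FLTAgent.Switch
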