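import Fermat.Agent.Switch.IdentQ

set_option autoImplicit false

/-! Klein's forms have no common zero, and `klF` has no multiple factor. -/

namespace FLTAgent.Switch

variable {K : Type*} [Field K]

theorem no_common_zero_affine (h5 : (5 : K) ≠ 0) (z : K) (hH : klH z 1 = 0) :
    klF z 1 ≠ 0 := by
  intro hF
  unfold klF at hF
  unfold klH at hH
  simp only [one_pow, mul_one] at hF hH
  have h' : z * (1 - 11 * z ^ 5 - z ^ 10) = 0 := by linear_combination hF
  rcases mul_eq_zero.1 h' with e | e
  · subst e; norm_num at hH
  · have hr : (3125 : K) * (1 - 11 * z ^ 5) = 0 := by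
      linear_combination hH - (-(z ^ 10) + 239 * z ^ 5 - 3124) * e
    have h3125 : (3125 : K) ≠ 0 := by
      rw [show (3125 : K) = 5 ^ 5 by norm_num]; exact pow_ne_zero _ h5
    have h11 : (1 : K) - 11 * z ^ 5 = 0 := (mul_eq_zero.1 hr).resolve_left h3125
    exact one_ne_zero (α := K)
      (by linear_combination -121 * e + (11 * z ^ 5 + 1 + 11 * 11) * h11)

theorem klein_no_common_zero [CharZero K] (z : K) (hH : klH z 1 = 0) (hF : klF z 1 = 0) : False :=
  no_common_zero_affine (by norm_num) z hH hF

theorem klH_klF_no_common_zero (h5 : (5 : K) ≠ 0) (u v : K) (hH : klH u v = 0)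
    (hF : klF u v = 0) : u = 0 ∧ v = 0 := by
  by_cases hv : v = 0
  · subst hv
    unfold klH at hH
    simpa using hH
  · exfalso
    refine no_common_zero_affine h5 (u / v) ?_ ?_
    · have : klH (u / v) 1 * v ^ 20 = klH u v := by
        unfold klH; field_simp
      rw [hH] at this
      exact (mul_eq_zero.1 this).resolve_right (pow_ne_zero _ hv)
    · have : klF (u / v) 1 * v ^ 12 = klF u v := by
        unfold klF; field_simp
      rw [hF] at this
      exact (mul_eq_zero.1 this).resolve_right (pow_ne_zero _ hv)

theorem grad_klF_no_common_zero [CharZero K] (u v : K) (hu : klFu u v = 0) (hv : klFv u v = 0) :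
    u = 0 ∧ v = 0 := by
  by_cases h0 : v = 0
  · subst h0
    unfold klFv at hv
    simpa using hv
  · exfalso
    have eF : klF u v = 0 := by
      have e := euler_klF u v
      rw [hu, hv] at e
      linear_combination -e / 12
    have hz1 : klFu (u / v) 1 * v ^ 11 = klFu u v := by unfold klFu; field_simp
    have hz2 : klF (u / v) 1 * v ^ 12 = klF u v := by unfold klF; field_simp
    rw [hu] at hz1
    rw [eF] at hz2
    have e1 := (mul_eq_zero.1 hz1).resolve_right (pow_ne_zero _ h0)
    have e2 := (mul_eq_zero.1 hz2).resolve_right (pow_ne_zero _ h0)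
    generalize u / v = z at e1 e2
    unfold klFu at e1
    unfold klF at e2
    simp only [one_pow, mul_one] at e1 e2
    rcases mul_eq_zero.1 (show z * (1 - 11 * z ^ 5 - z ^ 10) = 0 by linear_combination e2) with
      e | e
    · subst e; norm_num at e1
    · have h55 : 55 * z ^ 5 = 10 := by linear_combination e1 - 11 * e
      have h11 : 11 * z ^ 5 = 2 := by linear_combination h55 / 5
      exact absurd (show (125 : K) = 0 by
        linear_combination -121 * e + (-(11 * z ^ 5 + 2 + 121)) * h11) (by norm_num)

end FLTAgent.Switch
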