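import Fermat.Agent.Switch.Compat

set_option autoImplicit false

/-!
# Every automorphism word, and the orbit of a parameter

Two parameters of the same curve differ by a compatible substitution.
-/

namespace FLTAgent.Switch

open Polynomial WeierstrassCurve Affine

/-- One letter: `true` is `S`, `false` is `T`. -/
def actLetter : Bool → ZMod 5 × ZMod 5 → ZMod 5 × ZMod 5
  | true, x => (3 * x.2, 3 * x.1)
  | false, x => (x.1 + x.2, x.2)

/-- The action of a word on the level structure. -/
def actWord : List Bool → ZMod 5 × ZMod 5 → ZMod 5 × ZMod 5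
  | [], x => x
  | b :: l, x => actWord l (actLetter b x)

/-- Code of a pair. -/
def code (x : ZMod 5 × ZMod 5) : ℕ := x.1.val + 5 * x.2.val

/-- Code of a word and of its negative. -/
def sigPos (l : List Bool) : ℕ := code (actWord l (1, 0)) + 25 * code (actWord l (0, 1))

/-- Code of the negative of a word. -/
def sigNeg (l : List Bool) : ℕ := code (-actWord l (1, 0)) + 25 * code (-actWord l (0, 1))

/-- Representatives of `SL₂(𝔽₅)/±1`. -/
def words : List (List Bool) :=
  [[],
   [true],
   [false],
   [false, true],
   [true, false],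
   [false, false],
   [true, false, true],
   [false, false, true],
   [false, true, false],
   [true, false, false],
   [false, false, false],
   [false, true, false, true],
   [true, false, false, true],
   [false, false, false, true],
   [true, false, true, false],
   [false, false, true, false],
   [false, true, false, false],
   [true, false, false, false],
   [false, false, false, false],
   [true, false, true, false, true],
   [false, false, true, false, true],
   [false, true, false, false, true],
   [true, false, false, false, true],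
   [false, false, false, false, true],
   [false, true, false, true, false],
   [true, false, false, true, false],
   [false, false, false, true, false],
   [true, false, true, false, false],
   [false, true, false, false, false],
   [true, false, false, false, false],
   [false, true, false, true, false, true],
   [true, false, false, true, false, true],
   [false, false, false, true, false, true],
   [true, false, true, false, false, true],
   [false, true, false, false, false, true],
   [true, false, false, false, false, true],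
   [true, false, true, false, true, false],
   [false, false, true, false, true, false],
   [false, true, false, false, true, false],
   [true, false, false, false, true, false],
   [false, false, false, false, true, false],
   [false, true, false, true, false, false],
   [true, false, true, false, false, false],
   [false, true, false, false, false, false],
   [false, false, true, false, true, false, true],
   [true, false, false, false, true, false, true],
   [false, false, false, false, true, false, true],
   [false, true, false, true, false, false, true],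
   [true, false, true, false, false, false, true],
   [false, true, false, false, false, false, true],
   [true, false, false, true, false, true, false],
   [true, false, false, false, false, true, false],
   [true, false, true, false, true, false, false],
   [true, false, true, false, false, false, false],
   [true, false, false, true, false, true, false, true],
   [true, false, false, false, false, true, false, true],
   [true, false, true, false, true, false, false, true],
   [true, false, true, false, false, false, false, true],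
   [false, true, false, false, false, false, true, false],
   [false, true, false, false, false, false, true, false, true]]

theorem words_nodup : (words.map sigPos ++ words.map sigNeg).Nodup := by decide +kernel

theorem words_length : words.length = 60 := by decide +kernel

variable {K : Type*} [Field K]

/-- The substitution of a word. -/
def gWord (ζ : K) : List Bool → (K × K) →ₗ[K] (K × K)
  | [] => LinearMap.id
  | b :: l => (if b then gS ζ else gT ζ).comp (gWord ζ l)

variable [CharZero K] [DecidableEq K] {ζ : K} {hζ : IsFifth ζ}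

theorem compat_word (l : List Bool) :
    ∃ M : ZMod 5 × ZMod 5 →+ ZMod 5 × ZMod 5,
      Compat hζ (gWord ζ l) M ∧ ∀ x, M x = actWord l x := by
  induction l with
  | nil =>
    exact ⟨AddMonoidHom.id _, ⟨fun E _ w h => ⟨h, rfl⟩, fun w => rfl⟩, fun x => rfl⟩
  | cons b l ih =>
    obtain ⟨M, hM, hx⟩ := ih
    cases b
    · refine ⟨M.comp mT, ?_, fun x => ?_⟩
      · simpa [gWord] using (compat_T (hζ := hζ)).comp hM
      · simp [hx, actWord, actLetter, mT]
    · refine ⟨M.comp mS, ?_, fun x => ?_⟩
      · simpa [gWord] using (compat_S (hζ := hζ)).comp hM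
      · simp [hx, actWord, actLetter, mS]

theorem Fits.klH_eq {E : Affine K} {w w' : K × K} (h : Fits E w) (h' : Fits E w') :
    klH w'.1 w'.2 = klH w.1 w.2 ∧ klT w'.1 w'.2 = klT w.1 w.2 := by
  have a := h'.a4.symm.trans h.a4
  have b := h'.a6.symm.trans h.a6
  unfold cA at a
  unfold cB at b
  exact ⟨by linear_combination -a / 27, by linear_combination -b / 54⟩

theorem Fits.klF_ne_zero {E : Affine K} [E.IsElliptic] {w : K × K} (h : Fits E w) :
    klF w.1 w.2 ≠ 0 := by
  intro e
  refine E.isUnit_Δ.ne_zero ?_
  rw [h.Δ_eq, h.a4, h.a6]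
  have := klein_syzygy w.1 w.2
  rw [e] at this
  unfold cA cB
  linear_combination (1259712 : K) * this

theorem Fits.snd_ne_zero {E : Affine K} [E.IsElliptic] {w : K × K} (h : Fits E w) : w.2 ≠ 0 := by
  intro e
  exact h.klF_ne_zero (by simp [klF, e])

omit [CharZero K] [DecidableEq K] in
theorem klH_ratio (u v : K) (hv : v ≠ 0) :
    klH u v = v ^ 20 * klH (u / v) 1 ∧ klT u v = v ^ 30 * klT (u / v) 1 := by
  constructor <;> simp only [klH, klT] <;> field_simp <;> ring

omit [CharZero K] [DecidableEq K] in
/-- The polynomial whose roots are the ratios of the parameters of a curve. -/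
theorem exists_ratioPoly (a b : K) (hab : a ^ 3 - b ^ 2 ≠ 0) :
    ∃ P : K[X], P ≠ 0 ∧ P.natDegree = 60 ∧
      ∀ z, P.eval z = a ^ 3 * klT z 1 ^ 2 - b ^ 2 * klH z 1 ^ 3 := by
  refine ⟨C (a ^ 3) * (-(X ^ 30) - 522 * X ^ 25 + 10005 * X ^ 20 + 10005 * X ^ 10 + 522 * X ^ 5 - 1) ^ 2
    - C (b ^ 2) * (X ^ 20 - 228 * X ^ 15 + 494 * X ^ 10 + 228 * X ^ 5 + 1) ^ 3, ?_, ?_, ?_⟩
  rotate_left
  · compute_degree!
  · intro z
    simp only [klH, klT]
    simp
  · intro h0
    have := congrArg (fun p => p.eval 0) h0
    simp at this
    exact hab this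

theorem ratio_eq {E : Affine K} [E.IsElliptic] {w w' : K × K} (h : Fits E w) (h' : Fits E w') :
    klH w.1 w.2 ^ 3 * klT (w'.1 / w'.2) 1 ^ 2 - klT w.1 w.2 ^ 2 * klH (w'.1 / w'.2) 1 ^ 3 = 0 := by
  obtain ⟨e4, e6⟩ := h.klH_eq h'
  obtain ⟨f4, f6⟩ := klH_ratio w'.1 w'.2 h'.snd_ne_zero
  rw [← e4, ← e6, f4, f6]; ring

omit [CharZero K] [DecidableEq K] in
theorem eq_smul_of_ratio_eq {w w' : K × K} (hv : w.2 ≠ 0) (hv' : w'.2 ≠ 0)
    (h : w'.1 / w'.2 = w.1 / w.2) : w' = (w'.2 / w.2) • w := by
  rw [div_eq_div_iff hv' hv] at h
  ext
  · simp only [Prod.smul_fst, smul_eq_mul]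
    field_simp
    linear_combination h
  · simp only [Prod.smul_snd, smul_eq_mul]
    field_simp

theorem scalar_pow_ten {E : Affine K} {w w' : K × K} {μ : K} (h : Fits E w) (h' : Fits E w')
    (h4 : klH w.1 w.2 ≠ 0) (h6 : klT w.1 w.2 ≠ 0) (e : w' = μ • w) : μ ^ 10 = 1 := by
  obtain ⟨e4, e6⟩ := h.klH_eq h'
  have a := cA_smul μ w.1 w.2
  have b := cB_smul μ w.1 w.2
  subst e
  simp only [Prod.smul_fst, Prod.smul_snd, smul_eq_mul] at e4 e6
  unfold cA at a
  unfold cB at b
  rw [e4] at a
  rw [e6] at b
  have a' : μ ^ 20 = 1 := mul_right_cancel₀ h4 (by linear_combination a / 27)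
  have b' : μ ^ 30 = 1 := mul_right_cancel₀ h6 (by linear_combination b / 54)
  linear_combination b' - μ ^ 10 * a'

theorem orbit (hζ : IsFifth ζ) {E : Affine K} [E.IsElliptic] {w w' : K × K} (h : Fits E w)
    (h' : Fits E w') (h4 : klH w.1 w.2 ≠ 0) (h6 : klT w.1 w.2 ≠ 0) :
    ∃ (g : (K × K) →ₗ[K] (K × K)) (M : ZMod 5 × ZMod 5 →+ ZMod 5 × ZMod 5),
      Compat hζ g M ∧ w' = g w := by
  have hab : klH w.1 w.2 ^ 3 - klT w.1 w.2 ^ 2 ≠ 0 := by
    rw [klein_syzygy]
    exact mul_ne_zero (by norm_num) (pow_ne_zero 5 h.klF_ne_zero)
  obtain ⟨P, hP0, hdeg, heval⟩ := exists_ratioPoly (klH w.1 w.2) (klT w.1 w.2) hab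
  have hfit : ∀ l, Fits E (gWord ζ l w) := fun l => by
    obtain ⟨M, hM, -⟩ := compat_word (hζ := hζ) l
    exact (hM.lev E w h).1
  set z : List Bool → K := fun l => (gWord ζ l w).1 / (gWord ζ l w).2 with hz
  have hroot : ∀ l, z l ∈ P.roots.toFinset := fun l => by
    rw [Multiset.mem_toFinset, mem_roots hP0, IsRoot.def, heval]
    exact ratio_eq h (hfit l)
  have hinj : ∀ l₁ ∈ words, ∀ l₂ ∈ words, z l₁ = z l₂ → l₁ = l₂ := by
    intro l₁ h₁ l₂ h₂ e
    have esmul := eq_smul_of_ratio_eq (hfit l₁).snd_ne_zero (hfit l₂).snd_ne_zero e.symm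
    obtain ⟨M₁, hM₁, hx₁⟩ := compat_word (hζ := hζ) l₁
    obtain ⟨M₂, hM₂, hx₂⟩ := compat_word (hζ := hζ) l₂
    obtain ⟨k4, k6⟩ := h.klH_eq (hfit l₁)
    have hμ := scalar_pow_ten (hfit l₁) (hfit l₂) (by rwa [k4]) (by rwa [k6]) esmul
    set μ := (gWord ζ l₂ w).2 / (gWord ζ l₁ w).2
    obtain ⟨g₁, e₁⟩ := hM₁.lev E w h
    obtain ⟨g₂, e₂⟩ := hM₂.lev E w h
    have hnd := words_nodup
    rw [List.nodup_append] at hnd
    have hsmul : gWord ζ l₂ w = (μ • LinearMap.id : _ →ₗ[K] _) (gWord ζ l₁ w) := by
      simpa using esmul
    rcases compat_smul (hζ := hζ) hμ with hc | hc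
    · obtain ⟨g₃, e₃⟩ := hc.lev E _ g₁
      have : (lvl h hζ).comp M₂ = (lvl h hζ).comp M₁ := by
        rw [← e₂, ← e₁, ← AddMonoidHom.comp_id (lvl g₁ hζ), ← e₃]
        congr! 1
      have hMM : ∀ x, actWord l₂ x = actWord l₁ x := fun x => by
        rw [← hx₁, ← hx₂]; exact lvl_injective h hζ (DFunLike.congr_fun this x)
      exact List.inj_on_of_nodup_map hnd.1 h₁ h₂ (by simp [sigPos, hMM])
    · obtain ⟨g₃, e₃⟩ := hc.lev E _ g₁
      have : (lvl h hζ).comp M₂ = (lvl h hζ).comp (-M₁) := by
        have : (lvl h hζ).comp (-M₁) = (lvl g₁ hζ).comp (-AddMonoidHom.id _) := by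
          rw [e₁]; ext x <;> simp
        rw [← e₂, this, ← e₃]
        congr! 1
      have hMM : ∀ x, actWord l₂ x = -actWord l₁ x := fun x => by
        rw [← hx₁, ← hx₂]; exact lvl_injective h hζ (DFunLike.congr_fun this x)
      exact absurd (by simp [sigPos, sigNeg, hMM]) (hnd.2.2 _ (List.mem_map_of_mem h₂) _
        (List.mem_map_of_mem h₁))
  have hnd : words.Nodup := List.Nodup.of_map _ (List.nodup_append.1 words_nodup).1
  have hcard : (words.toFinset.image z) = P.roots.toFinset := by
    refine Finset.eq_of_subset_of_card_le ?_ ?_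
    · intro x hx
      obtain ⟨l, -, rfl⟩ := Finset.mem_image.1 hx
      exact hroot l
    · rw [Finset.card_image_of_injOn (fun a ha b hb => hinj a (List.mem_toFinset.1 ha) b
        (List.mem_toFinset.1 hb)), List.toFinset_card_of_nodup hnd, words_length]
      exact (Multiset.toFinset_card_le _).trans ((card_roots' P).trans hdeg.le)
  have hw' : w'.1 / w'.2 ∈ P.roots.toFinset := by
    rw [Multiset.mem_toFinset, mem_roots hP0, IsRoot.def, heval]
    exact ratio_eq h h'
  rw [← hcard, Finset.mem_image] at hw'
  obtain ⟨l, -, hl⟩ := hw'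
  have esmul := eq_smul_of_ratio_eq (hfit l).snd_ne_zero h'.snd_ne_zero hl.symm
  obtain ⟨k4, k6⟩ := h.klH_eq (hfit l)
  have hμ := scalar_pow_ten (hfit l) h' (by rwa [k4]) (by rwa [k6]) esmul
  obtain ⟨M, hM, -⟩ := compat_word (hζ := hζ) l
  rcases compat_smul (hζ := hζ) hμ with hc | hc <;>
    exact ⟨_, _, hc.comp hM, by simpa using esmul⟩

end FLTAgent.Switch
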