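import Fermat.Prelude.Def_EllipticCurve_FrobeniusTrace
import Fermat.Agent.Switch.Orbit
import Fermat.Agent.Switch.NoCommonZero
import Fermat.Agent.Torsion.Count
import Fermat.Agent.Char.Rational

set_option autoImplicit false

/-!
# Galois descent of the family of curves with a fixed 5-torsion module
-/

namespace FLTAgent.Switch

open Polynomial WeierstrassCurve

local notation "Qb" => AlgebraicClosure ℚ

section Maps

variable {K L : Type*}

theorem map_klH [CommRing K] [CommRing L] (φ : K →+* L) (u v : K) :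
    φ (klH u v) = klH (φ u) (φ v) := by simp [klH, map_ofNat]

theorem map_klT [CommRing K] [CommRing L] (φ : K →+* L) (u v : K) :
    φ (klT u v) = klT (φ u) (φ v) := by simp [klT, map_ofNat]

theorem map_klF [CommRing K] [CommRing L] (φ : K →+* L) (u v : K) :
    φ (klF u v) = klF (φ u) (φ v) := by simp [klF, map_ofNat]

theorem map_klFu [CommRing K] [CommRing L] (φ : K →+* L) (u v : K) :
    φ (klFu u v) = klFu (φ u) (φ v) := by simp [klFu, map_ofNat]

theorem map_klFv [CommRing K] [CommRing L] (φ : K →+* L) (u v : K) :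
    φ (klFv u v) = klFv (φ u) (φ v) := by simp [klFv, map_ofNat]

theorem map_cA [CommRing K] [CommRing L] (φ : K →+* L) (u v : K) :
    φ (cA u v) = cA (φ u) (φ v) := by simp [cA, map_klH, map_ofNat]

theorem map_cB [CommRing K] [CommRing L] (φ : K →+* L) (u v : K) :
    φ (cB u v) = cB (φ u) (φ v) := by simp [cB, map_klT, map_ofNat]

variable [Field K] [Field L] (φ : K →+* L)

theorem map_xQ (u v : K) : φ (xQ u v) = xQ (φ u) (φ v) := by simp [xQ, map_ofNat]
theorem map_yQ (u v : K) : φ (yQ u v) = yQ (φ u) (φ v) := by simp [yQ, map_ofNat]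
theorem map_xP (ζ u v : K) : φ (xP ζ u v) = xP (φ ζ) (φ u) (φ v) := by simp [xP, map_ofNat]
theorem map_yP (ζ u v : K) : φ (yP ζ u v) = yP (φ ζ) (φ u) (φ v) := by simp [yP, map_ofNat]

theorem IsFifth.map {ζ : K} (h : IsFifth ζ) : IsFifth (φ ζ) := by
  simpa [IsFifth] using congrArg φ h

end Maps

/-- The short curve over `ℚ`. -/
def shortQ (A B : ℚ) : Affine ℚ := ⟨0, 0, 0, A, B⟩

theorem fits_shortQ {A B : ℚ} {w : Qb × Qb} :
    Fits ((shortQ A B)⁄Qb) w ↔
      cA w.1 w.2 = algebraMap ℚ Qb A ∧ cB w.1 w.2 = algebraMap ℚ Qb B := by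
  constructor
  · intro h; exact ⟨h.a4.symm, h.a6.symm⟩
  · rintro ⟨h4, h6⟩
    exact ⟨map_zero _, map_zero _, map_zero _, h4.symm, h6.symm⟩

theorem Fits.galois {A B : ℚ} {w : Qb × Qb} (h : Fits ((shortQ A B)⁄Qb) w) (σ : Qb ≃ₐ[ℚ] Qb) :
    Fits ((shortQ A B)⁄Qb) (σ w.1, σ w.2) := by
  rw [fits_shortQ] at h ⊢
  refine ⟨(map_cA (σ : Qb →+* Qb) _ _).symm.trans ?_, (map_cB (σ : Qb →+* Qb) _ _).symm.trans ?_⟩
  · rw [h.1]; exact σ.commutes A
  · rw [h.2]; exact σ.commutes B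

theorem isElliptic_shortQ {A B : ℚ} (h : 4 * A ^ 3 + 27 * B ^ 2 ≠ 0) :
    (shortQ A B).IsElliptic := by
  rw [isElliptic_iff, isUnit_iff_ne_zero]
  simp only [WeierstrassCurve.Δ, WeierstrassCurve.b₂, WeierstrassCurve.b₄, WeierstrassCurve.b₆,
    WeierstrassCurve.b₈, shortQ]
  intro e
  exact h (by linear_combination (-1 / 16 : ℚ) * e)

/-- A root of unity only changes the first generator by a scalar, uniformly in the curve. -/
theorem exists_ptP_eq {ζ η : Qb} (hζ : IsFifth ζ) (hη : IsFifth η) :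
    ∃ c : ZMod 5, ∀ (E : Affine Qb) [E.IsElliptic] (w : Qb × Qb) (h : Fits E w),
      ptP h hη = lvl h hζ (c, 0) := by
  have h5 := hζ.pow_five
  have hprod : (η - ζ) * (η - ζ ^ 2) * (η - ζ ^ 3) * (η - ζ ^ 4) = 0 := by
    have hζ' := hζ
    have hη' := hη
    unfold IsFifth at hζ' hη'
    linear_combination hη' + (-η ^ 3 + η ^ 2 - η) * hζ' +
      (η ^ 2 * (2 + ζ + ζ ^ 2) - η * (ζ + ζ ^ 2 + ζ ^ 3 + ζ ^ 4) + (ζ ^ 5 + 1)) * h5
  have h4 : (ζ ^ 2) ^ 2 = ζ ^ 4 := by ring
  have h3 : ((ζ ^ 2) ^ 2) ^ 2 = ζ ^ 3 := by linear_combination ζ ^ 3 * h5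
  simp only [mul_eq_zero, sub_eq_zero] at hprod
  rcases hprod with ((e | e) | e) | e <;> subst e
  · exact ⟨1, fun E _ w h => (lvl_one_zero h hζ).symm⟩
  · refine ⟨2, fun E _ w h => ?_⟩
    rw [← ptP_add_ptP h hζ, ← lvl_one_zero h hζ, ← map_add]
    congr 1
  · refine ⟨-2, fun E _ w h => ?_⟩
    have : ptP h hη = ptP h hζ.sq.sq.sq := by simp only [ptP, h3]
    rw [this, ← ptP_add_ptP h hζ.sq.sq, ptP_sq_sq h hζ, ← lvl_one_zero h hζ, ← map_neg, ← map_add]
    congr 1
  · refine ⟨-1, fun E _ w h => ?_⟩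
    have : ptP h hη = ptP h hζ.sq.sq := by simp only [ptP, h4]
    rw [this, ptP_sq_sq h hζ, ← lvl_one_zero h hζ, ← map_neg]
    congr 1

/-- How an automorphism acts on the coordinates of a level structure. -/
def twistHom (c : ZMod 5) : ZMod 5 × ZMod 5 →+ ZMod 5 × ZMod 5 :=
  AddMonoidHom.prodMap (AddMonoidHom.mulLeft c) (AddMonoidHom.id _)

theorem smul_lvl {ζ : Qb} (hζ : IsFifth ζ) (σ : Qb ≃ₐ[ℚ] Qb) :
    ∃ c : ZMod 5, ∀ (A B : ℚ) [((shortQ A B)⁄Qb).IsElliptic] (w : Qb × Qb)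
      (h : Fits ((shortQ A B)⁄Qb) w) (a : ZMod 5 × ZMod 5),
      σ • lvl h hζ a = lvl (h.galois σ) hζ (twistHom c a) := by
  obtain ⟨c, hc⟩ := exists_ptP_eq hζ (hζ.map (σ : Qb →+* Qb))
  refine ⟨c, fun A B _ w h a => ?_⟩
  have hP : σ • ptP h hζ = lvl (h.galois σ) hζ (c, 0) := by
    rw [← hc _ _ (h.galois σ)]
    unfold ptP Affine.Point.mk
    rw [Affine.Point.algEquiv_smul_def, Affine.Point.map_some, Affine.Point.some.injEq]
    exact ⟨map_xP (σ : Qb →+* Qb) _ _ _, map_yP (σ : Qb →+* Qb) _ _ _⟩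
  have hQ : σ • ptQ h = ptQ (h.galois σ) := by
    unfold ptQ Affine.Point.mk
    rw [Affine.Point.algEquiv_smul_def, Affine.Point.map_some, Affine.Point.some.injEq]
    exact ⟨map_xQ (σ : Qb →+* Qb) _ _, map_yQ (σ : Qb →+* Qb) _ _⟩
  let f : Affine.Point ((shortQ A B)⁄Qb) →+ Affine.Point ((shortQ A B)⁄Qb) :=
    DistribSMul.toAddMonoidHom _ σ
  suffices f.comp (lvl h hζ) = (lvl (h.galois σ) hζ).comp (twistHom c) from DFunLike.congr_fun this a
  refine AddMonoidHom.ext fun a => ?_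
  obtain ⟨i, j⟩ := a
  have e : ((i, j) : ZMod 5 × ZMod 5) = i.val • (1, 0) + j.val • (0, 1) := by
    simp [Prod.smul_mk]
  simp only [e, map_add, map_nsmul, AddMonoidHom.comp_apply, lvl_one_zero, lvl_zero_one]
  refine congrArg₂ (· + ·) (congrArg (i.val • ·) ?_) (congrArg (j.val • ·) ?_)
  · exact hP.trans (by simp [twistHom])
  · exact hQ.trans (by rw [← lvl_zero_one (h.galois σ) hζ]; simp [twistHom])

/-- Every short curve with nonzero `A, B` is a member of the universal family. -/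
theorem exists_fits {K : Type*} [Field K] [CharZero K] [IsAlgClosed K] {A B : K} (hA : A ≠ 0)
    (hB : B ≠ 0) (hΔ : 4 * A ^ 3 + 27 * B ^ 2 ≠ 0) :
    ∃ w : K × K, cA w.1 w.2 = A ∧ cB w.1 w.2 = B := by
  set a := -A / 27 with ha
  set b := -B / 54 with hb
  have ha0 : a ≠ 0 := by simp [ha, hA]
  have hb0 : b ≠ 0 := by simp [hb, hB]
  have hab : a ^ 3 - b ^ 2 ≠ 0 := by
    intro e
    refine hΔ ?_
    rw [ha, hb] at e
    linear_combination (-78732 : K) * e
  obtain ⟨P, hP0, hdeg, heval⟩ := exists_ratioPoly a b hab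
  obtain ⟨z, hz⟩ := IsAlgClosed.exists_root P
    (fun h => by simp [natDegree_eq_of_degree_eq_some (h : P.degree = ((0 : ℕ) : WithBot ℕ))] at hdeg)
  rw [IsRoot.def, heval] at hz
  have hsyz := klein_syzygy z (1 : K)
  have hno : klH z (1 : K) ≠ 0 := by
    intro e
    have hT : klT z (1 : K) = 0 := by
      rw [e] at hz
      simpa [ha0] using hz
    rw [e, hT] at hsyz
    have hF : klF z (1 : K) = 0 := by simpa using hsyz.symm
    exact klein_no_common_zero z e hF
  have hT0 : klT z (1 : K) ≠ 0 := by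
    intro e
    rw [e] at hz
    simp [hb0, hno] at hz
  set q := (b / klT z 1) / (a / klH z 1) with hq
  have hq0 : q ≠ 0 := by simp [hq, ha0, hb0, hno, hT0]
  obtain ⟨l, hl⟩ := IsAlgClosed.exists_pow_nat_eq q (n := 10) (by norm_num)
  refine ⟨(l * z, l * 1), ?_, ?_⟩
  · have hA' : A = -27 * a := by rw [ha]; ring
    rw [cA_smul, show l ^ 20 = q ^ 2 by rw [← hl]; ring, hq, hA']
    unfold cA
    field_simp
    linear_combination hz
  · have hB' : B = -54 * b := by rw [hb]; ring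
    rw [cB_smul, show l ^ 30 = q ^ 3 by rw [← hl]; ring, hq, hB']
    unfold cB
    field_simp
    linear_combination hz

/-- The coefficient `A` along the line `w + t d`. -/
noncomputable def lineA {K : Type*} [CommRing K] (w d : K × K) : K[X] :=
  cA (C w.1 + C d.1 * X) (C w.2 + C d.2 * X)

/-- The coefficient `B` along the line `w + t d`. -/
noncomputable def lineB {K : Type*} [CommRing K] (w d : K × K) : K[X] :=
  cB (C w.1 + C d.1 * X) (C w.2 + C d.2 * X)

theorem eval_lineA {K : Type*} [CommRing K] (w d : K × K) (t : K) :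
    (lineA w d).eval t = cA (w + t • d).1 (w + t • d).2 := by
  rw [lineA, ← coe_evalRingHom, map_cA]
  simp [mul_comm t]

theorem eval_lineB {K : Type*} [CommRing K] (w d : K × K) (t : K) :
    (lineB w d).eval t = cB (w + t • d).1 (w + t • d).2 := by
  rw [lineB, ← coe_evalRingHom, map_cB]
  simp [mul_comm t]

/-- A polynomial over `ℚ̄` commuting with all automorphisms on rational arguments is rational. -/
theorem exists_rat_poly (P : Qb[X]) {S : Set ℕ} (hS : S.Infinite)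
    (h : ∀ (σ : Qb ≃ₐ[ℚ] Qb), ∀ t ∈ S, σ (P.eval (t : Qb)) = P.eval (t : Qb)) :
    ∃ P₀ : ℚ[X], P₀.map (algebraMap ℚ Qb) = P := by
  have hmap : ∀ σ : Qb ≃ₐ[ℚ] Qb, P.map (σ : Qb →+* Qb) = P := by
    intro σ
    refine eq_of_infinite_eval_eq _ _ ((hS.image Nat.cast_injective.injOn).mono ?_)
    rintro _ ⟨t, ht, rfl⟩
    simp only [Set.mem_setOf_eq]
    have := eval_map_apply (σ : Qb →+* Qb) (p := P) (t : Qb)
    rw [map_natCast] at this
    rw [this]
    exact h σ t ht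
  have hc : ∀ n, ∃ r : ℚ, algebraMap ℚ Qb r = P.coeff n := fun n =>
    FLTAgent.GalChar.exists_rat_of_fixed fun σ => by
      conv_rhs => rw [← hmap σ]
      rw [coeff_map]; rfl
  have := (mem_lifts P).1 ((lifts_iff_coeff_lifts P).2 fun n => hc n)
  exact this

end FLTAgent.Switch
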