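import Mathlib

set_option autoImplicit false

/-!
# Level-five forms

Klein's icosahedral forms and the universal short Weierstrass curve with full level-five structure:
the curve `y² = x³ + cA(u,v) x + cB(u,v)` has the 5-torsion points `(xQ, yQ)` (rational in `u, v`)
and `(xP ζ, yP ζ)` (rational in `u, v, ζ`, `ζ` a primitive fifth root of unity).
-/

namespace FLTAgent.Switch

section Ring

variable {K : Type*} [CommRing K]

/-- Klein's form of degree 20 (the `c₄` of the universal curve). -/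
def klH (u v : K) : K :=
    u^20 - 228*u^15*v^5 + 494*u^10*v^10 + 228*u^5*v^15 + v^20

/-- Klein's form of degree 30 (the `c₆` of the universal curve). -/
def klT (u v : K) : K :=
    -u^30 - 522*u^25*v^5 + 10005*u^20*v^10 + 10005*u^10*v^20 + 522*u^5*v^25 - v^30

/-- Klein's form of degree 12. -/
def klF (u v : K) : K := u*v^11 - 11*u^6*v^6 - u^11*v

/-- Partial derivative of `klF` in the first variable. -/
def klFu (u v : K) : K := v^11 - 66*u^5*v^6 - 11*u^10*v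

/-- Partial derivative of `klF` in the second variable. -/
def klFv (u v : K) : K := 11*u*v^10 - 66*u^6*v^5 - u^11

/-- The `a₄` of the universal curve. -/
def cA (u v : K) : K := -27 * klH u v

/-- The `a₆` of the universal curve. -/
def cB (u v : K) : K := -54 * klT u v

end Ring

variable {K : Type*} [Field K]

/-- The signed square root of five attached to `ζ`. -/
def s5 (ζ : K) : K := ζ + ζ^4 - ζ^2 - ζ^3

/-- First row of `√5` times the order four substitution `S`. -/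
def sU (ζ : K) (u v : K) : K := (ζ^4 - ζ) * u + (ζ^2 - ζ^3) * v

/-- Second row of `√5` times the order four substitution `S`. -/
def sV (ζ : K) (u v : K) : K := (ζ^2 - ζ^3) * u + (ζ - ζ^4) * v

def xP (ζ : K) (u v : K) : K :=
    (-93/5) * v^10 + (198/5) * u^5 * v^5 + (-57/5) * u^10 + (-36/5) * ζ^2 * v^10
    + (396/5) * ζ^2 * u^5 * v^5 + (36/5) * ζ^2 * u^10 + (-36/5) * ζ^3 * v^10 + (396/5) * ζ^3 * u^5 * v^5
    + (36/5) * ζ^3 * u^10

def yP (ζ : K) (u v : K) : K :=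
    (108/5) * v^15 + (-972/5) * u^5 * v^10 + (-2484/5) * u^10 * v^5 + (-216/5) * u^15
    + (216/5) * ζ * v^15 + (-1944/5) * ζ * u^5 * v^10 + (-4968/5) * ζ * u^10 * v^5 + (-432/5) * ζ * u^15
    + (-108/5) * ζ^2 * v^15 + (1512/5) * ζ^2 * u^5 * v^10 + (-3456/5) * ζ^2 * u^10 * v^5 + (-324/5) * ζ^2 * u^15
    + (324/5) * ζ^3 * v^15 + (-3456/5) * ζ^3 * u^5 * v^10 + (-1512/5) * ζ^3 * u^10 * v^5 + (-108/5) * ζ^3 * u^15

def xQ (u v : K) : K :=
    3 * v^10 + 36 * u * v^9 + 72 * u^2 * v^8 + 108 * u^3 * v^7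
    + 180 * u^4 * v^6 + 90 * u^5 * v^5 + 72 * u^6 * v^4 + (-36) * u^7 * v^3
    + 36 * u^8 * v^2 + 3 * u^10

def yQ (u v : K) : K :=
    108 * u * v^14 + 432 * u^2 * v^13 + 972 * u^3 * v^12 + 1620 * u^4 * v^11
    + 2700 * u^5 * v^10 + 3132 * u^6 * v^9 + 2268 * u^7 * v^8 + 648 * u^8 * v^7
    + 540 * u^9 * v^6 + 432 * u^11 * v^4 + 108 * u^12 * v^3 + 108 * u^13 * v^2

def slopeP (ζ : K) (u v : K) : K :=
    (3/5) * v^5 + (21/5) * u^5 + (6/5) * ζ * v^5 + (42/5) * ζ * u^5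
    + (24/5) * ζ^2 * v^5 + (18/5) * ζ^2 * u^5 + (-18/5) * ζ^3 * v^5 + (24/5) * ζ^3 * u^5

def slopeQ (u v : K) : K :=
    3 * v^5 + 12 * u * v^4 + 6 * u^2 * v^3 + 18 * u^3 * v^2
    + (-6) * u^4 * v + 3 * u^5

def slopePQ (ζ : K) (u v : K) : K :=
    (-3/5) * v^5 + 6 * u * v^4 + 12 * u^2 * v^3 + 6 * u^3 * v^2
    + (9/5) * u^5 + (-6/5) * ζ * v^5 + 6 * ζ * u^2 * v^3 + (-6) * ζ * u^3 * v^2
    + (18/5) * ζ * u^5 + (6/5) * ζ^2 * v^5 + (-6) * ζ^2 * u * v^4 + 6 * ζ^2 * u^2 * v^3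
    + (12/5) * ζ^2 * u^5 + (-12/5) * ζ^3 * v^5 + 6 * ζ^3 * u^2 * v^3 + (6/5) * ζ^3 * u^5

def slopePQ₂ (ζ : K) (u v : K) : K :=
    (-3/5) * v^5 + (-6) * u * v^4 + (-6) * u^2 * v^3 + (-12) * u^3 * v^2
    + (9/5) * u^5 + (-6/5) * ζ * v^5 + 6 * ζ * u^2 * v^3 + (-6) * ζ * u^3 * v^2
    + (18/5) * ζ * u^5 + (6/5) * ζ^2 * v^5 + (-6) * ζ^2 * u^3 * v^2 + (12/5) * ζ^2 * u^5
    + (-12/5) * ζ^3 * v^5 + 6 * ζ^3 * u * v^4 + (-6) * ζ^3 * u^3 * v^2 + (6/5) * ζ^3 * u^5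

end FLTAgent.Switch
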