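import Fermat.Agent.Switch.Forms

set_option autoImplicit false

/-! Polynomial identities between the level-five forms (certificates computed by polynomial division). -/

namespace FLTAgent.Switch

variable {K : Type*} [Field K]

theorem pow_five_of_root {ζ : K} (hζ : ζ ^ 4 + ζ ^ 3 + ζ ^ 2 + ζ + 1 = 0) : ζ ^ 5 = 1 := by
  linear_combination (ζ - 1) * hζ

theorem pow_four_pow_five_of_root {ζ : K} (hζ : ζ ^ 4 + ζ ^ 3 + ζ ^ 2 + ζ + 1 = 0) :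
    (ζ ^ 4) ^ 5 = 1 := by
  rw [← pow_mul, Nat.mul_comm, pow_mul, pow_five_of_root hζ, one_pow]

theorem mul_root_pow {r u : K} (hr : r ^ 5 = 1) (n : ℕ) : (r * u) ^ n = r ^ (n % 5) * u ^ n := by
  rw [mul_pow, ← pow_eq_pow_mod n hr]

theorem root_mono {ζ : K} (h : ζ ^ 5 = 1) (a u v : K) (i j : ℕ) :
    a * (ζ * u) ^ i * (ζ ^ 4 * v) ^ j = ζ ^ ((i + 4 * j) % 5) * (a * u ^ i * v ^ j) := by
  rw [← pow_eq_pow_mod _ h, pow_add, pow_mul, mul_pow, mul_pow]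
  ring

theorem root_mono_one {ζ : K} (h : ζ ^ 5 = 1) (a u v : K) (j : ℕ) :
    a * (ζ * u) * (ζ ^ 4 * v) ^ j = ζ ^ ((1 + 4 * j) % 5) * (a * u * v ^ j) := by
  simpa using root_mono h a u v 1 j

variable [CharZero K]

theorem equation_P (ζ u v : K) (hζ : ζ ^ 4 + ζ ^ 3 + ζ ^ 2 + ζ + 1 = 0) :
    yP ζ u v ^ 2 =
      xP ζ u v ^ 3 + cA u v * xP ζ u v + cB u v := by
  simp only [xP, yP, cA, cB, klH, klT]
  linear_combination ((793152/125) * v^30 + (-16842816/125) * u^5 * v^25 + (16282944/25) * u^10 * v^20 + (16282944/25) * u^15 * v^15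
    + (11710656/25) * u^20 * v^10 + (8817984/125) * u^25 * v^5 + (373248/125) * u^30 + (-559872/125) * ζ * v^30
    + (12643776/125) * ζ * u^5 * v^25 + (-14649984/25) * ζ * u^10 * v^20 + (2846016/25) * ζ * u^15 * v^15 + (14649984/25) * ζ * u^20 * v^10
    + (12643776/125) * ζ * u^25 * v^5 + (559872/125) * ζ * u^30 + (793152/125) * ζ^2 * v^30 + (-16842816/125) * ζ^2 * u^5 * v^25
    + (16282944/25) * ζ^2 * u^10 * v^20 + (16282944/25) * ζ^2 * u^15 * v^15 + (11710656/25) * ζ^2 * u^20 * v^10 + (8817984/125) * ζ^2 * u^25 * v^5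
    + (373248/125) * ζ^2 * u^30 + (93312/125) * ζ^4 * v^30 + (-3079296/125) * ζ^4 * u^5 * v^25 + (6718464/25) * ζ^4 * u^10 * v^20
    + (-23607936/25) * ζ^4 * u^15 * v^15 + (-6718464/25) * ζ^4 * u^20 * v^10 + (-3079296/125) * ζ^4 * u^25 * v^5 + (-93312/125) * ζ^4 * u^30
    + (46656/125) * ζ^5 * v^30 + (-1539648/125) * ζ^5 * u^5 * v^25 + (3359232/25) * ζ^5 * u^10 * v^20 + (-11803968/25) * ζ^5 * u^15 * v^15
    + (-3359232/25) * ζ^5 * u^20 * v^10 + (-1539648/125) * ζ^5 * u^25 * v^5 + (-46656/125) * ζ^5 * u^30) * hζ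

theorem tangent_P (ζ u v : K) (hζ : ζ ^ 4 + ζ ^ 3 + ζ ^ 2 + ζ + 1 = 0) :
    3 * xP ζ u v ^ 2 + cA u v =
      2 * yP ζ u v * slopeP ζ u v := by
  simp only [xP, yP, slopeP, cA, klH]
  linear_combination ((24624/25) * v^20 + (-263088/25) * u^5 * v^15 + (-128304/25) * u^10 * v^10 + (191808/25) * u^15 * v^5
    + (18144/25) * u^20 + (-27216/25) * ζ * v^20 + (268272/25) * ζ * u^5 * v^15 + (351216/25) * ζ * u^10 * v^10
    + (230688/25) * ζ * u^15 * v^5 + (18144/25) * ζ * u^20 + (15552/25) * ζ^2 * v^20 + (-225504/25) * ζ^2 * u^5 * v^15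
    + (574128/25) * ζ^2 * u^10 * v^10 + (154224/25) * ζ^2 * u^15 * v^5 + (9072/25) * ζ^2 * u^20) * hζ

theorem double_P_x (ζ u v : K) (hζ : ζ ^ 4 + ζ ^ 3 + ζ ^ 2 + ζ + 1 = 0) :
    slopeP ζ u v ^ 2 =
      2 * xP ζ u v + xP (ζ ^ 2) u v := by
  simp only [xP, slopeP]
  linear_combination ((1404/25) * v^10 + (-2844/25) * u^5 * v^5 + (1296/25) * u^10 + (-1368/25) * ζ * v^10
    + (3348/25) * ζ * u^5 * v^5 + (468/25) * ζ * u^10 + (504/25) * ζ^2 * v^10 + (-2844/25) * ζ^2 * u^5 * v^5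
    + (396/25) * ζ^2 * u^10) * hζ

theorem double_P_y (ζ u v : K) (hζ : ζ ^ 4 + ζ ^ 3 + ζ ^ 2 + ζ + 1 = 0) :
    slopeP ζ u v * (xP ζ u v - xP (ζ ^ 2) u v) =
      yP ζ u v + yP (ζ ^ 2) u v := by
  simp only [xP, yP, slopeP]
  linear_combination ((-216/5) * v^15 + (1944/5) * u^5 * v^10 + (4968/5) * u^10 * v^5 + (432/5) * u^15
    + (432/25) * ζ^2 * v^15 + (-7128/25) * ζ^2 * u^5 * v^10 + (25704/25) * ζ^2 * u^10 * v^5 + (2376/25) * ζ^2 * u^15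
    + (-1296/25) * ζ^3 * v^15 + (15984/25) * ζ^3 * u^5 * v^10 + (-17712/25) * ζ^3 * u^10 * v^5 + (-1728/25) * ζ^3 * u^15
    + (1512/25) * ζ^4 * v^15 + (-16848/25) * ζ^4 * u^5 * v^10 + (864/25) * ζ^4 * u^10 * v^5 + (216/25) * ζ^4 * u^15
    + (-648/25) * ζ^5 * v^15 + (7992/25) * ζ^5 * u^5 * v^10 + (-8856/25) * ζ^5 * u^10 * v^5 + (-864/25) * ζ^5 * u^15) * hζ

theorem xP_pow_four (ζ u v : K) (hζ : ζ ^ 4 + ζ ^ 3 + ζ ^ 2 + ζ + 1 = 0) :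
    xP (ζ ^ 4) u v =
      xP ζ u v := by
  simp only [xP]
  linear_combination ((36/5) * ζ^2 * v^10 + (-396/5) * ζ^2 * u^5 * v^5 + (-36/5) * ζ^2 * u^10 + (-36/5) * ζ^4 * v^10
    + (396/5) * ζ^4 * u^5 * v^5 + (36/5) * ζ^4 * u^10 + (36/5) * ζ^7 * v^10 + (-396/5) * ζ^7 * u^5 * v^5
    + (-36/5) * ζ^7 * u^10 + (-36/5) * ζ^8 * v^10 + (396/5) * ζ^8 * u^5 * v^5 + (36/5) * ζ^8 * u^10) * hζ

theorem yP_pow_four (ζ u v : K) (hζ : ζ ^ 4 + ζ ^ 3 + ζ ^ 2 + ζ + 1 = 0) :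
    yP (ζ ^ 4) u v =
      -yP ζ u v := by
  simp only [yP]
  linear_combination ((216/5) * v^15 + (-1944/5) * u^5 * v^10 + (-4968/5) * u^10 * v^5 + (-432/5) * u^15
    + (-324/5) * ζ^2 * v^15 + (3456/5) * ζ^2 * u^5 * v^10 + (1512/5) * ζ^2 * u^10 * v^5 + (108/5) * ζ^2 * u^15
    + (432/5) * ζ^3 * v^15 + (-4968/5) * ζ^3 * u^5 * v^10 + (1944/5) * ζ^3 * u^10 * v^5 + (216/5) * ζ^3 * u^15
    + (-108/5) * ζ^4 * v^15 + (1512/5) * ζ^4 * u^5 * v^10 + (-3456/5) * ζ^4 * u^10 * v^5 + (-324/5) * ζ^4 * u^15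
    + (-324/5) * ζ^7 * v^15 + (3456/5) * ζ^7 * u^5 * v^10 + (1512/5) * ζ^7 * u^10 * v^5 + (108/5) * ζ^7 * u^15
    + (324/5) * ζ^8 * v^15 + (-3456/5) * ζ^8 * u^5 * v^10 + (-1512/5) * ζ^8 * u^10 * v^5 + (-108/5) * ζ^8 * u^15) * hζ

theorem add_slope (ζ u v : K) (hζ : ζ ^ 4 + ζ ^ 3 + ζ ^ 2 + ζ + 1 = 0) :
    yP ζ u v - yQ u v =
      slopePQ ζ u v * (xP ζ u v - xQ u v) := by
  simp only [xP, yP, xQ, yQ, slopePQ]
  linear_combination ((216/25) * v^15 + (-216/5) * u^3 * v^12 + (-1944/25) * u^5 * v^10 + (2376/5) * u^8 * v^7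
    + (-4968/25) * u^10 * v^5 + (216/5) * u^13 * v^2 + (-432/25) * u^15 + (216/25) * ζ * v^15
    + (-216/5) * ζ * u * v^14 + (216/5) * ζ * u^2 * v^13 + (-1944/25) * ζ * u^5 * v^10 + (2376/5) * ζ * u^6 * v^9
    + (-2376/5) * ζ * u^7 * v^8 + (-4968/25) * ζ * u^10 * v^5 + (216/5) * ζ * u^11 * v^4 + (-216/5) * ζ * u^12 * v^3
    + (-432/25) * ζ * u^15 + (-432/25) * ζ^2 * v^15 + (216/5) * ζ^2 * u^2 * v^13 + (4968/25) * ζ^2 * u^5 * v^10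
    + (-2376/5) * ζ^2 * u^7 * v^8 + (-1944/25) * ζ^2 * u^10 * v^5 + (-216/5) * ζ^2 * u^12 * v^3 + (-216/25) * ζ^2 * u^15) * hζ

theorem add_slope₂ (ζ u v : K) (hζ : ζ ^ 4 + ζ ^ 3 + ζ ^ 2 + ζ + 1 = 0) :
    yP ζ u v + yQ u v =
      slopePQ₂ ζ u v * (xP ζ u v - xQ u v) := by
  simp only [xP, yP, xQ, yQ, slopePQ₂]
  linear_combination ((216/25) * v^15 + (-216/5) * u * v^14 + (216/5) * u^2 * v^13 + (-1944/25) * u^5 * v^10
    + (2376/5) * u^6 * v^9 + (-2376/5) * u^7 * v^8 + (-4968/25) * u^10 * v^5 + (216/5) * u^11 * v^4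
    + (-216/5) * u^12 * v^3 + (-432/25) * u^15 + (216/25) * ζ * v^15 + (-216/5) * ζ * u^3 * v^12
    + (-1944/25) * ζ * u^5 * v^10 + (2376/5) * ζ * u^8 * v^7 + (-4968/25) * ζ * u^10 * v^5 + (216/5) * ζ * u^13 * v^2
    + (-432/25) * ζ * u^15 + (-432/25) * ζ^2 * v^15 + (216/5) * ζ^2 * u * v^14 + (-216/5) * ζ^2 * u^3 * v^12
    + (4968/25) * ζ^2 * u^5 * v^10 + (-2376/5) * ζ^2 * u^6 * v^9 + (2376/5) * ζ^2 * u^8 * v^7 + (-1944/25) * ζ^2 * u^10 * v^5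
    + (-216/5) * ζ^2 * u^11 * v^4 + (216/5) * ζ^2 * u^13 * v^2 + (-216/25) * ζ^2 * u^15) * hζ

theorem add_x (ζ u v : K) (hζ : ζ ^ 4 + ζ ^ 3 + ζ ^ 2 + ζ + 1 = 0) :
    slopePQ ζ u v ^ 2 =
      xP ζ u v + xQ u v + xQ (ζ * u) (ζ ^ 4 * v) := by
  simp only [xP, xQ, slopePQ, ↓root_mono (pow_five_of_root hζ), ↓root_mono_one (pow_five_of_root hζ),
    mul_root_pow (pow_five_of_root hζ), mul_root_pow (pow_four_pow_five_of_root hζ),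
    Nat.reduceMul, Nat.reduceAdd, Nat.reduceMod, pow_zero, pow_one, one_mul]
  linear_combination (
    (324/25) * v^10 + (-216/5) * u * v^9 + (-252/5) * u^2 * v^8 + (144/5) * u^3 * v^7
    + 36 * u^4 * v^6 + (-1944/25) * u^5 * v^5 + (-72/5) * u^6 * v^4 + (396/5) * u^7 * v^3
    + (-72/5) * u^8 * v^2 + (216/25) * u^10 + (-288/25) * ζ * v^10 + (144/5) * ζ * u * v^9
    + (72/5) * ζ * u^2 * v^8 + (-72) * ζ * u^3 * v^7 + 36 * ζ * u^4 * v^6 + (-72/25) * ζ * u^5 * v^5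
    + (-72/5) * ζ * u^6 * v^4 + (144/5) * ζ * u^7 * v^3 + (108/25) * ζ * u^10 + (144/25) * ζ^2 * v^10
    + (-144/5) * ζ^2 * u^2 * v^8 + 36 * ζ^2 * u^4 * v^6 + (-144/25) * ζ^2 * u^5 * v^5 + (72/5) * ζ^2 * u^7 * v^3
    + (36/25) * ζ^2 * u^10) * hζ

theorem add_y (ζ u v : K) (hζ : ζ ^ 4 + ζ ^ 3 + ζ ^ 2 + ζ + 1 = 0) :
    slopePQ ζ u v * (xQ u v - xQ (ζ * u) (ζ ^ 4 * v)) =
      yQ u v + yQ (ζ * u) (ζ ^ 4 * v) := by
  simp only [xQ, yQ, slopePQ, ↓root_mono (pow_five_of_root hζ), ↓root_mono_one (pow_five_of_root hζ),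
    mul_root_pow (pow_five_of_root hζ), mul_root_pow (pow_four_pow_five_of_root hζ),
    Nat.reduceMul, Nat.reduceAdd, Nat.reduceMod, pow_zero, pow_one, one_mul]
  linear_combination (
    (-648/5) * u * v^14 + (-1296/5) * u^2 * v^13 + (-864/5) * u^3 * v^12 + (-2592) * u^5 * v^10
    + (-1512/5) * u^6 * v^9 + (-3024/5) * u^7 * v^8 + (864/5) * u^8 * v^7 + 216 * u^10 * v^5
    + (-432/5) * u^11 * v^4 + (-864/5) * u^12 * v^3 + (-216/5) * u^13 * v^2 + (432/5) * ζ * u * v^14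
    + (864/5) * ζ * u^2 * v^13 + (-648) * ζ * u^3 * v^12 + (-648) * ζ * u^4 * v^11 + 1512 * ζ * u^5 * v^10
    + (648/5) * ζ * u^6 * v^9 + (-864/5) * ζ * u^7 * v^8 + (-216) * ζ * u^8 * v^7 + (-216) * ζ * u^9 * v^6
    + (-216) * ζ * u^10 * v^5 + (-432/5) * ζ * u^11 * v^4 + (216/5) * ζ * u^12 * v^3 + (-1296/5) * ζ^2 * u^2 * v^13
    + 432 * ζ^2 * u^3 * v^12 + 432 * ζ^2 * u^4 * v^11 + (-1080) * ζ^2 * u^6 * v^9 + (216/5) * ζ^2 * u^7 * v^8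
    + (-216) * ζ^2 * u^8 * v^7 + (-216) * ζ^2 * u^9 * v^6 + (216/5) * ζ^2 * u^12 * v^3 + (864/5) * ζ^3 * u^2 * v^13
    + (-432) * ζ^3 * u^4 * v^11 + (-864/5) * ζ^3 * u^7 * v^8 + 216 * ζ^3 * u^9 * v^6 + (216/5) * ζ^3 * u^12 * v^3) * hζ

theorem cA_T (ζ u v : K) (hζ : ζ ^ 4 + ζ ^ 3 + ζ ^ 2 + ζ + 1 = 0) :
    cA (ζ * u) (ζ ^ 4 * v) =
      cA u v := by
  simp only [cA, klH, mul_root_pow (pow_five_of_root hζ), mul_root_pow (pow_four_pow_five_of_root hζ),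
    Nat.reduceMod, pow_zero, one_mul]

theorem cB_T (ζ u v : K) (hζ : ζ ^ 4 + ζ ^ 3 + ζ ^ 2 + ζ + 1 = 0) :
    cB (ζ * u) (ζ ^ 4 * v) =
      cB u v := by
  simp only [cB, klT, mul_root_pow (pow_five_of_root hζ), mul_root_pow (pow_four_pow_five_of_root hζ),
    Nat.reduceMod, pow_zero, one_mul]

theorem xP_T (ζ u v : K) (hζ : ζ ^ 4 + ζ ^ 3 + ζ ^ 2 + ζ + 1 = 0) :
    xP ζ (ζ * u) (ζ ^ 4 * v) =
      xP ζ u v := by
  simp only [xP, mul_root_pow (pow_five_of_root hζ), mul_root_pow (pow_four_pow_five_of_root hζ),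
    Nat.reduceMod, pow_zero, one_mul]

theorem yP_T (ζ u v : K) (hζ : ζ ^ 4 + ζ ^ 3 + ζ ^ 2 + ζ + 1 = 0) :
    yP ζ (ζ * u) (ζ ^ 4 * v) =
      yP ζ u v := by
  simp only [yP, mul_root_pow (pow_five_of_root hζ), mul_root_pow (pow_four_pow_five_of_root hζ),
    Nat.reduceMod, pow_zero, one_mul]

theorem klFu_T (ζ u v : K) (hζ : ζ ^ 4 + ζ ^ 3 + ζ ^ 2 + ζ + 1 = 0) :
    klFu (ζ * u) (ζ ^ 4 * v) =
      ζ ^ 4 * klFu u v := by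
  simp only [klFu, mul_root_pow (pow_five_of_root hζ), mul_root_pow (pow_four_pow_five_of_root hζ),
    Nat.reduceMod, pow_zero, pow_one, one_mul]
  ring

theorem klFv_T (ζ u v : K) (hζ : ζ ^ 4 + ζ ^ 3 + ζ ^ 2 + ζ + 1 = 0) :
    klFv (ζ * u) (ζ ^ 4 * v) =
      ζ * klFv u v := by
  simp only [klFv, mul_root_pow (pow_five_of_root hζ), mul_root_pow (pow_four_pow_five_of_root hζ),
    Nat.reduceMod, pow_zero, pow_one, one_mul]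
  ring

end FLTAgent.Switch
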