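import Fermat.Agent.Switch.Forms

set_option autoImplicit false

/-! Polynomial identities between the level-five forms not involving the root of unity. -/

namespace FLTAgent.Switch

variable {K : Type*} [Field K]

theorem klein_syzygy (u v : K) : klH u v ^ 3 - klT u v ^ 2 = 1728 * klF u v ^ 5 := by
  unfold klH klT klF; ring

theorem euler_klF (u v : K) : u * klFu u v + v * klFv u v = 12 * klF u v := by
  unfold klF klFu klFv; ring

theorem equation_Q (u v : K) : yQ u v ^ 2 = xQ u v ^ 3 + cA u v * xQ u v + cB u v := by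
  unfold yQ xQ cA cB klH klT; ring

theorem tangent_Q (u v : K) : 3 * xQ u v ^ 2 + cA u v = 2 * yQ u v * slopeQ u v := by
  unfold yQ xQ cA klH slopeQ; ring

theorem double_Q_x (u v : K) : slopeQ u v ^ 2 = 2 * xQ u v + xQ v (-u) := by
  unfold xQ slopeQ; ring

theorem double_Q_y (u v : K) :
    slopeQ u v * (xQ u v - xQ v (-u)) = yQ u v + yQ v (-u) := by
  unfold xQ yQ slopeQ; ring

theorem cA_R (u v : K) : cA v (-u) = cA u v := by
  unfold cA klH; ring

theorem cB_R (u v : K) : cB v (-u) = cB u v := by
  unfold cB klT; ring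

theorem xQ_neg (u v : K) : xQ (-u) (-v) = xQ u v := by
  unfold xQ; ring

theorem yQ_neg (u v : K) : yQ (-u) (-v) = -yQ u v := by
  unfold yQ; ring

end FLTAgent.Switch
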