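import Fermat.Agent.Switch.IdentP
import Fermat.Agent.Switch.IdentQ

set_option autoImplicit false

/-!
# The level-five structure on the universal curve

For a short Weierstrass curve `E` with coefficients `cA w, cB w` the points `ptP ζ w`, `ptQ w`
form a basis of the 5-torsion, packaged as an injective homomorphism `lvl`.
-/

namespace FLTAgent.Switch

open WeierstrassCurve Affine

variable {K : Type*} [Field K]

/-- `E` is the short curve with coefficients given by the Klein forms at `w`. -/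
structure Fits (E : Affine K) (w : K × K) : Prop where
  a1 : E.a₁ = 0
  a2 : E.a₂ = 0
  a3 : E.a₃ = 0
  a4 : E.a₄ = cA w.1 w.2
  a6 : E.a₆ = cB w.1 w.2

/-- A fifth root of unity different from one, by its equation. -/
def IsFifth (ζ : K) : Prop := ζ ^ 4 + ζ ^ 3 + ζ ^ 2 + ζ + 1 = 0

theorem IsFifth.pow_five {ζ : K} (h : IsFifth ζ) : ζ ^ 5 = 1 := by
  unfold IsFifth at h; linear_combination (ζ - 1) * h

theorem IsFifth.sq {ζ : K} (h : IsFifth ζ) : IsFifth (ζ ^ 2) := by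
  have h5 := h.pow_five
  unfold IsFifth at h ⊢
  linear_combination h + (ζ ^ 3 + ζ) * h5

theorem IsFifth.cube {ζ : K} (h : IsFifth ζ) : IsFifth (ζ ^ 3) := by
  have h5 := h.pow_five
  unfold IsFifth at h ⊢
  linear_combination h + (ζ ^ 7 + ζ ^ 4 + ζ ^ 2 + ζ) * h5

theorem IsFifth.s5_sq {ζ : K} (h : IsFifth ζ) : s5 ζ ^ 2 = 5 := by
  have h5 := h.pow_five
  unfold IsFifth at h
  unfold s5
  linear_combination (-1 : K) * h + (ζ ^ 3 - 2 * ζ ^ 2 - ζ + 4) * h5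

/-- `(u, v) ↦ (ζ u, ζ⁴ v)`. -/
def gT (ζ : K) : (K × K) →ₗ[K] (K × K) :=
  ((ζ • LinearMap.fst K K K).prod (ζ ^ 4 • LinearMap.snd K K K))

@[simp] theorem gT_fst (ζ : K) (w : K × K) : (gT ζ w).1 = ζ * w.1 := by simp [gT]

@[simp] theorem gT_snd (ζ : K) (w : K × K) : (gT ζ w).2 = ζ ^ 4 * w.2 := by simp [gT]

namespace Fits

variable {E : Affine K} {w : K × K}

theorem rot (h : Fits E w) : Fits E (w.2, -w.1) :=
  ⟨h.a1, h.a2, h.a3, by rw [h.a4, cA_R], by rw [h.a6, cB_R]⟩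

variable [CharZero K]

theorem shiftT (h : Fits E w) {ζ : K} (hζ : IsFifth ζ) : Fits E (gT ζ w) :=
  ⟨h.a1, h.a2, h.a3, by rw [h.a4, gT_fst, gT_snd, cA_T ζ _ _ hζ],
    by rw [h.a6, gT_fst, gT_snd, cB_T ζ _ _ hζ]⟩

omit [CharZero K] in
theorem Δ_eq (h : Fits E w) : E.Δ = -16 * (4 * E.a₄ ^ 3 + 27 * E.a₆ ^ 2) := by
  simp only [WeierstrassCurve.Δ, WeierstrassCurve.b₂, WeierstrassCurve.b₄, WeierstrassCurve.b₆,
    WeierstrassCurve.b₈, h.a1, h.a2, h.a3]
  ring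

omit [CharZero K] in
theorem equationQ (h : Fits E w) : E.Equation (xQ w.1 w.2) (yQ w.1 w.2) := by
  rw [equation_iff, h.a1, h.a2, h.a3, h.a4, h.a6]
  linear_combination equation_Q w.1 w.2

theorem equationP (h : Fits E w) {ζ : K} (hζ : IsFifth ζ) :
    E.Equation (xP ζ w.1 w.2) (yP ζ w.1 w.2) := by
  rw [equation_iff, h.a1, h.a2, h.a3, h.a4, h.a6]
  linear_combination equation_P ζ w.1 w.2 hζ

variable [E.IsElliptic]

theorem y_ne_zero (h : Fits E w) {x y l : K} (he : E.Equation x y)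
    (ht : 3 * x ^ 2 + cA w.1 w.2 = 2 * y * l) : y ≠ 0 := by
  intro hy
  rw [← h.a4, hy, mul_zero, zero_mul] at ht
  rw [equation_iff, h.a1, h.a2, h.a3, hy] at he
  refine E.isUnit_Δ.ne_zero ?_
  rw [h.Δ_eq]
  have e4 : E.a₄ = -3 * x ^ 2 := by linear_combination ht
  have e6 : E.a₆ = 2 * x ^ 3 := by linear_combination -he - x * e4
  rw [e4, e6]; ring

theorem yQ_ne_zero (h : Fits E w) : yQ w.1 w.2 ≠ 0 :=
  h.y_ne_zero h.equationQ (tangent_Q w.1 w.2)

theorem yP_ne_zero (h : Fits E w) {ζ : K} (hζ : IsFifth ζ) : yP ζ w.1 w.2 ≠ 0 :=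
  h.y_ne_zero (h.equationP hζ) (tangent_P ζ w.1 w.2 hζ)

end Fits

variable [CharZero K] [DecidableEq K] {E : Affine K} [E.IsElliptic] {w : K × K}

/-- The point `Q`, rational in the parameter. -/
def ptQ (h : Fits E w) : E.Point := .mk h.equationQ

/-- The point `P`, attached to a fifth root of unity. -/
def ptP (h : Fits E w) {ζ : K} (hζ : IsFifth ζ) : E.Point := .mk (h.equationP hζ)

theorem Fits.negY_eq (h : Fits E w) (x y : K) : E.negY x y = -y := by
  simp [Affine.negY, h.a1, h.a3]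

theorem Fits.add_self (h : Fits E w) {x y x' y' l : K} {hn : E.Nonsingular x y}
    {hn' : E.Nonsingular x' y'} (hy : y ≠ 0) (ht : 3 * x ^ 2 + cA w.1 w.2 = 2 * y * l)
    (hx : l ^ 2 = 2 * x + x') (hy' : l * (x - x') = y + y') :
    Point.some x y hn + Point.some x y hn = Point.some x' y' hn' := by
  have hne : y ≠ E.negY x y := by
    rw [h.negY_eq]
    intro e
    exact hy (by linear_combination e / 2)
  have hl : E.slope x x y y = l := by
    rw [slope_of_Y_ne rfl hne, h.negY_eq, h.a1, h.a2, h.a4,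
      div_eq_iff (by intro e; exact hy (by linear_combination e / 2))]
    linear_combination ht
  rw [Point.add_self_of_Y_ne hne, Point.some.injEq, hl]
  have ex : E.addX x x l = x' := by
    rw [addX, h.a1, h.a2]; linear_combination hx
  refine ⟨ex, ?_⟩
  rw [addY, negAddY, h.negY_eq, ex]
  linear_combination hy'

theorem Fits.add_distinct (h : Fits E w) {x₁ y₁ x₂ y₂ x' y' l : K} {h₁ : E.Nonsingular x₁ y₁}
    {h₂ : E.Nonsingular x₂ y₂} {hn' : E.Nonsingular x' y'} (hne : x₁ ≠ x₂)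
    (ht : y₁ - y₂ = l * (x₁ - x₂)) (hx : l ^ 2 = x₁ + x₂ + x') (hy' : l * (x₁ - x') = y₁ + y') :
    Point.some x₁ y₁ h₁ + Point.some x₂ y₂ h₂ = Point.some x' y' hn' := by
  have hl : E.slope x₁ x₂ y₁ y₂ = l := by
    rw [slope_of_X_ne hne, div_eq_iff (sub_ne_zero.2 hne)]
    exact ht
  rw [Point.add_of_X_ne hne, Point.some.injEq, hl]
  have ex : E.addX x₁ x₂ l = x' := by
    rw [addX, h.a1, h.a2]; linear_combination hx
  refine ⟨ex, ?_⟩
  rw [addY, negAddY, h.negY_eq, ex]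
  linear_combination hy'

theorem ptQ_add_ptQ (h : Fits E w) : ptQ h + ptQ h = ptQ h.rot :=
  h.add_self h.yQ_ne_zero (tangent_Q _ _) (double_Q_x _ _) (double_Q_y _ _)

theorem ptQ_rot_rot (h : Fits E w) : ptQ h.rot.rot = -ptQ h := by
  unfold ptQ Point.mk
  rw [Point.neg_some, Point.some.injEq, h.negY_eq]
  exact ⟨xQ_neg _ _, yQ_neg _ _⟩

theorem five_ptQ (h : Fits E w) : (5 : ℤ) • ptQ h = 0 := by
  have e := ptQ_add_ptQ h.rot
  rw [ptQ_rot_rot h, ← ptQ_add_ptQ h] at e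
  calc (5 : ℤ) • ptQ h = ((ptQ h + ptQ h) + (ptQ h + ptQ h)) + ptQ h := by module
    _ = 0 := by rw [e]; abel

theorem ptP_add_ptP (h : Fits E w) {ζ : K} (hζ : IsFifth ζ) :
    ptP h hζ + ptP h hζ = ptP h hζ.sq :=
  h.add_self (h.yP_ne_zero hζ) (tangent_P ζ _ _ hζ) (double_P_x ζ _ _ hζ) (double_P_y ζ _ _ hζ)

theorem ptP_sq_sq (h : Fits E w) {ζ : K} (hζ : IsFifth ζ) :
    ptP h hζ.sq.sq = -ptP h hζ := by
  unfold ptP Point.mk
  rw [Point.neg_some, Point.some.injEq, h.negY_eq, ← pow_mul]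
  exact ⟨xP_pow_four ζ _ _ hζ, yP_pow_four ζ _ _ hζ⟩

theorem five_ptP (h : Fits E w) {ζ : K} (hζ : IsFifth ζ) : (5 : ℤ) • ptP h hζ = 0 := by
  have e := ptP_add_ptP h hζ.sq
  rw [ptP_sq_sq h hζ, ← ptP_add_ptP h hζ] at e
  calc (5 : ℤ) • ptP h hζ
      = ((ptP h hζ + ptP h hζ) + (ptP h hζ + ptP h hζ)) + ptP h hζ := by module
    _ = 0 := by rw [e]; abel

theorem Fits.xP_ne_xQ (h : Fits E w) {ζ : K} (hζ : IsFifth ζ) :
    xP ζ w.1 w.2 ≠ xQ w.1 w.2 := by
  intro e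
  have e1 := add_slope ζ w.1 w.2 hζ
  have e2 := add_slope₂ ζ w.1 w.2 hζ
  rw [e, sub_self, mul_zero] at e1 e2
  exact h.yQ_ne_zero (by linear_combination (e2 - e1) / 2)

theorem ptP_shiftT (h : Fits E w) {ζ : K} (hζ : IsFifth ζ) :
    ptP (h.shiftT hζ) hζ = ptP h hζ := by
  unfold ptP Point.mk
  rw [Point.some.injEq, gT_fst, gT_snd]
  exact ⟨xP_T ζ _ _ hζ, yP_T ζ _ _ hζ⟩

theorem ptQ_shiftT (h : Fits E w) {ζ : K} (hζ : IsFifth ζ) :
    ptQ (h.shiftT hζ) = ptP h hζ + ptQ h := by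
  rw [add_comm]
  refine (h.add_distinct (h.xP_ne_xQ hζ).symm (l := slopePQ ζ w.1 w.2) ?_ ?_ ?_).symm
  · linear_combination -(add_slope ζ w.1 w.2 hζ)
  · rw [gT_fst, gT_snd]; linear_combination add_x ζ w.1 w.2 hζ
  · rw [gT_fst, gT_snd]; linear_combination add_y ζ w.1 w.2 hζ

/-- `5` kills the point, as a statement on the multiples homomorphism. -/
theorem multiples_five {P : E.Point} (h : (5 : ℤ) • P = 0) :
    zmultiplesHom E.Point P ((5 : ℕ) : ℤ) = 0 := by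
  simpa using h

/-- The level structure attached to `w`. -/
def lvl (h : Fits E w) {ζ : K} (hζ : IsFifth ζ) : ZMod 5 × ZMod 5 →+ E.Point :=
  (ZMod.lift 5 ⟨zmultiplesHom E.Point (ptP h hζ), multiples_five (five_ptP h hζ)⟩).coprod
    (ZMod.lift 5 ⟨zmultiplesHom E.Point (ptQ h), multiples_five (five_ptQ h)⟩)

theorem lvl_intCast (h : Fits E w) {ζ : K} (hζ : IsFifth ζ) (i j : ℤ) :
    lvl h hζ ((i : ZMod 5), (j : ZMod 5)) = i • ptP h hζ + j • ptQ h := by
  simp [lvl]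

theorem lvl_one_zero (h : Fits E w) {ζ : K} (hζ : IsFifth ζ) :
    lvl h hζ (1, 0) = ptP h hζ := by
  simpa using lvl_intCast h hζ 1 0

theorem lvl_zero_one (h : Fits E w) {ζ : K} (hζ : IsFifth ζ) :
    lvl h hζ (0, 1) = ptQ h := by
  simpa using lvl_intCast h hζ 0 1

theorem exists_shift {ζ : K} (hζ : IsFifth ζ) (h : Fits E w) (n : ℕ) :
    ∃ (w' : K × K) (h' : Fits E w'),
      ptP h' hζ = ptP h hζ ∧ ptQ h' = n • ptP h hζ + ptQ h := by
  induction n with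
  | zero => exact ⟨w, h, rfl, by simp⟩
  | succ n ih =>
    obtain ⟨w', h', e1, e2⟩ := ih
    refine ⟨gT ζ w', h'.shiftT hζ, ?_, ?_⟩
    · rw [ptP_shiftT h' hζ, e1]
    · rw [ptQ_shiftT h' hζ, e1, e2, succ_nsmul]; abel

theorem ptQ_ne_zero (h : Fits E w) : ptQ h ≠ 0 := Point.some_ne_zero _

theorem ptP_ne_zero (h : Fits E w) {ζ : K} (hζ : IsFifth ζ) : ptP h hζ ≠ 0 :=
  Point.some_ne_zero _

theorem lvl_injective (h : Fits E w) {ζ : K} (hζ : IsFifth ζ) :
    Function.Injective (lvl h hζ) := by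
  have : Fact (Nat.Prime 5) := ⟨by norm_num⟩
  have key : ∀ c : ZMod 5, lvl h hζ (c, 1) ≠ 0 := by
    intro c hc
    obtain ⟨w', h', -, e⟩ := exists_shift hζ h c.val
    refine ptQ_ne_zero h' ?_
    rw [e, ← hc, ← lvl_one_zero h hζ, ← lvl_zero_one h hζ, ← map_nsmul, ← map_add]
    simp
  rw [injective_iff_map_eq_zero]
  rintro ⟨a, b⟩ hab
  have smul_zero' : ∀ c : ZMod 5, lvl h hζ (c * a, c * b) = 0 := by
    intro c
    have e : ((c * a, c * b) : ZMod 5 × ZMod 5) = c.val • (a, b) := by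
      simp [Prod.smul_mk, nsmul_eq_mul]
    rw [e, map_nsmul, hab, smul_zero]
  by_cases hb : b = 0
  · subst hb
    by_cases ha : a = 0
    · subst ha; rfl
    · have := smul_zero' a⁻¹
      rw [inv_mul_cancel₀ ha, mul_zero, lvl_one_zero] at this
      exact absurd this (ptP_ne_zero h hζ)
  · have := smul_zero' b⁻¹
    rw [inv_mul_cancel₀ hb] at this
    exact absurd this (key _)

theorem five_lvl (h : Fits E w) {ζ : K} (hζ : IsFifth ζ) (a : ZMod 5 × ZMod 5) :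
    (5 : ℤ) • lvl h hζ a = 0 := by
  rw [← map_zsmul]
  have : (5 : ℤ) • a = 0 := by
    obtain ⟨i, j⟩ := a
    ext <;> simp <;> exact mul_eq_zero_of_left (by decide) _
  rw [this, map_zero]

end FLTAgent.Switch
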