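import Fermat.Prelude.Def_FLTPrelim_Modularity
import Fermat.Agent.Switch.Descent
import Fermat.Agent.Frobenius.Places

set_option autoImplicit false

/-!
# Semistability of nearby members of the family
-/

namespace FLTAgent.Switch

open Polynomial WeierstrassCurve

local notation "Qb" => AlgebraicClosure ℚ

section Model

/-- Change `a₄` and `a₆`. -/
def perturb (W : WeierstrassCurve ℤ) (δ ε : ℤ) : WeierstrassCurve ℤ :=
  ⟨W.a₁, W.a₂, W.a₃, W.a₄ + δ, W.a₆ + ε⟩

theorem c₄_perturb (W : WeierstrassCurve ℤ) (δ ε : ℤ) :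
    (perturb W δ ε).c₄ = W.c₄ - 48 * δ := by
  simp only [perturb, WeierstrassCurve.c₄, WeierstrassCurve.b₂, WeierstrassCurve.b₄]; ring

theorem c₆_perturb (W : WeierstrassCurve ℤ) (δ ε : ℤ) :
    (perturb W δ ε).c₆ = W.c₆ + 72 * W.b₂ * δ - 864 * ε := by
  simp only [perturb, WeierstrassCurve.c₆, WeierstrassCurve.b₂, WeierstrassCurve.b₄,
    WeierstrassCurve.b₆]
  ring

theorem map_perturb (W : WeierstrassCurve ℤ) {δ ε : ℤ} {p : ℕ} (hδ : (p : ℤ) ∣ δ)
    (hε : (p : ℤ) ∣ ε) :
    (perturb W δ ε).map (Int.castRingHom (ZMod p)) = W.map (Int.castRingHom (ZMod p)) := by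
  rw [← ZMod.intCast_zmod_eq_zero_iff_dvd] at hδ hε
  simp [perturb, WeierstrassCurve.map, hδ, hε]

/-- An integral model with the prescribed `c₄, c₆`, congruent to `W`. -/
theorem exists_model (W : WeierstrassCurve ℤ) {c4 c6 L : ℤ}
    (h4 : 864 * 48 * L ∣ c4 - W.c₄) (h6 : 864 * 48 * L ∣ c6 - W.c₆) :
    ∃ W' : WeierstrassCurve ℤ, W'.c₄ = c4 ∧ W'.c₆ = c6 ∧ ∀ p : ℕ, (p : ℤ) ∣ 6 * L →
      W'.map (Int.castRingHom (ZMod p)) = W.map (Int.castRingHom (ZMod p)) := by
  obtain ⟨k4, hk4⟩ := h4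
  obtain ⟨k6, hk6⟩ := h6
  refine ⟨perturb W (-864 * L * k4) (-48 * L * k6 - 72 * W.b₂ * L * k4), ?_, ?_, fun p hp => ?_⟩
  · rw [c₄_perturb]; linear_combination -hk4
  · rw [c₆_perturb]; linear_combination -hk6
  · refine map_perturb W (hp.trans ⟨-144 * k4, by ring⟩)
      (hp.trans ⟨-8 * k6 - 12 * W.b₂ * k4, by ring⟩)

end Model

theorem exists_den (P : ℚ[X]) (z : ℤ) (hz : P.eval 0 = z) :
    ∃ D : ℤ, D ≠ 0 ∧ ∀ M N : ℤ, D * M ∣ N → ∃ Z : ℤ[X],
      Z.map (Int.castRingHom ℚ) = P.comp (C (N : ℚ) * X) ∧ ∀ m : ℤ, M ∣ Z.eval m - z := by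
  obtain ⟨Q, hQ⟩ := (X_dvd_iff (f := P - C (z : ℚ))).2 (by
    rw [coeff_zero_eq_eval_zero, eval_sub, eval_C, hz, sub_self])
  obtain ⟨⟨D, hD⟩, hD'⟩ := IsLocalization.integerNormalization_map_to_map (nonZeroDivisors ℤ) Q
  refine ⟨D, nonZeroDivisors.ne_zero hD, fun M N ⟨e, he⟩ => ?_⟩
  set Q' := IsLocalization.integerNormalization (nonZeroDivisors ℤ) Q
  refine ⟨C z + C (M * e) * X * Q'.comp (C N * X), ?_, fun m => ⟨e * m * (Q'.comp (C N * X)).eval m,
    by simp; ring⟩⟩
  have hPeq : P = C (z : ℚ) + X * Q := by linear_combination hQ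
  have hQ' : Q'.map (Int.castRingHom ℚ) = C (D : ℚ) * Q := by
    rw [← algebraMap_int_eq, hD']
    ext n
    simp [Submonoid.smul_def]
  rw [Polynomial.map_add, Polynomial.map_mul, Polynomial.map_mul, map_C, map_X, map_comp,
    Polynomial.map_mul, map_C, map_X, map_C, hQ', hPeq]
  simp only [add_comp, mul_comp, X_comp, C_comp, eq_intCast, he, Int.cast_mul, map_mul]
  ring

theorem no_common_zero_of_det {K : Type*} [Field K] (h2 : (2 : K) ≠ 0) (h3 : (3 : K) ≠ 0)
    (h5 : (5 : K) ≠ 0) {x y a b : K} (hdet : x * b - y * a ≠ 0) (t : K)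
    (hH : klH (x + t * a) (y + t * b) = 0) (hT : klT (x + t * a) (y + t * b) = 0) : False := by
  have hs : klH (x + t * a) (y + t * b) ^ 3 - klT (x + t * a) (y + t * b) ^ 2 =
      1728 * klF (x + t * a) (y + t * b) ^ 5 := klein_syzygy _ _
  rw [hH, hT] at hs
  have h1728 : (1728 : K) ≠ 0 := by
    rw [show (1728 : K) = 2 ^ 6 * 3 ^ 3 by norm_num]
    exact mul_ne_zero (pow_ne_zero _ h2) (pow_ne_zero _ h3)
  have hF : klF (x + t * a) (y + t * b) = 0 := by
    have : (1728 : K) * klF (x + t * a) (y + t * b) ^ 5 = 0 := by linear_combination -hs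
    exact (pow_eq_zero_iff (by norm_num)).1 ((mul_eq_zero.1 this).resolve_left h1728)
  obtain ⟨e1, e2⟩ := klH_klF_no_common_zero h5 _ _ hH hF
  exact hdet (by linear_combination b * e1 - a * e2)

theorem residue_eq_zero_iff_mem_nonunits {K : Type*} [Field K] {A : ValuationSubring K} (x : A) :
    IsLocalRing.residue A x = 0 ↔ (x : K) ∈ A.nonunits := by
  rw [IsLocalRing.residue_eq_zero_iff, ValuationSubring.coe_mem_nonunits_iff]

theorem fst_div_snd_contra {K : Type*} [Field K] (A : ValuationSubring K)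
    (h2 : IsLocalRing.residue A 2 ≠ 0) (h3 : IsLocalRing.residue A 3 ≠ 0)
    (h5 : IsLocalRing.residue A 5 ≠ 0) {u v : K} (hH : klH u v ∈ A) (hT : klT u v ∈ A)
    (hr : u / v ∈ A) : v ∈ A := by
  by_contra hv
  have hv0 : v ≠ 0 := fun e => hv (by rw [e]; exact A.zero_mem)
  set z : A := ⟨u / v, hr⟩ with hz
  set e : A := ⟨v⁻¹, (A.mem_or_inv_mem v).resolve_left hv⟩ with he
  have hee : IsLocalRing.residue A e = 0 := by
    rw [IsLocalRing.residue_eq_zero_iff, IsLocalRing.mem_maximalIdeal, mem_nonunits_iff]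
    intro hu
    obtain ⟨f, hf⟩ := hu.exists_right_inv
    apply hv
    have : (f : K) = v := by
      have := congrArg Subtype.val hf
      simp only [he, MulMemClass.coe_mul, OneMemClass.coe_one] at this
      rwa [inv_mul_eq_one₀ hv0, eq_comm] at this
    rw [← this]; exact f.2
  have key : ∀ (φ : A → A → A) (f : K → K → K) (n : ℕ) (hf : f u v ∈ A),
      (∀ a b, ((φ a b : A) : K) = f a b) → n ≠ 0 → (f u v = v ^ n * f (u / v) 1) →
      IsLocalRing.residue A (φ z 1) = 0 := by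
    intro φ f n hf hφ hn hhom
    have : φ z 1 = e ^ n * ⟨f u v, hf⟩ := by
      refine Subtype.ext ?_
      rw [hφ, MulMemClass.coe_mul, SubmonoidClass.coe_pow]
      simp only [he, hz, OneMemClass.coe_one]
      rw [hhom, ← mul_assoc, ← mul_pow, inv_mul_cancel₀ hv0, one_pow, one_mul]
    rw [this, map_mul, map_pow, hee, zero_pow hn, zero_mul]
  have rH := key klH klH 20 hH (fun a b => map_klH A.subtype a b) (by norm_num)
    (klH_ratio u v hv0).1
  have rT := key klT klT 30 hT (fun a b => map_klT A.subtype a b) (by norm_num)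
    (klH_ratio u v hv0).2
  rw [map_klH, map_one] at rH
  rw [map_klT, map_one] at rT
  rw [map_ofNat] at h2 h3 h5
  exact no_common_zero_of_det h2 h3 h5 (x := IsLocalRing.residue A z) (y := 1) (a := 1) (b := 0)
    (by simp) 0 (by simpa using rH) (by simpa using rT)

theorem mem_of_klH_klT_mem {K : Type*} [Field K] (A : ValuationSubring K)
    (h2 : IsLocalRing.residue A 2 ≠ 0) (h3 : IsLocalRing.residue A 3 ≠ 0)
    (h5 : IsLocalRing.residue A 5 ≠ 0) {u v : K} (hH : klH u v ∈ A) (hT : klT u v ∈ A) :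
    u ∈ A ∧ v ∈ A := by
  rcases A.mem_or_inv_mem (u / v) with h | h
  · have hv := fst_div_snd_contra A h2 h3 h5 hH hT h
    refine ⟨?_, hv⟩
    by_cases hv0 : v = 0
    · subst hv0
      by_contra hu
      have h' : (-0 : K) / u ∈ A := by simp [A.zero_mem]
      have := fst_div_snd_contra A h2 h3 h5 (u := -0) (v := u)
        (by convert hH using 1; simp [klH]) (by convert hT using 1; simp [klT]) h'
      exact hu this
    · have := A.mul_mem _ _ h hv
      rwa [div_mul_cancel₀ u hv0] at this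
  · rw [inv_div] at h
    have h' : -v / u ∈ A := by rw [neg_div]; exact A.neg_mem _ h
    have hu := fst_div_snd_contra A h2 h3 h5 (u := -v) (v := u)
      (by convert hH using 1; unfold klH; ring) (by convert hT using 1; unfold klT; ring) h'
    refine ⟨hu, ?_⟩
    by_cases hu0 : u = 0
    · subst hu0
      by_contra hv
      have := fst_div_snd_contra A h2 h3 h5 hH hT (u := 0) (by simp [A.zero_mem])
      exact hv this
    · have := A.mul_mem _ _ h hu
      rwa [div_mul_cancel₀ v hu0] at this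

theorem not_dvd_both {w d : Qb × Qb} (hdet : w.1 * d.2 - w.2 * d.1 = -12 * klF w.1 w.2)
    {k : ℕ} (hd : d = cov w + (k : Qb) • w) {c4 c6 Δ₀ : ℤ}
    (hH : klH w.1 w.2 = (c4 : Qb)) (hT : klT w.1 w.2 = (c6 : Qb))
    (hΔ : c4 ^ 3 - c6 ^ 2 = 1728 * Δ₀) {t c4' c6' : ℤ}
    (hH' : klH (w + (t : Qb) • d).1 (w + (t : Qb) • d).2 = (c4' : Qb))
    (hT' : klT (w + (t : Qb) • d).1 (w + (t : Qb) • d).2 = (c6' : Qb))
    {p : ℕ} (hp : p.Prime) (hp2 : ¬ (p : ℤ) ∣ 30 * Δ₀) :
    ¬ ((p : ℤ) ∣ c4' ∧ (p : ℤ) ∣ c6') := by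
  rintro ⟨h4, h6⟩
  obtain ⟨A, hA⟩ := FLTAgent.Frobenius.exists_liesOverPrime hp
  have hres : ∀ n : ℤ, IsLocalRing.residue A (n : A) = 0 ↔ (p : ℤ) ∣ n := fun n => by
    rw [residue_eq_zero_iff_mem_nonunits]
    have : ((n : A) : Qb) = (n : Qb) := map_intCast A.subtype n
    rw [this]
    exact FLTAgent.Frobenius.intCast_mem_nonunits_iff hp hA n
  have hsmall : ∀ n : ℕ, (n : ℤ) ∣ 30 → n ≠ 1 → ¬ (p : ℤ) ∣ n := fun n hn _ h =>
    hp2 ((h.trans hn).trans (dvd_mul_right _ _))
  have h2 : IsLocalRing.residue A 2 ≠ 0 := fun e =>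
    hsmall 2 (by norm_num) (by norm_num) ((hres 2).1 (by simpa using e))
  have h3 : IsLocalRing.residue A 3 ≠ 0 := fun e =>
    hsmall 3 (by norm_num) (by norm_num) ((hres 3).1 (by simpa using e))
  have h5 : IsLocalRing.residue A 5 ≠ 0 := fun e =>
    hsmall 5 (by norm_num) (by norm_num) ((hres 5).1 (by simpa using e))
  obtain ⟨hu, hv⟩ := mem_of_klH_klT_mem A h2 h3 h5 (u := w.1) (v := w.2)
    (by rw [hH]; exact intCast_mem A c4) (by rw [hT]; exact intCast_mem A c6)
  set u : A := ⟨w.1, hu⟩ with hu'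
  set v : A := ⟨w.2, hv⟩ with hv'
  set a : A := klFv u v + (k : A) * u with ha'
  set b : A := -klFu u v + (k : A) * v with hb'
  have ha : (a : Qb) = d.1 := by
    show A.subtype a = _
    rw [ha', map_add, map_mul, map_klFv]
    simp [hd, cov, hu', hv']
  have hb : (b : Qb) = d.2 := by
    show A.subtype b = _
    rw [hb', map_add, map_mul, map_neg, map_klFu]
    simp [hd, cov, hu', hv']
  set ρ := IsLocalRing.residue A
  have hdet' : u * b - v * a = -12 * klF u v := by
    refine A.subtype_injective ?_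
    simp only [map_sub, map_mul, map_neg, map_ofNat, map_klF]
    show w.1 * (b : Qb) - w.2 * (a : Qb) = _
    rw [ha, hb]; exact hdet
  have hF5 : klF u v ^ 5 = (Δ₀ : A) := by
    refine A.subtype_injective ?_
    rw [map_pow, map_klF, map_intCast]
    show klF w.1 w.2 ^ 5 = _
    have e := klein_syzygy w.1 w.2
    rw [hH, hT] at e
    have h' := congrArg (fun z : ℤ => (z : Qb)) hΔ
    push_cast at h'
    linear_combination (1 / 1728 : Qb) * (h' - e)
  have hne : ρ u * ρ b - ρ v * ρ a ≠ 0 := by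
    rw [← map_mul, ← map_mul, ← map_sub, hdet']
    intro e
    have : ρ ((-12) ^ 5 * (Δ₀ : A)) = 0 := by
      rw [← hF5, ← mul_pow, map_pow, e, zero_pow (by norm_num)]
    rw [show ((-12 : A) ^ 5 * (Δ₀ : A)) = (((-12) ^ 5 * Δ₀ : ℤ) : A) by push_cast; ring, hres] at this
    rcases (Nat.prime_iff_prime_int.1 hp).dvd_or_dvd this with h | h
    · have := (Nat.prime_iff_prime_int.1 hp).dvd_of_dvd_pow h
      rw [show (-12 : ℤ) = -(2 * 2 * 3) by norm_num, dvd_neg] at this
      rcases (Nat.prime_iff_prime_int.1 hp).dvd_or_dvd this with h' | h'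
      · rcases (Nat.prime_iff_prime_int.1 hp).dvd_or_dvd h' with h'' | h'' <;>
          exact hsmall 2 (by norm_num) (by norm_num) (by exact_mod_cast h'')
      · exact hsmall 3 (by norm_num) (by norm_num) (by exact_mod_cast h')
    · exact hp2 (h.mul_left _)
  have hH'' : ρ (klH (u + (t : A) * a) (v + (t : A) * b)) = 0 := by
    rw [show klH (u + (t : A) * a) (v + (t : A) * b) = (c4' : A) by
      refine A.subtype_injective ?_
      rw [map_klH, map_add, map_add, map_mul, map_mul, map_intCast, map_intCast]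
      show klH (w.1 + (t : Qb) * (a : Qb)) (w.2 + (t : Qb) * (b : Qb)) = _
      rw [ha, hb, ← hH']; simp, hres]
    exact h4
  have hT'' : ρ (klT (u + (t : A) * a) (v + (t : A) * b)) = 0 := by
    rw [show klT (u + (t : A) * a) (v + (t : A) * b) = (c6' : A) by
      refine A.subtype_injective ?_
      rw [map_klT, map_add, map_add, map_mul, map_mul, map_intCast, map_intCast]
      show klT (w.1 + (t : Qb) * (a : Qb)) (w.2 + (t : Qb) * (b : Qb)) = _
      rw [ha, hb, ← hT']; simp, hres]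
    exact h6
  simp only [map_klH, map_klT, map_add, map_mul] at hH'' hT''
  have h2' : (2 : IsLocalRing.ResidueField A) ≠ 0 := fun e =>
    h2 (by rw [map_ofNat]; exact e)
  have h3' : (3 : IsLocalRing.ResidueField A) ≠ 0 := fun e =>
    h3 (by rw [map_ofNat]; exact e)
  have h5' : (5 : IsLocalRing.ResidueField A) ≠ 0 := fun e =>
    h5 (by rw [map_ofNat]; exact e)
  exact no_common_zero_of_det h2' h3' h5' hne (ρ (t : A)) hH'' hT''

end FLTAgent.Switch
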